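import Fermat.Agent.S22.Primitive

/-!
# S22 helper package: the tower of decaying primitives of a cuspidal function

`IsCuspidal h f`: `f : ℍ → ℂ` is holomorphic, `h`-periodic and tends to `0` at `i∞`.
`prim h f`: the unique cuspidal primitive of a cuspidal function.
`iterPrim h f n`: the `n`-fold iterated cuspidal primitive.
-/

set_option autoImplicit false

open Complex Filter Function Metric
open UpperHalfPlane hiding I
open scoped Real Topology Manifold

namespace Fermat.Agent.S22

/-- `f : ℍ → ℂ` is holomorphic, `h`-periodic and tends to `0` at `i∞`. -/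
structure IsCuspidal (h : ℝ) (f : ℍ → ℂ) : Prop where
  per : Periodic (f ∘ ofComplex) h
  hol : MDiff f
  zero : IsZeroAtImInfty f

namespace IsCuspidal

variable {h : ℝ} {f g : ℍ → ℂ}

theorem zero_fun (h : ℝ) : IsCuspidal h (0 : ℍ → ℂ) where
  per := fun _ => rfl
  hol := mdifferentiable_const
  zero := tendsto_const_nhds

theorem add (hf : IsCuspidal h f) (hg : IsCuspidal h g) : IsCuspidal h (f + g) where
  per := fun z => by
    have h1 := hf.per z
    have h2 := hg.per z
    simp only [comp_apply, Pi.add_apply] at h1 h2 ⊢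
    rw [h1, h2]
  hol := hf.hol.add hg.hol
  zero := by
    have := hf.zero.add hg.zero
    simpa [IsZeroAtImInfty, ZeroAtFilter] using this

theorem smul (c : ℂ) (hf : IsCuspidal h f) : IsCuspidal h (c • f) where
  per := fun z => by
    have h1 := hf.per z
    simp only [comp_apply, Pi.smul_apply] at h1 ⊢
    rw [h1]
  hol := hf.hol.const_smul c
  zero := by
    have := hf.zero.const_smul c
    simp only [IsZeroAtImInfty, ZeroAtFilter, smul_zero] at this ⊢
    exact this

theorem neg (hf : IsCuspidal h f) : IsCuspidal h (-f) := by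
  have := hf.smul (-1)
  simpa using this

theorem sub (hf : IsCuspidal h f) (hg : IsCuspidal h g) : IsCuspidal h (f - g) := by
  rw [sub_eq_add_neg]
  exact hf.add hg.neg

end IsCuspidal

open Classical in
/-- The cuspidal primitive of a cuspidal function (junk value `0` otherwise). -/
noncomputable def prim (h : ℝ) (f : ℍ → ℂ) : ℍ → ℂ :=
  if H : 0 < h ∧ IsCuspidal h f then
    (exists_primitive_isZeroAtImInfty H.1 H.2.per H.2.hol H.2.zero).choose
  else 0

variable {h : ℝ} {f g : ℍ → ℂ}

theorem isCuspidal_prim (hh : 0 < h) (hf : IsCuspidal h f) : IsCuspidal h (prim h f) := by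
  have H : 0 < h ∧ IsCuspidal h f := ⟨hh, hf⟩
  have hs := (exists_primitive_isZeroAtImInfty H.1 H.2.per H.2.hol H.2.zero).choose_spec
  rw [prim, dif_pos H]
  exact ⟨hs.1, hs.2.1, hs.2.2.1⟩

theorem hasDerivAt_prim (hh : 0 < h) (hf : IsCuspidal h f) (τ : ℍ) :
    HasDerivAt (prim h f ∘ ofComplex) (f τ) τ := by
  have H : 0 < h ∧ IsCuspidal h f := ⟨hh, hf⟩
  have hs := (exists_primitive_isZeroAtImInfty H.1 H.2.per H.2.hol H.2.zero).choose_spec
  rw [prim, dif_pos H]
  exact hs.2.2.2 τ

/-- Characterisation of `prim`: any primitive of `f` tending to `0` at `i∞` is `prim h f`. -/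
theorem eq_prim (hh : 0 < h) (hf : IsCuspidal h f) {F : ℍ → ℂ}
    (hF : ∀ τ : ℍ, HasDerivAt (F ∘ ofComplex) (f τ) τ) (hFz : IsZeroAtImInfty F) :
    F = prim h f :=
  eq_of_hasDerivAt_of_isZeroAtImInfty hF (hasDerivAt_prim hh hf) hFz (isCuspidal_prim hh hf).zero

theorem prim_add (hh : 0 < h) (hf : IsCuspidal h f) (hg : IsCuspidal h g) :
    prim h (f + g) = prim h f + prim h g := by
  symm
  apply eq_prim hh (hf.add hg)
  · intro τ
    exact (hasDerivAt_prim hh hf τ).add (hasDerivAt_prim hh hg τ)
  · exact ((isCuspidal_prim hh hf).add (isCuspidal_prim hh hg)).zero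

theorem prim_smul (hh : 0 < h) (c : ℂ) (hf : IsCuspidal h f) :
    prim h (c • f) = c • prim h f := by
  symm
  apply eq_prim hh (hf.smul c)
  · intro τ
    exact (hasDerivAt_prim hh hf τ).const_smul c
  · exact ((isCuspidal_prim hh hf).smul c).zero

/-- The primitive does not depend on the period used. -/
theorem prim_eq_prim {h' : ℝ} (hh : 0 < h) (hh' : 0 < h') (hf : IsCuspidal h f)
    (hf' : IsCuspidal h' f) : prim h f = prim h' f :=
  eq_prim hh' hf' (hasDerivAt_prim hh hf) (isCuspidal_prim hh hf).zero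

/-- The `n`-fold iterated cuspidal primitive. -/
noncomputable def iterPrim (h : ℝ) (f : ℍ → ℂ) : ℕ → ℍ → ℂ
  | 0 => f
  | n + 1 => prim h (iterPrim h f n)

@[simp] theorem iterPrim_zero (h : ℝ) (f : ℍ → ℂ) : iterPrim h f 0 = f := rfl

theorem iterPrim_succ (h : ℝ) (f : ℍ → ℂ) (n : ℕ) :
    iterPrim h f (n + 1) = prim h (iterPrim h f n) := rfl

theorem isCuspidal_iterPrim (hh : 0 < h) (hf : IsCuspidal h f) (n : ℕ) :
    IsCuspidal h (iterPrim h f n) := by
  induction n with
  | zero => exact hf
  | succ n ih => exact isCuspidal_prim hh ih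

theorem hasDerivAt_iterPrim_succ (hh : 0 < h) (hf : IsCuspidal h f) (n : ℕ) (τ : ℍ) :
    HasDerivAt (iterPrim h f (n + 1) ∘ ofComplex) (iterPrim h f n τ) τ :=
  hasDerivAt_prim hh (isCuspidal_iterPrim hh hf n) τ

theorem iterPrim_succ' (h : ℝ) (f : ℍ → ℂ) (n : ℕ) :
    iterPrim h f (n + 1) = iterPrim h (prim h f) n := by
  induction n with
  | zero => rfl
  | succ n ih => rw [iterPrim_succ, ih, ← iterPrim_succ]

theorem iterPrim_add (hh : 0 < h) (hf : IsCuspidal h f) (hg : IsCuspidal h g) (n : ℕ) :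
    iterPrim h (f + g) n = iterPrim h f n + iterPrim h g n := by
  induction n with
  | zero => rfl
  | succ n ih =>
    rw [iterPrim_succ, ih, prim_add hh (isCuspidal_iterPrim hh hf n) (isCuspidal_iterPrim hh hg n)]
    rfl

theorem iterPrim_smul (hh : 0 < h) (c : ℂ) (hf : IsCuspidal h f) (n : ℕ) :
    iterPrim h (c • f) n = c • iterPrim h f n := by
  induction n with
  | zero => rfl
  | succ n ih =>
    rw [iterPrim_succ, ih, prim_smul hh c (isCuspidal_iterPrim hh hf n)]
    rfl

theorem iterPrim_eq_iterPrim {h' : ℝ} (hh : 0 < h) (hh' : 0 < h') (hf : IsCuspidal h f)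
    (hf' : IsCuspidal h' f) (n : ℕ) : iterPrim h f n = iterPrim h' f n := by
  induction n with
  | zero => rfl
  | succ n ih =>
    rw [iterPrim_succ, iterPrim_succ, ih]
    have h1 := isCuspidal_iterPrim hh hf n
    rw [ih] at h1
    exact prim_eq_prim hh hh' h1 (isCuspidal_iterPrim hh' hf' n)

/-- If an iterated primitive vanishes, so does the function. -/
theorem eq_zero_of_iterPrim_eq_zero (hh : 0 < h) (hf : IsCuspidal h f) (n : ℕ)
    (h0 : iterPrim h f n = 0) : f = 0 := by
  induction n with
  | zero => exact h0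
  | succ n ih =>
    apply ih
    funext τ
    have h1 := hasDerivAt_iterPrim_succ hh hf n τ
    rw [h0] at h1
    have h2 : HasDerivAt ((0 : ℍ → ℂ) ∘ ofComplex) 0 (τ : ℂ) := hasDerivAt_const _ _
    exact h1.unique h2

end Fermat.Agent.S22
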