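import Mathlib
import Fermat.Prelude.Thm_Subgroup_IsArithmetic_exists_nat_mem_strictPeriods_conj
import Fermat.Prelude.Thm_CongruenceSubgroup_one_mem_strictPeriods_Gamma0

/-!
# Auxiliary lemmas for the separation package of S22 (helper20)

Interface-independent lemmas:

* `translate_props` (Fa): every `SL(2,ℤ)`-translate `f ∣[k] s` of a cusp form for `Γ₀(N)` is holomorphic,
  periodic with a common period `M` and zero at `i∞`.
* `polynomial_const_of_periodic`, `isBoundedAtImInfty_of_periodic_add_polynomial` (Fb): if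
  `E = D + P(z)` with `E`, `D` both `M`-periodic and `P` a polynomial, then `P` is constant; hence `E`
  is bounded at `i∞` as soon as `D` is.
* `Fermat.Agent.S22.SepAux.eq_zero_or_const_of_slash_invariant` (Fc): a holomorphic function on `ℍ`
  which is weight `-m` invariant under `Γ₀(N)` and whose `SL(2,ℤ)`-translates are all bounded at
  `i∞` is zero (`m > 0`) or constant (`m = 0`).
-/

set_option autoImplicit false

open UpperHalfPlane Matrix.SpecialLinearGroup OnePoint
open scoped MatrixGroups ModularForm Manifold Pointwise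

namespace Fermat.Agent.S22.SepAux

/-- Package a weight `-m` invariant holomorphic function, bounded at `i∞` after every
`SL(2,ℤ)`-translate, as a modular form of weight `-m` for `Γ₀(N)`. -/
noncomputable def modularFormOfBounded {N : ℕ} [NeZero N] (w : ℤ) (E : ℍ → ℂ)
    (hE : MDiff E)
    (hinv : ∀ g : SL(2, ℤ), g ∈ CongruenceSubgroup.Gamma0 N → E ∣[w] g = E)
    (hbdd : ∀ s : SL(2, ℤ), IsBoundedAtImInfty (E ∣[w] s)) :
    ModularForm (CongruenceSubgroup.Gamma0 N) w where
  toFun := E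
  slash_action_eq' := by
    rintro γ ⟨g, hg, rfl⟩
    exact hinv g hg
  holo' := hE
  bdd_at_cusps' := by
    intro c hc
    rw [Subgroup.IsArithmetic.isCusp_iff_isCusp_SL2Z] at hc
    rw [isBoundedAt_iff_forall_SL2Z hc]
    intro γ _
    exact hbdd γ

@[simp] lemma modularFormOfBounded_apply {N : ℕ} [NeZero N] (w : ℤ) (E : ℍ → ℂ)
    (hE : MDiff E)
    (hinv : ∀ g : SL(2, ℤ), g ∈ CongruenceSubgroup.Gamma0 N → E ∣[w] g = E)
    (hbdd : ∀ s : SL(2, ℤ), IsBoundedAtImInfty (E ∣[w] s)) (z : ℍ) :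
    modularFormOfBounded w E hE hinv hbdd z = E z := rfl

/-- (Fc), negative weight: the function vanishes identically. -/
theorem eq_zero_of_slash_invariant_of_neg {N : ℕ} [NeZero N] {w : ℤ} (hw : w < 0) (E : ℍ → ℂ)
    (hE : MDiff E)
    (hinv : ∀ g : SL(2, ℤ), g ∈ CongruenceSubgroup.Gamma0 N → E ∣[w] g = E)
    (hbdd : ∀ s : SL(2, ℤ), IsBoundedAtImInfty (E ∣[w] s)) : E = 0 := by
  have h := ModularForm.isZero_of_neg_weight hw (modularFormOfBounded (N := N) w E hE hinv hbdd)
  funext z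
  have := congrArg (fun F : ModularForm (CongruenceSubgroup.Gamma0 N) w => F z) h
  simpa using this

/-- (Fc), weight zero: the function is constant. -/
theorem eq_const_of_slash_invariant_of_zero {N : ℕ} [NeZero N] (E : ℍ → ℂ)
    (hE : MDiff E)
    (hinv : ∀ g : SL(2, ℤ), g ∈ CongruenceSubgroup.Gamma0 N → E ∣[(0 : ℤ)] g = E)
    (hbdd : ∀ s : SL(2, ℤ), IsBoundedAtImInfty (E ∣[(0 : ℤ)] s)) :
    ∃ c : ℂ, E = Function.const ℍ c := by
  obtain ⟨c, hc⟩ :=
    ModularForm.eq_const_of_weight_zero (modularFormOfBounded (N := N) 0 E hE hinv hbdd)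
  exact ⟨c, hc⟩

/-- (Fa) -/
theorem translate_props {N : ℕ} [NeZero N] {k : ℤ} (f : CuspForm (CongruenceSubgroup.Gamma0 N) k) :
    ∃ M : ℕ, 0 < M ∧ ∀ s : SL(2, ℤ),
      MDiff ((f : ℍ → ℂ) ∣[k] s) ∧
      Function.Periodic (((f : ℍ → ℂ) ∣[k] s) ∘ ofComplex) (M : ℂ) ∧
      IsZeroAtImInfty ((f : ℍ → ℂ) ∣[k] s) := by
  obtain ⟨M, hM0, hM⟩ := Subgroup.IsArithmetic.exists_nat_mem_strictPeriods_conj
    (CongruenceSubgroup.Gamma0 N : Subgroup (GL (Fin 2) ℝ))
  refine ⟨M, hM0, fun s => ⟨?_, ?_, ?_⟩⟩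
  · exact (f.holo').slash k (mapGL ℝ s)
  · have h := hM s⁻¹
    have := SlashInvariantFormClass.periodic_comp_ofComplex
      (CuspForm.translate f (mapGL ℝ s)) (h := (M : ℝ)) (by simpa using h)
    have h2 : ⇑(CuspForm.translate f (mapGL ℝ s)) = (f : ℍ → ℂ) ∣[k] s := CuspForm.coe_translate f s
    rw [h2] at this
    simpa using this
  · have hc : IsCusp (mapGL ℝ s • ∞) (CongruenceSubgroup.Gamma0 N : Subgroup (GL (Fin 2) ℝ)) := by
      rw [Subgroup.IsArithmetic.isCusp_iff_isCusp_SL2Z]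
      exact isCusp_SL2Z_iff'.mpr ⟨s, rfl⟩
    exact f.zero_at_cusps' hc (mapGL ℝ s) rfl

/-- (Fb), pure polynomial form. -/
theorem polynomial_eq_C_of_periodic {c : ℂ} (hc : c ≠ 0) (P : Polynomial ℂ) (z₀ : ℂ)
    (h : ∀ n : ℕ, P.eval (z₀ + (n + 1 : ℕ) * c) = P.eval (z₀ + n * c)) :
    P = Polynomial.C (P.eval z₀) := by
  have h2 : ∀ n : ℕ, P.eval (z₀ + n * c) = P.eval z₀ := by
    intro n
    induction n with
    | zero => simp
    | succ n ih => rw [h n, ih]
  have hroot : ∀ n : ℕ, (P - Polynomial.C (P.eval z₀)).IsRoot (z₀ + n * c) := by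
    intro n
    simp [Polynomial.IsRoot, h2 n]
  have hinj : Function.Injective (fun n : ℕ => z₀ + n * c) := by
    intro a b hab
    simp only [add_right_inj] at hab
    have := mul_right_cancel₀ hc hab
    exact_mod_cast this
  have : P - Polynomial.C (P.eval z₀) = 0 := by
    apply Polynomial.eq_zero_of_infinite_isRoot
    apply Set.infinite_of_injective_forall_mem hinj
    intro n
    exact hroot n
  exact sub_eq_zero.mp this

theorem polynomial_const_of_periodic {M : ℕ} (hM : 0 < M) (P : Polynomial ℂ) (E D : ℍ → ℂ)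
    (hE : ∀ z : ℍ, E z = D z + P.eval (z : ℂ))
    (hEper : Function.Periodic (E ∘ ofComplex) (M : ℂ))
    (hDper : Function.Periodic (D ∘ ofComplex) (M : ℂ)) :
    P = Polynomial.C (P.eval Complex.I) := by
  have key : ∀ w : ℂ, 0 < w.im → P.eval (w + M) = P.eval w := by
    intro w hw
    have hw' : 0 < (w + (M : ℂ)).im := by simpa using hw
    have e1 := hE (ofComplex (w + M))
    have e2 := hE (ofComplex w)
    rw [ofComplex_apply_of_im_pos hw'] at e1
    rw [ofComplex_apply_of_im_pos hw] at e2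
    have p1 : E (ofComplex (w + M)) = E (ofComplex w) := hEper w
    have p2 : D (ofComplex (w + M)) = D (ofComplex w) := hDper w
    rw [ofComplex_apply_of_im_pos hw'] at p1 p2
    rw [ofComplex_apply_of_im_pos hw] at p1 p2
    have : P.eval (w + M) = E ⟨w + M, hw'⟩ - D ⟨w + M, hw'⟩ := by rw [e1]; ring
    rw [this, p1, p2, e2]; ring
  apply polynomial_eq_C_of_periodic (c := (M : ℂ)) (by exact_mod_cast hM.ne')
  intro n
  have him : 0 < (Complex.I + (n : ℂ) * (M : ℂ)).im := by simp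
  have := key _ him
  rw [← this]
  congr 1
  push_cast
  ring

theorem isBoundedAtImInfty_of_periodic_add_polynomial {M : ℕ} (hM : 0 < M) (P : Polynomial ℂ)
    (E D : ℍ → ℂ)
    (hE : ∀ z : ℍ, E z = D z + P.eval (z : ℂ))
    (hEper : Function.Periodic (E ∘ ofComplex) (M : ℂ))
    (hDper : Function.Periodic (D ∘ ofComplex) (M : ℂ))
    (hD : IsBoundedAtImInfty D) : IsBoundedAtImInfty E := by
  have hP := polynomial_const_of_periodic hM P E D hE hEper hDper
  have hE' : E = D + Function.const ℍ (P.eval Complex.I) := by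
    funext z
    rw [hE z, hP]
    simp
  rw [hE']
  exact Filter.BoundedAtFilter.add hD (Filter.const_boundedAtFilter _ _)

/-- (Fa'), the form itself: holomorphic, `1`-periodic and zero at `i∞`. -/
theorem self_props {N : ℕ} [NeZero N] {k : ℤ} (f : CuspForm (CongruenceSubgroup.Gamma0 N) k) :
    MDiff (f : ℍ → ℂ) ∧ Function.Periodic ((f : ℍ → ℂ) ∘ ofComplex) (1 : ℂ) ∧
      IsZeroAtImInfty (f : ℍ → ℂ) := by
  refine ⟨f.holo', ?_, ?_⟩
  · have := SlashInvariantFormClass.periodic_comp_ofComplex f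
      (CongruenceSubgroup.one_mem_strictPeriods_Gamma0 N)
    simpa using this
  · have hc : IsCusp (mapGL ℝ (1 : SL(2, ℤ)) • ∞)
        (CongruenceSubgroup.Gamma0 N : Subgroup (GL (Fin 2) ℝ)) := by
      rw [Subgroup.IsArithmetic.isCusp_iff_isCusp_SL2Z]
      exact isCusp_SL2Z_iff'.mpr ⟨1, rfl⟩
    have := f.zero_at_cusps' hc (mapGL ℝ (1 : SL(2, ℤ))) rfl
    simpa using this

end Fermat.Agent.S22.SepAux
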