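/-
S22 helper package E (helper36): Hecke stability of the period lattice.

Interface independent: plain functions `ℂ → ℂ` on the upper half plane `{z | 0 < z.im}` and
integer matrices.  Everything lives in the namespace `Fermat.Agent.S22`.
-/
import Mathlib
import Fermat.Prelude.Sol.S_ModularForm_heckeT_slash_eq_self_of_mem_Gamma0

set_option autoImplicit false

open Matrix Filter Topology Complex
open scoped MatrixGroups
open P2MW.S_ModularForm_heckeT_slash_eq_self_of_mem_Gamma0.ModularForm.HeckeSlashInvariance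

namespace Fermat.Agent.S22.HeckeStable

/-! ### Möbius transformations attached to integer matrices -/

/-- Möbius transformation attached to an integer `2 × 2` matrix. -/
noncomputable def mobZ (M : Matrix (Fin 2) (Fin 2) ℤ) (z : ℂ) : ℂ :=
  ((M 0 0 : ℂ) * z + (M 0 1 : ℂ)) / ((M 1 0 : ℂ) * z + (M 1 1 : ℂ))

theorem mobZ_def (M : Matrix (Fin 2) (Fin 2) ℤ) (z : ℂ) :
    mobZ M z = ((M 0 0 : ℂ) * z + (M 0 1 : ℂ)) / ((M 1 0 : ℂ) * z + (M 1 1 : ℂ)) := rfl

/-- The denominator `c z + d` does not vanish on the upper half plane if `(c, d) ≠ (0, 0)`. -/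
theorem mobZ_denom_ne_zero' {c d : ℤ} (hcd : c ≠ 0 ∨ d ≠ 0) {z : ℂ} (hz : 0 < z.im) :
    (c : ℂ) * z + (d : ℂ) ≠ 0 := by
  intro h
  have him := congrArg Complex.im h
  have hre := congrArg Complex.re h
  simp only [add_im, mul_im, intCast_re, intCast_im, zero_mul, add_zero, zero_im,
    add_re, mul_re, sub_zero, zero_re] at him hre
  have hc : (c : ℝ) = 0 := by
    rcases mul_eq_zero.mp him with h1 | h1
    · exact h1
    · exact absurd h1 hz.ne'
  have hc' : c = 0 := by exact_mod_cast hc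
  rw [hc] at hre
  simp only [zero_mul, zero_add] at hre
  have hd' : d = 0 := by exact_mod_cast hre
  rcases hcd with h1 | h1
  · exact h1 hc'
  · exact h1 hd'

theorem mobZ_denom_ne_zero {M : Matrix (Fin 2) (Fin 2) ℤ} (hM : M.det ≠ 0) {z : ℂ}
    (hz : 0 < z.im) : (M 1 0 : ℂ) * z + (M 1 1 : ℂ) ≠ 0 := by
  apply mobZ_denom_ne_zero' _ hz
  by_contra hcon
  simp only [not_or, not_not] at hcon
  apply hM
  rw [Matrix.det_fin_two, hcon.1, hcon.2]
  ring

/-- Imaginary part of a Möbius transform. -/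
theorem mobZ_im (M : Matrix (Fin 2) (Fin 2) ℤ) (z : ℂ) :
    (mobZ M z).im = (M.det : ℝ) * z.im / Complex.normSq ((M 1 0 : ℂ) * z + (M 1 1 : ℂ)) := by
  rw [mobZ_def, Complex.div_im, Matrix.det_fin_two]
  simp only [add_im, mul_im, intCast_re, intCast_im, zero_mul, add_zero, add_re, mul_re,
    sub_zero]
  push_cast
  ring

theorem mobZ_im_pos {M : Matrix (Fin 2) (Fin 2) ℤ} (hM : 0 < M.det) {z : ℂ} (hz : 0 < z.im) :
    0 < (mobZ M z).im := by
  rw [mobZ_im]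
  have hne := mobZ_denom_ne_zero hM.ne' hz
  have hpos : 0 < Complex.normSq ((M 1 0 : ℂ) * z + (M 1 1 : ℂ)) := Complex.normSq_pos.mpr hne
  have hdet : (0 : ℝ) < (M.det : ℝ) := by exact_mod_cast hM
  positivity

/-- Compatibility of `mobZ` with matrix multiplication. -/
theorem mobZ_mul (M M' : Matrix (Fin 2) (Fin 2) ℤ) {z : ℂ}
    (hd : (M' 1 0 : ℂ) * z + (M' 1 1 : ℂ) ≠ 0) :
    mobZ (M * M') z = mobZ M (mobZ M' z) := by
  simp only [mobZ_def, Matrix.mul_apply, Fin.sum_univ_two]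
  push_cast
  set D' : ℂ := (M' 1 0 : ℂ) * z + (M' 1 1 : ℂ) with hD'
  have h1 : (M 0 0 : ℂ) * (((M' 0 0 : ℂ) * z + (M' 0 1 : ℂ)) / D') + (M 0 1 : ℂ) =
      (((M 0 0 : ℂ) * (M' 0 0 : ℂ) + (M 0 1 : ℂ) * (M' 1 0 : ℂ)) * z +
        ((M 0 0 : ℂ) * (M' 0 1 : ℂ) + (M 0 1 : ℂ) * (M' 1 1 : ℂ))) / D' := by
    field_simp
    rw [hD']
    ring
  have h2 : (M 1 0 : ℂ) * (((M' 0 0 : ℂ) * z + (M' 0 1 : ℂ)) / D') + (M 1 1 : ℂ) =
      (((M 1 0 : ℂ) * (M' 0 0 : ℂ) + (M 1 1 : ℂ) * (M' 1 0 : ℂ)) * z +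
        ((M 1 0 : ℂ) * (M' 0 1 : ℂ) + (M 1 1 : ℂ) * (M' 1 1 : ℂ))) / D' := by
    field_simp
    rw [hD']
    ring
  rw [h1, h2, div_div_div_cancel_right₀ hd]

/-! ### Uniqueness of primitives decaying along a vertical line -/

/-- A function with zero derivative on the upper half plane which tends to `0` along one vertical
line vanishes identically on the upper half plane. -/
theorem eq_zero_of_hasDerivAt_zero_of_tendsto {F : ℂ → ℂ}
    (hd : ∀ z : ℂ, 0 < z.im → HasDerivAt F 0 z) {x : ℝ}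
    (hlim : Tendsto (fun y : ℝ => F ((x : ℂ) + (y : ℂ) * I)) atTop (𝓝 0)) :
    ∀ z : ℂ, 0 < z.im → F z = 0 := by
  intro z hz
  have hopen : IsOpen {w : ℂ | 0 < w.im} := isOpen_lt continuous_const Complex.continuous_im
  have hconv : Convex ℝ {w : ℂ | 0 < w.im} := by
    have : {w : ℂ | 0 < w.im} = Complex.imCLM ⁻¹' (Set.Ioi 0) := by
      ext w; simp
    rw [this]
    exact (convex_Ioi 0).is_linear_preimage Complex.imCLM.isLinear
  have hpre : IsPreconnected {w : ℂ | 0 < w.im} := hconv.isPreconnected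
  have hdiff : DifferentiableOn ℂ F {w : ℂ | 0 < w.im} := fun w hw =>
    (hd w hw).differentiableAt.differentiableWithinAt
  have hderiv : Set.EqOn (deriv F) 0 {w : ℂ | 0 < w.im} := fun w hw => (hd w hw).deriv
  have hconst : ∀ y : ℝ, 0 < y → F ((x : ℂ) + (y : ℂ) * I) = F z := by
    intro y hy
    refine hopen.is_const_of_deriv_eq_zero hpre hdiff hderiv ?_ hz
    simp [hy]
  have hev : (fun y : ℝ => F ((x : ℂ) + (y : ℂ) * I)) =ᶠ[atTop] fun _ => F z := by
    filter_upwards [eventually_gt_atTop 0] with y hy using hconst y hy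
  have hlim' : Tendsto (fun _ : ℝ => F z) atTop (𝓝 0) := hlim.congr' hev
  exact tendsto_nhds_unique tendsto_const_nhds hlim'

/-! ### Transformation of vertically decaying primitives under upper triangular matrices -/

/-- The affine map `z ↦ (a z + b) / d` with `a, d > 0` preserves the upper half plane. -/
theorem affine_im_pos {a b d : ℤ} (ha : 0 < a) (hd : 0 < d) {z : ℂ} (hz : 0 < z.im) :
    0 < ((((a : ℂ) * z + (b : ℂ)) / (d : ℂ))).im := by
  have hd' : (0 : ℝ) < (d : ℝ) := by exact_mod_cast hd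
  have ha' : (0 : ℝ) < (a : ℝ) := by exact_mod_cast ha
  have : (((a : ℂ) * z + (b : ℂ)) / (d : ℂ)).im = (a : ℝ) * z.im / (d : ℝ) := by
    have hdc : ((d : ℂ)) = ((d : ℝ) : ℂ) := by push_cast; rfl
    rw [hdc, Complex.div_ofReal_im]
    simp
  rw [this]
  positivity

/-- **Transformation law** of vertically decaying primitives under a finite family of upper
triangular integer matrices `(a r, b r; 0, d r)` with `a r, d r > 0`.

If `Gf i` is the primitive of `f z * z ^ i` decaying along vertical lines, `Gg j` the one of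
`g z * z ^ j`, and `g z = ∑ r, a r ^ (m+1) / d r * f ((a r z + b r) / d r)`, then
`Gg j z = ∑ r, ∑ i, ρadj r j i * Gf i ((a r z + b r) / d r)`, where `ρadj r` is the integer matrix
with `∑ i, ρadj r j i * w ^ i = (d r * w - b r) ^ j * a r ^ (m - j)`. -/
theorem primitive_upperTriangular_transform (m : ℕ) {R : Type*} [Fintype R]
    (a b d : R → ℤ) (ha : ∀ r, 0 < a r) (hd : ∀ r, 0 < d r)
    (ρadj : R → Matrix (Fin (m + 1)) (Fin (m + 1)) ℤ)
    (hρ : ∀ r j (w : ℂ), ∑ i, (ρadj r j i : ℂ) * w ^ (i : ℕ) =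
      ((d r : ℂ) * w - (b r : ℂ)) ^ (j : ℕ) * (a r : ℂ) ^ (m - (j : ℕ)))
    (f g : ℂ → ℂ) (Gf Gg : Fin (m + 1) → ℂ → ℂ)
    (hGf : ∀ i z, 0 < z.im → HasDerivAt (Gf i) (f z * z ^ (i : ℕ)) z)
    (hGf0 : ∀ i (x : ℝ), Tendsto (fun y : ℝ => Gf i ((x : ℂ) + (y : ℂ) * I)) atTop (𝓝 0))
    (hGg : ∀ j z, 0 < z.im → HasDerivAt (Gg j) (g z * z ^ (j : ℕ)) z)
    (hGg0 : ∀ j (x : ℝ), Tendsto (fun y : ℝ => Gg j ((x : ℂ) + (y : ℂ) * I)) atTop (𝓝 0))
    (hg : ∀ z, 0 < z.im → g z =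
      ∑ r, (a r : ℂ) ^ (m + 1) / (d r : ℂ) * f (((a r : ℂ) * z + (b r : ℂ)) / (d r : ℂ))) :
    ∀ j z, 0 < z.im →
      Gg j z = ∑ r, ∑ i, (ρadj r j i : ℂ) * Gf i (((a r : ℂ) * z + (b r : ℂ)) / (d r : ℂ)) := by
  intro j
  -- the difference has zero derivative and decays along the imaginary axis
  set F : ℂ → ℂ := fun z =>
    Gg j z - ∑ r, ∑ i, (ρadj r j i : ℂ) * Gf i (((a r : ℂ) * z + (b r : ℂ)) / (d r : ℂ)) with hF
  have hdc : ∀ r, (d r : ℂ) ≠ 0 := fun r => by exact_mod_cast (hd r).ne'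
  have hderiv : ∀ z : ℂ, 0 < z.im → HasDerivAt F 0 z := by
    intro z hz
    have haff : ∀ r, HasDerivAt (fun z : ℂ => ((a r : ℂ) * z + (b r : ℂ)) / (d r : ℂ))
        ((a r : ℂ) / (d r : ℂ)) z := by
      intro r
      have h1 : HasDerivAt (fun z : ℂ => (a r : ℂ) * z + (b r : ℂ)) ((a r : ℂ)) z := by
        simpa using ((hasDerivAt_id z).const_mul (a r : ℂ)).add_const (b r : ℂ)
      exact h1.div_const _
    have hcomp : ∀ r i, HasDerivAt
        (fun z : ℂ => Gf i (((a r : ℂ) * z + (b r : ℂ)) / (d r : ℂ)))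
        (f (((a r : ℂ) * z + (b r : ℂ)) / (d r : ℂ)) *
          (((a r : ℂ) * z + (b r : ℂ)) / (d r : ℂ)) ^ (i : ℕ) * ((a r : ℂ) / (d r : ℂ))) z := by
      intro r i
      exact (hGf i _ (affine_im_pos (ha r) (hd r) hz)).comp z (haff r)
    have hsum : HasDerivAt
        (fun z : ℂ => ∑ r, ∑ i, (ρadj r j i : ℂ) *
          Gf i (((a r : ℂ) * z + (b r : ℂ)) / (d r : ℂ)))
        (∑ r, ∑ i, (ρadj r j i : ℂ) *
          (f (((a r : ℂ) * z + (b r : ℂ)) / (d r : ℂ)) *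
          (((a r : ℂ) * z + (b r : ℂ)) / (d r : ℂ)) ^ (i : ℕ) * ((a r : ℂ) / (d r : ℂ)))) z := by
      apply HasDerivAt.fun_sum
      intro r _
      apply HasDerivAt.fun_sum
      intro i _
      exact (hcomp r i).const_mul _
    have hval : ∑ r, ∑ i, (ρadj r j i : ℂ) *
          (f (((a r : ℂ) * z + (b r : ℂ)) / (d r : ℂ)) *
          (((a r : ℂ) * z + (b r : ℂ)) / (d r : ℂ)) ^ (i : ℕ) * ((a r : ℂ) / (d r : ℂ))) =
        g z * z ^ (j : ℕ) := by
      rw [hg z hz, Finset.sum_mul]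
      refine Finset.sum_congr rfl fun r _ => ?_
      have h1 : ∑ i, (ρadj r j i : ℂ) *
          (f (((a r : ℂ) * z + (b r : ℂ)) / (d r : ℂ)) *
          (((a r : ℂ) * z + (b r : ℂ)) / (d r : ℂ)) ^ (i : ℕ) * ((a r : ℂ) / (d r : ℂ))) =
          (f (((a r : ℂ) * z + (b r : ℂ)) / (d r : ℂ)) * ((a r : ℂ) / (d r : ℂ))) *
          ∑ i, (ρadj r j i : ℂ) * (((a r : ℂ) * z + (b r : ℂ)) / (d r : ℂ)) ^ (i : ℕ) := by
        rw [Finset.mul_sum]
        refine Finset.sum_congr rfl fun i _ => ?_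
        ring
      rw [h1, hρ r j]
      have h2 : (d r : ℂ) * (((a r : ℂ) * z + (b r : ℂ)) / (d r : ℂ)) - (b r : ℂ) =
          (a r : ℂ) * z := by
        have hdr := hdc r
        field_simp
        ring
      rw [h2, mul_pow]
      have hj : (j : ℕ) ≤ m := Nat.lt_succ_iff.mp j.2
      have h3 : (a r : ℂ) ^ (m + 1) = (a r : ℂ) * ((a r : ℂ) ^ (j : ℕ) * (a r : ℂ) ^ (m - (j : ℕ))) := by
        rw [← pow_add, Nat.add_sub_cancel' hj, pow_succ]
        ring
      rw [h3]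
      have hdr := hdc r
      field_simp
    have := (hGg j z hz).sub hsum
    rw [hval, sub_self] at this
    exact this
  have hlim : Tendsto (fun y : ℝ => F (((0 : ℝ) : ℂ) + (y : ℂ) * I)) atTop (𝓝 0) := by
    have h1 := hGg0 j 0
    have h2 : Tendsto (fun y : ℝ => ∑ r, ∑ i, (ρadj r j i : ℂ) *
        Gf i (((a r : ℂ) * (((0 : ℝ) : ℂ) + (y : ℂ) * I) + (b r : ℂ)) / (d r : ℂ)))
        atTop (𝓝 0) := by
      have : (0 : ℂ) = ∑ r : R, ∑ i : Fin (m + 1), (ρadj r j i : ℂ) * 0 := by simp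
      rw [this]
      apply tendsto_finsetSum
      intro r _
      apply tendsto_finsetSum
      intro i _
      apply Tendsto.const_mul
      -- the argument is `(b r / d r) + ((a r / d r) y) I`
      have hd' : (0 : ℝ) < (d r : ℝ) := by exact_mod_cast hd r
      have ha' : (0 : ℝ) < (a r : ℝ) := by exact_mod_cast ha r
      have harg : ∀ y : ℝ, ((a r : ℂ) * (((0 : ℝ) : ℂ) + (y : ℂ) * I) + (b r : ℂ)) / (d r : ℂ) =
          (((b r : ℝ) / (d r : ℝ) : ℝ) : ℂ) + ((((a r : ℝ) / (d r : ℝ)) * y : ℝ) : ℂ) * I := by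
        intro y
        have := hdc r
        push_cast
        field_simp
        ring
      simp only [harg]
      have hscale : Tendsto (fun y : ℝ => (a r : ℝ) / (d r : ℝ) * y) atTop atTop :=
        tendsto_id.const_mul_atTop (div_pos ha' hd')
      exact (hGf0 i ((b r : ℝ) / (d r : ℝ))).comp hscale
    have := h1.sub h2
    simpa [hF] using this
  intro z hz
  have := eq_zero_of_hasDerivAt_zero_of_tendsto hderiv hlim z hz
  simp only [hF] at this
  exact sub_eq_zero.mp this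

/-! ### The abstract telescoping identity -/

/-- From `α γ = γ' α'` with `det α = det α' = D ≠ 0` we get `adj α * γ' = γ * adj α'`. -/
theorem adjugate_mul_eq_of_mul_eq {α α' γ γ' : Matrix (Fin 2) (Fin 2) ℤ} {D : ℤ} (hD : D ≠ 0)
    (hα : α.det = D) (hα' : α'.det = D) (hcomm : α * γ = γ' * α') :
    α.adjugate * γ' = γ * α'.adjugate := by
  have h1 : α.adjugate * (α * γ) * α'.adjugate = α.adjugate * (γ' * α') * α'.adjugate := by
    rw [hcomm]
  have h2 : α.adjugate * (α * γ) * α'.adjugate = D • (γ * α'.adjugate) := by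
    rw [← Matrix.mul_assoc, Matrix.adjugate_mul, hα, Matrix.smul_mul, Matrix.one_mul,
      Matrix.smul_mul]
  have h3 : α.adjugate * (γ' * α') * α'.adjugate = D • (α.adjugate * γ') := by
    rw [← Matrix.mul_assoc, Matrix.mul_assoc, Matrix.mul_adjugate, hα', Matrix.mul_smul,
      Matrix.mul_one]
  rw [h2, h3] at h1
  exact (smul_right_injective _ hD h1).symm

/-- Complexification of an integer matrix. -/
noncomputable def matC {ι : Type*} (A : Matrix ι ι ℤ) : Matrix ι ι ℂ :=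
  A.map (Int.castRingHom ℂ)

theorem matC_apply {ι : Type*} (A : Matrix ι ι ℤ) (i j : ι) : matC A i j = (A i j : ℂ) := rfl

theorem matC_mul {ι : Type*} [Fintype ι] (A B : Matrix ι ι ℤ) :
    matC (A * B) = matC A * matC B := by
  unfold matC
  exact Matrix.map_mul

theorem matC_mulVec_apply {ι : Type*} [Fintype ι] (A : Matrix ι ι ℤ) (v : ι → ℂ) (j : ι) :
    (matC A *ᵥ v) j = ∑ i, (A j i : ℂ) * v i := by
  simp [Matrix.mulVec, dotProduct, matC_apply]

/-- **Abstract telescoping identity.**  Let `α r` (`r : R`) be integer matrices of positive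
determinant, `γ` an integer matrix of positive determinant, and suppose that right multiplication
by `γ` permutes the `α r` up to left factors `γ' r`:  `α r * γ = γ' r * α (π r)`.

If `Gg = ∑ r, ρ(adj α r) · Gf ∘ α r` (transformation law `H1`) and `Gf` has "period constants"
`cf r` with respect to the `γ' r` (`H3`), then `Gg` has period constants
`∑ r, ρ(adj α r) · cf r` with respect to `γ`. -/
theorem hecke_period_telescope (m : ℕ)
    (ρ : Matrix (Fin 2) (Fin 2) ℤ → Matrix (Fin (m + 1)) (Fin (m + 1)) ℤ)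
    (hρmul : ∀ M M', ρ (M * M') = ρ M * ρ M')
    {R : Type*} [Fintype R] (α : R → Matrix (Fin 2) (Fin 2) ℤ) (hα : ∀ r, 0 < (α r).det)
    (γ : Matrix (Fin 2) (Fin 2) ℤ) (hγ : 0 < γ.det)
    (π : Equiv.Perm R) (γ' : R → Matrix (Fin 2) (Fin 2) ℤ)
    (hcomm : ∀ r, α r * γ = γ' r * α (π r))
    (hadj : ∀ r, (α r).adjugate * γ' r = γ * (α (π r)).adjugate)
    (Gf Gg : Fin (m + 1) → ℂ → ℂ)
    (H1 : ∀ j z, 0 < z.im →
      Gg j z = ∑ r, ∑ i, (ρ (α r).adjugate j i : ℂ) * Gf i (mobZ (α r) z))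
    (cf : R → Fin (m + 1) → ℂ)
    (H3 : ∀ r l w, 0 < w.im →
      Gf l (mobZ (γ' r) w) = cf r l + ∑ n, (ρ (γ' r) l n : ℂ) * Gf n w) :
    ∀ j z, 0 < z.im →
      Gg j (mobZ γ z) - ∑ i, (ρ γ j i : ℂ) * Gg i z =
        ∑ r, ∑ l, (ρ (α r).adjugate j l : ℂ) * cf r l := by
  intro j z hz
  -- vector notation
  set vf : ℂ → Fin (m + 1) → ℂ := fun w n => Gf n w with hvf
  have H1v : ∀ w, 0 < w.im →
      (fun j => Gg j w) = ∑ r, matC (ρ (α r).adjugate) *ᵥ vf (mobZ (α r) w) := by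
    intro w hw
    funext j
    rw [H1 j w hw, Finset.sum_apply]
    refine Finset.sum_congr rfl fun r _ => ?_
    rw [matC_mulVec_apply]
  have H3v : ∀ r w, 0 < w.im →
      vf (mobZ (γ' r) w) = cf r + matC (ρ (γ' r)) *ᵥ vf w := by
    intro r w hw
    funext l
    rw [Pi.add_apply, matC_mulVec_apply]
    exact H3 r l w hw
  have hγz : 0 < (mobZ γ z).im := mobZ_im_pos hγ hz
  -- rewrite the arguments
  have harg : ∀ r, mobZ (α r) (mobZ γ z) = mobZ (γ' r) (mobZ (α (π r)) z) := by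
    intro r
    rw [← mobZ_mul _ _ (mobZ_denom_ne_zero hγ.ne' hz), hcomm r,
      mobZ_mul _ _ (mobZ_denom_ne_zero (hα (π r)).ne' hz)]
  have hmat : ∀ r, matC (ρ (α r).adjugate) * matC (ρ (γ' r)) =
      matC (ρ γ) * matC (ρ (α (π r)).adjugate) := by
    intro r
    rw [← matC_mul, ← matC_mul, ← hρmul, ← hρmul, hadj r]
  have key : (fun j => Gg j (mobZ γ z)) =
      (∑ r, matC (ρ (α r).adjugate) *ᵥ cf r) + matC (ρ γ) *ᵥ (fun i => Gg i z) := by
    have hre : ∑ r, matC (ρ γ) *ᵥ matC (ρ (α r).adjugate) *ᵥ vf (mobZ (α r) z) =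
        ∑ r, matC (ρ γ) *ᵥ matC (ρ (α (π r)).adjugate) *ᵥ vf (mobZ (α (π r)) z) :=
      (Equiv.sum_comp π
        (fun r => matC (ρ γ) *ᵥ matC (ρ (α r).adjugate) *ᵥ vf (mobZ (α r) z))).symm
    rw [H1v _ hγz, H1v z hz, Matrix.mulVec_sum, hre, ← Finset.sum_add_distrib]
    refine Finset.sum_congr rfl fun r _ => ?_
    rw [harg r, H3v r _ (mobZ_im_pos (hα (π r)) hz), Matrix.mulVec_add, Matrix.mulVec_mulVec,
      Matrix.mulVec_mulVec, hmat r]
  have := congrFun key j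
  rw [Pi.add_apply, Finset.sum_apply, matC_mulVec_apply] at this
  rw [this, add_sub_cancel_right]
  refine Finset.sum_congr rfl fun r _ => ?_
  rw [matC_mulVec_apply]

/-! ### Integer Hecke representatives and the coset permutation -/

/-- Integer version of the Hecke coset representatives: `∞ ↦ (p 0; 0 1)`, `j ↦ (1 j; 0 p)`. -/
def heckeRepZ (p : ℕ) (x : OnePoint (ZMod p)) : Matrix (Fin 2) (Fin 2) ℤ :=
  x.elim !![(p : ℤ), 0; 0, 1] (fun j => !![1, (j.val : ℤ); 0, (p : ℤ)])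

theorem heckeRepZ_infty (p : ℕ) : heckeRepZ p (OnePoint.infty) = !![(p : ℤ), 0; 0, 1] := rfl

theorem heckeRepZ_coe (p : ℕ) (j : ZMod p) :
    heckeRepZ p (j : OnePoint (ZMod p)) = !![1, (j.val : ℤ); 0, (p : ℤ)] := rfl

theorem heckeRepZ_one_zero (p : ℕ) (x : OnePoint (ZMod p)) : heckeRepZ p x 1 0 = 0 := by
  induction x using OnePoint.rec with
  | infty => simp [heckeRepZ_infty]
  | coe j => simp [heckeRepZ_coe]

theorem heckeRepZ_det (p : ℕ) (x : OnePoint (ZMod p)) : (heckeRepZ p x).det = (p : ℤ) := by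
  induction x using OnePoint.rec with
  | infty => simp [heckeRepZ_infty, Matrix.det_fin_two]
  | coe j => simp [heckeRepZ_coe, Matrix.det_fin_two]

theorem heckeRepZ_zero_zero_pos {p : ℕ} (hp : 0 < p) (x : OnePoint (ZMod p)) :
    0 < heckeRepZ p x 0 0 := by
  induction x using OnePoint.rec with
  | infty => simpa [heckeRepZ_infty] using hp
  | coe j => simp [heckeRepZ_coe]

theorem heckeRepZ_one_one_pos {p : ℕ} (hp : 0 < p) (x : OnePoint (ZMod p)) :
    0 < heckeRepZ p x 1 1 := by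
  induction x using OnePoint.rec with
  | infty => simp [heckeRepZ_infty]
  | coe j => simpa [heckeRepZ_coe] using hp

theorem heckeRep_val_eq (p : ℕ) (hp : p ≠ 0) (x : OnePoint (ZMod p)) :
    ((heckeRep p x : GL (Fin 2) ℝ) : Matrix (Fin 2) (Fin 2) ℝ) =
      (heckeRepZ p x).map (Int.cast : ℤ → ℝ) := by
  induction x using OnePoint.rec with
  | infty =>
    rw [heckeRep_infty, heckeRepZ_infty, ModularForm.val_heckeDiagMatrix hp]
    ext i j
    fin_cases i <;> fin_cases j <;> simp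
  | coe j =>
    rw [heckeRep_coe, heckeRepZ_coe, ModularForm.val_heckeMatrix hp]
    ext i k
    fin_cases i <;> fin_cases k <;> simp

theorem mapGL_val_eq (g : SL(2, ℤ)) :
    ((Matrix.SpecialLinearGroup.mapGL ℝ g : GL (Fin 2) ℝ) : Matrix (Fin 2) (Fin 2) ℝ) =
      (g : Matrix (Fin 2) (Fin 2) ℤ).map (Int.cast : ℤ → ℝ) := by
  ext i j
  simp

/-- Transfer an identity between images of integer matrices in real matrices back to `ℤ`. -/
theorem int_matrix_eq_of_real {A B C D : Matrix (Fin 2) (Fin 2) ℤ}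
    (h : A.map (Int.cast : ℤ → ℝ) * B.map (Int.cast : ℤ → ℝ) =
      C.map (Int.cast : ℤ → ℝ) * D.map (Int.cast : ℤ → ℝ)) : A * B = C * D := by
  have h1 : (A * B).map (Int.castRingHom ℝ) = (C * D).map (Int.castRingHom ℝ) := by
    rw [Matrix.map_mul, Matrix.map_mul]
    exact h
  exact Matrix.map_injective (Int.cast_injective) h1

/-- **Coset permutation for `T_p`** (`p ∤ N`), in integer matrices. -/
theorem heckeRepZ_mul {p N : ℕ} [Fact p.Prime] (hpN : ¬ p ∣ N) (g : SL(2, ℤ))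
    (hg : (N : ℤ) ∣ g 1 0) (x : OnePoint (ZMod p)) :
    ∃ g' : SL(2, ℤ), (N : ℤ) ∣ g' 1 0 ∧
      heckeRepZ p x * (g : Matrix (Fin 2) (Fin 2) ℤ) =
        (g' : Matrix (Fin 2) (Fin 2) ℤ) * heckeRepZ p (redMatrix p g • x) := by
  have hp : p ≠ 0 := (Fact.out : p.Prime).ne_zero
  obtain ⟨g', hg', hmul⟩ := heckeRep_mul hpN g hg x
  refine ⟨g', hg', ?_⟩
  apply int_matrix_eq_of_real
  have := congrArg (fun M : GL (Fin 2) ℝ => (M : Matrix (Fin 2) (Fin 2) ℝ)) hmul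
  simp only [Units.val_mul] at this
  rw [heckeRep_val_eq p hp, heckeRep_val_eq p hp, mapGL_val_eq, mapGL_val_eq] at this
  exact this

/-- `mobZ` of a Hecke representative is the affine map `z ↦ (a z + b) / d`. -/
theorem mobZ_heckeRepZ (p : ℕ) (x : OnePoint (ZMod p)) (z : ℂ) :
    mobZ (heckeRepZ p x) z =
      ((heckeRepZ p x 0 0 : ℂ) * z + (heckeRepZ p x 0 1 : ℂ)) / (heckeRepZ p x 1 1 : ℂ) := by
  rw [mobZ_def, heckeRepZ_one_zero]
  simp

/-- The sum over the Hecke representatives, rewritten in the shape of `heckeT_apply`. -/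
theorem sum_heckeRepZ_eq (m : ℕ) {p : ℕ} [NeZero p] (f : ℂ → ℂ) (z : ℂ) :
    ∑ x : OnePoint (ZMod p), (heckeRepZ p x 0 0 : ℂ) ^ (m + 1) / (heckeRepZ p x 1 1 : ℂ) *
        f (((heckeRepZ p x 0 0 : ℂ) * z + (heckeRepZ p x 0 1 : ℂ)) / (heckeRepZ p x 1 1 : ℂ)) =
      (p : ℂ)⁻¹ * ∑ j ∈ Finset.range p, f ((z + (j : ℂ)) / (p : ℂ)) +
        (p : ℂ) ^ (m + 1) * f ((p : ℂ) * z) := by
  have h := Fintype.sum_option (fun x : OnePoint (ZMod p) =>
    (heckeRepZ p x 0 0 : ℂ) ^ (m + 1) / (heckeRepZ p x 1 1 : ℂ) *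
      f (((heckeRepZ p x 0 0 : ℂ) * z + (heckeRepZ p x 0 1 : ℂ)) / (heckeRepZ p x 1 1 : ℂ)))
  refine Eq.trans h ?_
  rw [add_comm]
  congr 1
  · rw [sum_range_eq_sum_zmod (p := p), Finset.mul_sum]
    refine Finset.sum_congr rfl fun j _ => ?_
    change (heckeRepZ p (j : OnePoint (ZMod p)) 0 0 : ℂ) ^ (m + 1) /
      (heckeRepZ p (j : OnePoint (ZMod p)) 1 1 : ℂ) *
      f (((heckeRepZ p (j : OnePoint (ZMod p)) 0 0 : ℂ) * z +
        (heckeRepZ p (j : OnePoint (ZMod p)) 0 1 : ℂ)) /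
        (heckeRepZ p (j : OnePoint (ZMod p)) 1 1 : ℂ)) = _
    simp [heckeRepZ_coe]
  · change (heckeRepZ p OnePoint.infty 0 0 : ℂ) ^ (m + 1) /
      (heckeRepZ p OnePoint.infty 1 1 : ℂ) *
      f (((heckeRepZ p OnePoint.infty 0 0 : ℂ) * z +
        (heckeRepZ p OnePoint.infty 0 1 : ℂ)) /
        (heckeRepZ p OnePoint.infty 1 1 : ℂ)) = _
    simp [heckeRepZ_infty]

/-- **Hecke stability for `T_p`, `p ∤ N`.**  For `γ ∈ Γ₀(N)` there are `δ x ∈ Γ₀(N)`
(`x ∈ ℙ¹(𝔽_p)`), depending only on `γ` and `p`, such that the period constants of `g = T_p f`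
at `γ` are the integer combinations `∑ x, ρ(adj α_x) · cf (δ x)` of the period constants of `f`.

Here `Gf i` (resp. `Gg j`) are the primitives of `f z * z ^ i` (resp. `g z * z ^ j`) on the upper
half plane decaying along vertical lines, `ρ` is the integer `Sym^m` representation, and the
"period constants" of `f` are `cf δ l = Gf l (δ w) - ∑ n, ρ δ l n * Gf n w`. -/
theorem exists_heckeT_period_relation (m : ℕ) {p N : ℕ} [Fact p.Prime] (hpN : ¬ p ∣ N)
    (ρ : Matrix (Fin 2) (Fin 2) ℤ → Matrix (Fin (m + 1)) (Fin (m + 1)) ℤ)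
    (hρmul : ∀ M M', ρ (M * M') = ρ M * ρ M')
    (hρpoly : ∀ (M : Matrix (Fin 2) (Fin 2) ℤ) (j : Fin (m + 1)) (w : ℂ),
      ∑ i, (ρ M j i : ℂ) * w ^ (i : ℕ) =
        ((M 0 0 : ℂ) * w + (M 0 1 : ℂ)) ^ (j : ℕ) *
          ((M 1 0 : ℂ) * w + (M 1 1 : ℂ)) ^ (m - (j : ℕ)))
    (γ : SL(2, ℤ)) (hγ : γ ∈ CongruenceSubgroup.Gamma0 N) :
    ∃ δ : OnePoint (ZMod p) → SL(2, ℤ), (∀ x, δ x ∈ CongruenceSubgroup.Gamma0 N) ∧
      ∀ (f g : ℂ → ℂ) (Gf Gg : Fin (m + 1) → ℂ → ℂ),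
        (∀ i z, 0 < z.im → HasDerivAt (Gf i) (f z * z ^ (i : ℕ)) z) →
        (∀ i (x : ℝ), Tendsto (fun y : ℝ => Gf i ((x : ℂ) + (y : ℂ) * I)) atTop (𝓝 0)) →
        (∀ j z, 0 < z.im → HasDerivAt (Gg j) (g z * z ^ (j : ℕ)) z) →
        (∀ j (x : ℝ), Tendsto (fun y : ℝ => Gg j ((x : ℂ) + (y : ℂ) * I)) atTop (𝓝 0)) →
        (∀ z, 0 < z.im → g z =
          (p : ℂ)⁻¹ * ∑ j ∈ Finset.range p, f ((z + (j : ℂ)) / (p : ℂ)) +
            (p : ℂ) ^ (m + 1) * f ((p : ℂ) * z)) →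
        ∀ (cf : SL(2, ℤ) → Fin (m + 1) → ℂ),
        (∀ δ' ∈ CongruenceSubgroup.Gamma0 N, ∀ l w, 0 < w.im →
          Gf l (mobZ (δ' : Matrix (Fin 2) (Fin 2) ℤ) w) =
            cf δ' l + ∑ n, (ρ (δ' : Matrix (Fin 2) (Fin 2) ℤ) l n : ℂ) * Gf n w) →
        ∀ j z, 0 < z.im →
          Gg j (mobZ (γ : Matrix (Fin 2) (Fin 2) ℤ) z) -
              ∑ i, (ρ (γ : Matrix (Fin 2) (Fin 2) ℤ) j i : ℂ) * Gg i z =
            ∑ x, ∑ l, (ρ (heckeRepZ p x).adjugate j l : ℂ) * cf (δ x) l := by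
  have hp : p ≠ 0 := (Fact.out : p.Prime).ne_zero
  have hp0 : 0 < p := Nat.pos_of_ne_zero hp
  have : NeZero p := ⟨hp⟩
  have hγN : (N : ℤ) ∣ γ 1 0 :=
    (ZMod.intCast_zmod_eq_zero_iff_dvd _ _).mp (CongruenceSubgroup.Gamma0_mem.mp hγ)
  choose δ hδN hδmul using heckeRepZ_mul hpN γ hγN
  refine ⟨δ, fun x => CongruenceSubgroup.Gamma0_mem.mpr
    ((ZMod.intCast_zmod_eq_zero_iff_dvd _ _).mpr (hδN x)), ?_⟩
  intro f g Gf Gg hGf hGf0 hGg hGg0 hg cf hcf
  -- transformation law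
  have H1 : ∀ j z, 0 < z.im →
      Gg j z = ∑ x, ∑ i, (ρ (heckeRepZ p x).adjugate j i : ℂ) *
        Gf i (mobZ (heckeRepZ p x) z) := by
    intro j z hz
    have := primitive_upperTriangular_transform m
      (fun x : OnePoint (ZMod p) => heckeRepZ p x 0 0)
      (fun x => heckeRepZ p x 0 1) (fun x => heckeRepZ p x 1 1)
      (fun x => heckeRepZ_zero_zero_pos hp0 x) (fun x => heckeRepZ_one_one_pos hp0 x)
      (fun x => ρ (heckeRepZ p x).adjugate)
      (by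
        intro x j w
        rw [hρpoly]
        simp only [Matrix.adjugate_fin_two, Matrix.of_apply, Matrix.cons_val', Matrix.cons_val_zero,
          Matrix.cons_val_one, Matrix.empty_val', Matrix.cons_val_fin_one, heckeRepZ_one_zero]
        push_cast
        ring)
      f g Gf Gg hGf hGf0 hGg hGg0
      (by
        intro z hz
        rw [hg z hz, sum_heckeRepZ_eq])
      j z hz
    rw [this]
    refine Finset.sum_congr rfl fun x _ => Finset.sum_congr rfl fun i _ => ?_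
    rw [mobZ_heckeRepZ]
  -- telescoping
  have hdetpos : ∀ x, 0 < (heckeRepZ p x).det := fun x => by
    rw [heckeRepZ_det]; exact_mod_cast hp0
  have hγdet : 0 < (γ : Matrix (Fin 2) (Fin 2) ℤ).det := by
    rw [γ.det_coe]; exact one_pos
  have hpZ : (p : ℤ) ≠ 0 := by exact_mod_cast hp
  exact hecke_period_telescope m ρ hρmul (heckeRepZ p) hdetpos
    (γ : Matrix (Fin 2) (Fin 2) ℤ) hγdet (MulAction.toPerm (redMatrix p γ))
    (fun x => (δ x : Matrix (Fin 2) (Fin 2) ℤ)) hδmul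
    (fun x => adjugate_mul_eq_of_mul_eq hpZ (heckeRepZ_det p x) (heckeRepZ_det p _) (hδmul x))
    Gf Gg H1 (fun x => cf (δ x))
    (fun x l w hw => hcf (δ x) (CongruenceSubgroup.Gamma0_mem.mpr
      ((ZMod.intCast_zmod_eq_zero_iff_dvd _ _).mpr (hδN x))) l w hw)

/-! ### The `U_p` case (`p ∣ N`) -/

/-- **Coset permutation for `U_p`** (`p ∣ g 1 0`), in integer matrices. -/
theorem heckeRepZ_coe_mul {p : ℕ} [NeZero p] (g : SL(2, ℤ)) (hc : (p : ℤ) ∣ g 1 0) (x : ZMod p) :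
    ∃ g' : SL(2, ℤ), g' 1 0 = (p : ℤ) * g 1 0 ∧
      heckeRepZ p (x : OnePoint (ZMod p)) * (g : Matrix (Fin 2) (Fin 2) ℤ) =
        (g' : Matrix (Fin 2) (Fin 2) ℤ) *
          heckeRepZ p ((affinePerm g ((ZMod.intCast_zmod_eq_zero_iff_dvd _ _).mpr hc) x : ZMod p) :
            OnePoint (ZMod p)) := by
  have hp : p ≠ 0 := NeZero.ne p
  obtain ⟨g', hg', hmul⟩ := heckeMatrix_mul_of_dvd g hc x
  refine ⟨g', hg', ?_⟩
  apply int_matrix_eq_of_real
  have := congrArg (fun M : GL (Fin 2) ℝ => (M : Matrix (Fin 2) (Fin 2) ℝ)) hmul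
  simp only [Units.val_mul] at this
  rw [← heckeRep_coe, ← heckeRep_coe, heckeRep_val_eq p hp, heckeRep_val_eq p hp, mapGL_val_eq,
    mapGL_val_eq] at this
  exact this

/-- **Hecke stability for `U_p`, `p ∣ N`.**  Same as `exists_heckeT_period_relation`, for
`g z = p⁻¹ ∑_{j < p} f ((z + j) / p)`. -/
theorem exists_heckeU_period_relation (m : ℕ) {p N : ℕ} [NeZero p] (hpN : p ∣ N)
    (ρ : Matrix (Fin 2) (Fin 2) ℤ → Matrix (Fin (m + 1)) (Fin (m + 1)) ℤ)
    (hρmul : ∀ M M', ρ (M * M') = ρ M * ρ M')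
    (hρpoly : ∀ (M : Matrix (Fin 2) (Fin 2) ℤ) (j : Fin (m + 1)) (w : ℂ),
      ∑ i, (ρ M j i : ℂ) * w ^ (i : ℕ) =
        ((M 0 0 : ℂ) * w + (M 0 1 : ℂ)) ^ (j : ℕ) *
          ((M 1 0 : ℂ) * w + (M 1 1 : ℂ)) ^ (m - (j : ℕ)))
    (γ : SL(2, ℤ)) (hγ : γ ∈ CongruenceSubgroup.Gamma0 N) :
    ∃ δ : ZMod p → SL(2, ℤ), (∀ x, δ x ∈ CongruenceSubgroup.Gamma0 N) ∧
      ∀ (f g : ℂ → ℂ) (Gf Gg : Fin (m + 1) → ℂ → ℂ),
        (∀ i z, 0 < z.im → HasDerivAt (Gf i) (f z * z ^ (i : ℕ)) z) →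
        (∀ i (x : ℝ), Tendsto (fun y : ℝ => Gf i ((x : ℂ) + (y : ℂ) * I)) atTop (𝓝 0)) →
        (∀ j z, 0 < z.im → HasDerivAt (Gg j) (g z * z ^ (j : ℕ)) z) →
        (∀ j (x : ℝ), Tendsto (fun y : ℝ => Gg j ((x : ℂ) + (y : ℂ) * I)) atTop (𝓝 0)) →
        (∀ z, 0 < z.im → g z =
          (p : ℂ)⁻¹ * ∑ j ∈ Finset.range p, f ((z + (j : ℂ)) / (p : ℂ))) →
        ∀ (cf : SL(2, ℤ) → Fin (m + 1) → ℂ),
        (∀ δ' ∈ CongruenceSubgroup.Gamma0 N, ∀ l w, 0 < w.im →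
          Gf l (mobZ (δ' : Matrix (Fin 2) (Fin 2) ℤ) w) =
            cf δ' l + ∑ n, (ρ (δ' : Matrix (Fin 2) (Fin 2) ℤ) l n : ℂ) * Gf n w) →
        ∀ j z, 0 < z.im →
          Gg j (mobZ (γ : Matrix (Fin 2) (Fin 2) ℤ) z) -
              ∑ i, (ρ (γ : Matrix (Fin 2) (Fin 2) ℤ) j i : ℂ) * Gg i z =
            ∑ x : ZMod p, ∑ l,
              (ρ (heckeRepZ p (x : OnePoint (ZMod p))).adjugate j l : ℂ) * cf (δ x) l := by
  have hp : p ≠ 0 := NeZero.ne p
  have hp0 : 0 < p := Nat.pos_of_ne_zero hp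
  have hγN : (N : ℤ) ∣ γ 1 0 :=
    (ZMod.intCast_zmod_eq_zero_iff_dvd _ _).mp (CongruenceSubgroup.Gamma0_mem.mp hγ)
  have hc : (p : ℤ) ∣ γ 1 0 := (Int.natCast_dvd_natCast.mpr hpN).trans hγN
  choose δ hδ10 hδmul using heckeRepZ_coe_mul γ hc
  have hδN : ∀ x, δ x ∈ CongruenceSubgroup.Gamma0 N := by
    intro x
    rw [CongruenceSubgroup.Gamma0_mem, hδ10 x]
    push_cast
    rw [CongruenceSubgroup.Gamma0_mem.mp hγ, mul_zero]
  refine ⟨δ, hδN, ?_⟩
  intro f g Gf Gg hGf hGf0 hGg hGg0 hg cf hcf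
  -- transformation law
  have H1 : ∀ j z, 0 < z.im →
      Gg j z = ∑ x : ZMod p, ∑ i,
        (ρ (heckeRepZ p (x : OnePoint (ZMod p))).adjugate j i : ℂ) *
          Gf i (mobZ (heckeRepZ p (x : OnePoint (ZMod p))) z) := by
    intro j z hz
    have := primitive_upperTriangular_transform m
      (fun x : ZMod p => heckeRepZ p (x : OnePoint (ZMod p)) 0 0)
      (fun x => heckeRepZ p (x : OnePoint (ZMod p)) 0 1)
      (fun x => heckeRepZ p (x : OnePoint (ZMod p)) 1 1)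
      (fun x => heckeRepZ_zero_zero_pos hp0 _) (fun x => heckeRepZ_one_one_pos hp0 _)
      (fun x => ρ (heckeRepZ p (x : OnePoint (ZMod p))).adjugate)
      (by
        intro x j w
        rw [hρpoly]
        simp only [Matrix.adjugate_fin_two, Matrix.of_apply, Matrix.cons_val', Matrix.cons_val_zero,
          Matrix.cons_val_one, Matrix.empty_val', Matrix.cons_val_fin_one, heckeRepZ_one_zero]
        push_cast
        ring)
      f g Gf Gg hGf hGf0 hGg hGg0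
      (by
        intro z hz
        rw [hg z hz, sum_range_eq_sum_zmod (p := p), Finset.mul_sum]
        refine Finset.sum_congr rfl fun x _ => ?_
        simp [heckeRepZ_coe])
      j z hz
    rw [this]
    refine Finset.sum_congr rfl fun x _ => Finset.sum_congr rfl fun i _ => ?_
    rw [mobZ_heckeRepZ]
  -- telescoping
  have hdetpos : ∀ x : ZMod p, 0 < (heckeRepZ p (x : OnePoint (ZMod p))).det := fun x => by
    rw [heckeRepZ_det]; exact_mod_cast hp0
  have hγdet : 0 < (γ : Matrix (Fin 2) (Fin 2) ℤ).det := by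
    rw [γ.det_coe]; exact one_pos
  have hpZ : (p : ℤ) ≠ 0 := by exact_mod_cast hp
  exact hecke_period_telescope m ρ hρmul (fun x : ZMod p => heckeRepZ p (x : OnePoint (ZMod p)))
    hdetpos (γ : Matrix (Fin 2) (Fin 2) ℤ) hγdet
    (affinePerm γ ((ZMod.intCast_zmod_eq_zero_iff_dvd _ _).mpr hc))
    (fun x => (δ x : Matrix (Fin 2) (Fin 2) ℤ)) hδmul
    (fun x => adjugate_mul_eq_of_mul_eq hpZ (heckeRepZ_det p _) (heckeRepZ_det p _) (hδmul x))
    Gf Gg H1 (fun x => cf (δ x))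
    (fun x l w hw => hcf (δ x) (hδN x) l w hw)

end Fermat.Agent.S22.HeckeStable
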