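import Mathlib

set_option autoImplicit false
open UpperHalfPlane ModularForm Matrix.SpecialLinearGroup
open scoped MatrixGroups ModularForm Manifold

namespace Fermat.Agent.S22

/-- `σ T^N σ⁻¹ ∈ Γ₀(N)`. -/
theorem conj_T_pow_mem_Gamma0 (N : ℕ) (σ : SL(2, ℤ)) :
    σ * ModularGroup.T ^ (N : ℤ) * σ⁻¹ ∈ CongruenceSubgroup.Gamma0 N := by
  have h1 : ModularGroup.T ^ (N : ℤ) ∈ CongruenceSubgroup.Gamma N :=
    CongruenceSubgroup.ModularGroup_T_pow_mem_Gamma N N dvd_rfl
  have h2 : σ * ModularGroup.T ^ (N : ℤ) * σ⁻¹ ∈ CongruenceSubgroup.Gamma N :=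
    (CongruenceSubgroup.Gamma_normal N).conj_mem _ h1 σ
  rw [CongruenceSubgroup.Gamma_mem] at h2
  rw [CongruenceSubgroup.Gamma0_mem]
  exact h2.2.2.1

/-- Slashing with `T^n` (any weight) is translation by `n`. -/
theorem slash_T_zpow_apply (k : ℤ) (F : ℍ → ℂ) (n : ℤ) (z : ℍ) :
    (F ∣[k] (ModularGroup.T ^ n)) z = F (ModularGroup.T ^ n • z) := by
  rw [SL_slash_apply]
  have : denom (ModularGroup.T ^ n : SL(2, ℤ)) z = 1 := by
    rw [ModularGroup.denom_apply]
    have h1 : (ModularGroup.T ^ n : SL(2, ℤ)) 1 0 = 0 := by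
      rw [ModularGroup.coe_T_zpow]; rfl
    have h2 : (ModularGroup.T ^ n : SL(2, ℤ)) 1 1 = 1 := by
      rw [ModularGroup.coe_T_zpow]; rfl
    simp [h1, h2]
  rw [this, one_zpow, mul_one]

/-- If `E` is `Γ₀(N)`-invariant of weight `k`, then `E ∣[k] σ` is invariant under `z ↦ z + N`. -/
theorem slash_periodic_of_invariant {N : ℕ} {k : ℤ} (E : ℍ → ℂ)
    (hinv : ∀ γ : SL(2, ℤ), γ ∈ CongruenceSubgroup.Gamma0 N → E ∣[k] γ = E)
    (σ : SL(2, ℤ)) (z : ℍ) :
    (E ∣[k] σ) (ModularGroup.T ^ (N : ℤ) • z) = (E ∣[k] σ) z := by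
  rw [← slash_T_zpow_apply k (E ∣[k] σ) N z, ← SlashAction.slash_mul]
  have h : σ * ModularGroup.T ^ (N : ℤ) = (σ * ModularGroup.T ^ (N : ℤ) * σ⁻¹) * σ := by group
  rw [h, SlashAction.slash_mul, hinv _ (conj_T_pow_mem_Gamma0 N σ)]

/-- A polynomial which is invariant under `z ↦ z + N` (`N ≠ 0`) on the upper half plane is
constant. -/
theorem poly_const_of_periodic {N : ℕ} [NeZero N] (P : Polynomial ℂ)
    (h : ∀ z : ℍ, P.eval ((ModularGroup.T ^ (N : ℤ) • z : ℍ) : ℂ) = P.eval (z : ℂ)) :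
    P = Polynomial.C (P.eval Complex.I) := by
  have hN : (N : ℂ) ≠ 0 := Nat.cast_ne_zero.mpr (NeZero.ne N)
  -- all the points `I + n * N` are roots of `P - C (P.eval I)`
  have key : ∀ n : ℕ, ∀ z : ℍ, P.eval ((z : ℂ) + n * N) = P.eval (z : ℂ) := by
    intro n
    induction n with
    | zero => intro z; simp
    | succ n ih =>
      intro z
      have h1 := h z
      rw [ModularGroup.coe_T_zpow_smul_eq] at h1
      have h2 := ih (ModularGroup.T ^ (N : ℤ) • z)
      rw [ModularGroup.coe_T_zpow_smul_eq] at h2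
      rw [← h1, ← h2]
      congr 1
      push_cast
      ring
  have hroots : ∀ n : ℕ, (P - Polynomial.C (P.eval Complex.I)).IsRoot (Complex.I + n * N) := by
    intro n
    have := key n ⟨Complex.I, by simp⟩
    simp only [Polynomial.IsRoot, Polynomial.eval_sub, Polynomial.eval_C]
    rw [sub_eq_zero]
    exact this
  have hinf : (Set.range fun n : ℕ => Complex.I + (n : ℂ) * N).Infinite := by
    apply Set.infinite_range_of_injective
    intro a b hab
    have : (a : ℂ) * N = b * N := add_left_cancel hab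
    have := mul_right_cancel₀ hN this
    exact_mod_cast this
  have hzero : P - Polynomial.C (P.eval Complex.I) = 0 := by
    apply Polynomial.eq_zero_of_infinite_isRoot
    refine hinf.mono ?_
    rintro _ ⟨n, rfl⟩
    exact hroots n
  exact sub_eq_zero.mp hzero

/-- Abstract cusp lemma: if `E` is `Γ₀(N)`-invariant of weight `k` and `E ∣[k] σ = D + P(z)` where
`D` is bounded at `i∞` and invariant under `z ↦ z + N`, and `P` is a polynomial, then `E ∣[k] σ`
is bounded at `i∞`. -/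
theorem isBoundedAtImInfty_slash_of_eq_add_poly {N : ℕ} [NeZero N] {k : ℤ} (E : ℍ → ℂ)
    (hinv : ∀ γ : SL(2, ℤ), γ ∈ CongruenceSubgroup.Gamma0 N → E ∣[k] γ = E)
    (σ : SL(2, ℤ)) (D : ℍ → ℂ) (hD : IsBoundedAtImInfty D)
    (hDper : ∀ z : ℍ, D (ModularGroup.T ^ (N : ℤ) • z) = D z)
    (P : Polynomial ℂ) (hEP : ∀ z : ℍ, (E ∣[k] σ) z = D z + P.eval (z : ℂ)) :
    IsBoundedAtImInfty (E ∣[k] σ) := by
  have hP : P = Polynomial.C (P.eval Complex.I) := by
    apply poly_const_of_periodic (N := N)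
    intro z
    have h1 := slash_periodic_of_invariant E hinv σ z
    rw [hEP, hEP, hDper] at h1
    exact add_left_cancel h1
  have hfun : (E ∣[k] σ) = D + Function.const ℍ (P.eval Complex.I) := by
    funext z
    rw [hEP, hP]
    simp
  rw [hfun]
  exact hD.add (Filter.const_boundedAtFilter _ _)

end Fermat.Agent.S22
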