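import Mathlib

/-!
# Periodicity bridge for S22 (helper20)

`(∀ z, F (T ^ N • z) = F z) ↔ Function.Periodic (F ∘ ofComplex) N`, for `F : ℍ → ℂ`,
in several cast forms.
-/

set_option autoImplicit false

open UpperHalfPlane ModularGroup

namespace Fermat.Agent.S22.SepAux

/-- Translation-invariance under `T ^ n` (integer `n`) is periodicity of the extension
`F ∘ ofComplex` with period `(n : ℂ)`. -/
theorem T_zpow_invariant_iff_periodic (F : ℍ → ℂ) (n : ℤ) :
    (∀ z : ℍ, F (T ^ n • z) = F z) ↔ Function.Periodic (F ∘ ofComplex) (n : ℂ) := by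
  constructor
  · intro h x
    by_cases hx : 0 < x.im
    · have hx' : 0 < (x + (n : ℂ)).im := by simpa using hx
      have e1 : ofComplex (x + (n : ℂ)) = T ^ n • (⟨x, hx⟩ : ℍ) := by
        rw [ofComplex_apply_of_im_pos hx']
        apply UpperHalfPlane.ext
        rw [coe_T_zpow_smul_eq]
      simp only [Function.comp_apply]
      rw [e1, h, ofComplex_apply_of_im_pos hx]
    · have hx0 : x.im ≤ 0 := not_lt.mp hx
      have hx' : (x + (n : ℂ)).im ≤ 0 := by simpa using hx0
      simp only [Function.comp_apply]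
      rw [ofComplex_apply_eq_of_im_nonpos hx' hx0]
  · intro h z
    have := h (z : ℂ)
    simp only [Function.comp_apply, ofComplex_apply] at this
    rw [← this]
    congr 1
    apply UpperHalfPlane.ext
    rw [coe_T_zpow_smul_eq]
    have hpos : 0 < ((z : ℂ) + (n : ℂ)).im := by simpa using z.im_pos
    rw [ofComplex_apply_of_im_pos hpos]

/-- Natural-number exponent, period written `((N : ℝ) : ℂ)`. -/
theorem T_pow_invariant_iff_periodic_ofReal (F : ℍ → ℂ) (N : ℕ) :
    (∀ z : ℍ, F (T ^ N • z) = F z) ↔ Function.Periodic (F ∘ ofComplex) (((N : ℝ)) : ℂ) := by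
  have := T_zpow_invariant_iff_periodic F (N : ℤ)
  simpa using this

/-- Natural-number exponent, period written `(N : ℂ)`. -/
theorem T_pow_invariant_iff_periodic (F : ℍ → ℂ) (N : ℕ) :
    (∀ z : ℍ, F (T ^ N • z) = F z) ↔ Function.Periodic (F ∘ ofComplex) (N : ℂ) := by
  have := T_zpow_invariant_iff_periodic F (N : ℤ)
  simpa using this

/-- Integer exponent written as a `zpow` of a natural cast, period `((N : ℝ) : ℂ)`. -/
theorem T_zpow_natCast_invariant_iff_periodic_ofReal (F : ℍ → ℂ) (N : ℕ) :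
    (∀ z : ℍ, F (T ^ (N : ℤ) • z) = F z) ↔
      Function.Periodic (F ∘ ofComplex) (((N : ℝ)) : ℂ) := by
  have := T_zpow_invariant_iff_periodic F (N : ℤ)
  simpa using this

/-- Version with the vertical translation written as `(N : ℝ) +ᵥ z`. -/
theorem vadd_invariant_iff_periodic (F : ℍ → ℂ) (N : ℕ) :
    (∀ z : ℍ, F ((N : ℝ) +ᵥ z) = F z) ↔ Function.Periodic (F ∘ ofComplex) (N : ℂ) := by
  rw [← T_pow_invariant_iff_periodic]
  have key : ∀ z : ℍ, (N : ℝ) +ᵥ z = T ^ N • z := by
    intro z
    apply UpperHalfPlane.ext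
    have := coe_T_zpow_smul_eq (z := z) (n := (N : ℤ))
    rw [zpow_natCast] at this
    rw [this, UpperHalfPlane.coe_vadd]
    push_cast
    ring
  simp only [key]

end Fermat.Agent.S22.SepAux
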