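import Mathlib

set_option autoImplicit false

namespace Fermat.Agent.S22

/-- Abstract assembly lemma: let `A = Algebra.adjoin ℤ G` be a `ℤ`-subalgebra of `End_ℂ V`.
If there is a finitely generated `ℤ`-submodule `Λ` of the dual `V →ₗ[ℂ] ℂ` which is stable under
precomposition with every generator and separates the points of `V`, then `A` is a finite
`ℤ`-module. -/
theorem moduleFinite_adjoin_of_lattice {V : Type*} [AddCommGroup V] [Module ℂ V]
    (G : Set (Module.End ℂ V)) (Λ : Submodule ℤ (V →ₗ[ℂ] ℂ)) (hfg : Λ.FG)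
    (hstab : ∀ g ∈ G, ∀ φ ∈ Λ, φ.comp g ∈ Λ)
    (hsep : ∀ v : V, (∀ φ ∈ Λ, φ v = 0) → v = 0) :
    Module.Finite ℤ (Algebra.adjoin ℤ G) := by
  classical
  -- stability under the whole algebra
  have hstabA : ∀ a ∈ Algebra.adjoin ℤ G, ∀ φ ∈ Λ, φ.comp a ∈ Λ := by
    intro a ha
    induction ha using Algebra.adjoin_induction with
    | mem g hg => exact hstab g hg
    | algebraMap n =>
      intro φ hφ
      have : φ.comp (algebraMap ℤ (Module.End ℂ V) n) = n • φ := by
        ext v
        simp
      rw [this]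
      exact Λ.smul_mem n hφ
    | add a b _ _ iha ihb =>
      intro φ hφ
      rw [LinearMap.comp_add]
      exact Λ.add_mem (iha φ hφ) (ihb φ hφ)
    | mul a b _ _ iha ihb =>
      intro φ hφ
      have : φ.comp (a * b) = (φ.comp a).comp b := rfl
      rw [this]
      exact ihb _ (iha φ hφ)
  have : Module.Finite ℤ Λ := Module.Finite.iff_fg.mpr hfg
  obtain ⟨s, hs⟩ := hfg
  -- the ℤ-linear map a ↦ (φ ∘ a)_{φ ∈ s}
  let Ψ : (Algebra.adjoin ℤ G) →ₗ[ℤ] (s → Λ) :=
    { toFun := fun a φ => ⟨(φ : V →ₗ[ℂ] ℂ).comp (a : Module.End ℂ V),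
        hstabA a a.2 φ (hs ▸ Submodule.subset_span φ.2)⟩
      map_add' := by
        intro a b
        funext φ
        apply Subtype.ext
        simp [LinearMap.comp_add]
      map_smul' := by
        intro n a
        funext φ
        apply Subtype.ext
        ext v
        simp }
  have hΨ : Function.Injective Ψ := by
    rw [injective_iff_map_eq_zero]
    intro a ha
    apply Subtype.ext
    apply LinearMap.ext
    intro v
    apply hsep
    intro φ hφ
    rw [← hs] at hφ
    induction hφ using Submodule.span_induction with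
    | mem ψ hψ =>
      have := congrArg (fun F : s → Λ => ((F ⟨ψ, hψ⟩ : Λ) : V →ₗ[ℂ] ℂ) v) ha
      simpa [Ψ] using this
    | zero => simp
    | add x y _ _ hx hy => simp [hx, hy]
    | smul n x _ hx => simp [hx]
  exact Module.Finite.of_injective Ψ hΨ

end Fermat.Agent.S22
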