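import Mathlib

/-!
# S22 helper package: finite generation of cocycle-value lattices

* `Fermat.Agent.S22.gamma0_fg` : `Γ₀(N)` is a finitely generated group (`N ≠ 0`).
* `Fermat.Agent.S22.cocycle_closure_fg` : abstract lemma. For a finitely generated group `G`, an
  additive commutative group `A`, a finite index type `ι`, a family of integer matrices
  `ρ : G → Matrix ι ι ℤ` and a twisted cocycle `u : G → ι → A` with `u 1 = 0` and
  `u (g * h) i = ∑ j, ρ h i j • u g j + u h i`, the subgroup of `A` generated by all the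
  coordinates `u g i` is finitely generated.
-/

set_option autoImplicit false

open Matrix

namespace Fermat.Agent.S22

open scoped MatrixGroups

/-- `SL(2, ℤ)` is finitely generated (by `S` and `T`). -/
theorem sl2z_fg : Group.FG SL(2, ℤ) := by
  rw [Group.fg_iff]
  refine ⟨{ModularGroup.S, ModularGroup.T}, ?_, by simp⟩
  exact SpecialLinearGroup.SL2Z_generators

/-- `Γ₀(N)` is a finitely generated group. -/
theorem gamma0_fg (N : ℕ) [NeZero N] : Group.FG (CongruenceSubgroup.Gamma0 N) := by
  have := sl2z_fg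
  exact Subgroup.fg_of_index_ne_zero _

section Cocycle

variable {G A ι : Type*} [Group G] [AddCommGroup A] [Fintype ι]

/-- All coordinates of a twisted cocycle lie in the subgroup generated by the coordinates of its
values on a generating set. -/
theorem cocycle_mem_closure_of_generators (ρ : G → Matrix ι ι ℤ) (u : G → ι → A)
    (h1 : ∀ i, u 1 i = 0)
    (hu : ∀ g h i, u (g * h) i = ∑ j, ρ h i j • u g j + u h i)
    (S : Set G) (hS : Subgroup.closure S = ⊤) (g : G) (i : ι) :
    u g i ∈ AddSubgroup.closure {a : A | ∃ s ∈ S, ∃ j, a = u s j} := by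
  set Λ : AddSubgroup A := AddSubgroup.closure {a : A | ∃ s ∈ S, ∃ j, a = u s j} with hΛ
  have hg : g ∈ Subgroup.closure S := by rw [hS]; trivial
  have key : ∀ i, u g i ∈ Λ := by
    induction hg using Subgroup.closure_induction with
    | mem s hs => exact fun i => AddSubgroup.subset_closure ⟨s, hs, i, rfl⟩
    | one => exact fun i => by rw [h1]; exact Λ.zero_mem
    | mul x y _ _ hx hy =>
      intro i
      rw [hu]
      exact Λ.add_mem (Λ.sum_mem fun j _ => Λ.zsmul_mem (hx j) _) (hy i)
    | inv x _ hx =>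
      intro i
      have h := hu x x⁻¹ i
      rw [mul_inv_cancel, h1] at h
      have h' : u x⁻¹ i = -∑ j, ρ x⁻¹ i j • u x j := by
        rw [eq_neg_iff_add_eq_zero, add_comm]; exact h.symm
      rw [h']
      exact Λ.neg_mem (Λ.sum_mem fun j _ => Λ.zsmul_mem (hx j) _)
  exact key i

/-- The subgroup generated by all coordinates of a twisted cocycle on a finitely generated group
is finitely generated. -/
theorem cocycle_closure_fg [Group.FG G] (ρ : G → Matrix ι ι ℤ) (u : G → ι → A)
    (h1 : ∀ i, u 1 i = 0)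
    (hu : ∀ g h i, u (g * h) i = ∑ j, ρ h i j • u g j + u h i) :
    (AddSubgroup.closure {a : A | ∃ g i, a = u g i}).FG := by
  obtain ⟨S, hS⟩ := Group.fg_iff.mp (inferInstance : Group.FG G)
  obtain ⟨hS, hSfin⟩ := hS
  have heq : AddSubgroup.closure {a : A | ∃ g i, a = u g i} =
      AddSubgroup.closure {a : A | ∃ s ∈ S, ∃ j, a = u s j} := by
    apply le_antisymm
    · rw [AddSubgroup.closure_le]
      rintro a ⟨g, i, rfl⟩
      exact cocycle_mem_closure_of_generators ρ u h1 hu S hS g i
    · apply AddSubgroup.closure_mono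
      rintro a ⟨s, _, j, rfl⟩
      exact ⟨s, j, rfl⟩
  rw [heq]
  have hfin : {a : A | ∃ s ∈ S, ∃ j, a = u s j}.Finite := by
    have : {a : A | ∃ s ∈ S, ∃ j, a = u s j} = ⋃ s ∈ S, Set.range (u s) := by
      ext a
      simp only [Set.mem_ofPred_eq, Set.mem_iUnion, Set.mem_range, exists_prop]
      constructor
      · rintro ⟨s, hs, j, rfl⟩; exact ⟨s, hs, j, rfl⟩
      · rintro ⟨s, hs, j, rfl⟩; exact ⟨s, hs, j, rfl⟩
    rw [this]
    exact hSfin.biUnion fun s _ => Set.finite_range _
  exact (AddSubgroup.fg_iff _).mpr ⟨_, rfl, hfin⟩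

/-- Left-handed variant of `cocycle_mem_closure_of_generators`:
`u (g * h) = u g + ρ g • u h`. -/
theorem cocycle_mem_closure_of_generators_left (ρ : G → Matrix ι ι ℤ) (u : G → ι → A)
    (h1 : ∀ i, u 1 i = 0)
    (hu : ∀ g h i, u (g * h) i = u g i + ∑ j, ρ g i j • u h j)
    (S : Set G) (hS : Subgroup.closure S = ⊤) (g : G) (i : ι) :
    u g i ∈ AddSubgroup.closure {a : A | ∃ s ∈ S, ∃ j, a = u s j} := by
  set Λ : AddSubgroup A := AddSubgroup.closure {a : A | ∃ s ∈ S, ∃ j, a = u s j} with hΛ
  have hg : g ∈ Subgroup.closure S := by rw [hS]; trivial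
  have key : ∀ i, u g i ∈ Λ := by
    induction hg using Subgroup.closure_induction with
    | mem s hs => exact fun i => AddSubgroup.subset_closure ⟨s, hs, i, rfl⟩
    | one => exact fun i => by rw [h1]; exact Λ.zero_mem
    | mul x y _ _ hx hy =>
      intro i
      rw [hu]
      exact Λ.add_mem (hx i) (Λ.sum_mem fun j _ => Λ.zsmul_mem (hy j) _)
    | inv x _ hx =>
      intro i
      have h := hu x⁻¹ x i
      rw [inv_mul_cancel, h1] at h
      have h' : u x⁻¹ i = -∑ j, ρ x⁻¹ i j • u x j := by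
        rw [eq_neg_iff_add_eq_zero]; exact h.symm
      rw [h']
      exact Λ.neg_mem (Λ.sum_mem fun j _ => Λ.zsmul_mem (hx j) _)
  exact key i

/-- Left-handed variant of `cocycle_closure_fg`: `u (g * h) = u g + ρ g • u h`. -/
theorem cocycle_closure_fg_left [Group.FG G] (ρ : G → Matrix ι ι ℤ) (u : G → ι → A)
    (h1 : ∀ i, u 1 i = 0)
    (hu : ∀ g h i, u (g * h) i = u g i + ∑ j, ρ g i j • u h j) :
    (AddSubgroup.closure {a : A | ∃ g i, a = u g i}).FG := by
  obtain ⟨S, hS⟩ := Group.fg_iff.mp (inferInstance : Group.FG G)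
  obtain ⟨hS, hSfin⟩ := hS
  have heq : AddSubgroup.closure {a : A | ∃ g i, a = u g i} =
      AddSubgroup.closure {a : A | ∃ s ∈ S, ∃ j, a = u s j} := by
    apply le_antisymm
    · rw [AddSubgroup.closure_le]
      rintro a ⟨g, i, rfl⟩
      exact cocycle_mem_closure_of_generators_left ρ u h1 hu S hS g i
    · apply AddSubgroup.closure_mono
      rintro a ⟨s, _, j, rfl⟩
      exact ⟨s, j, rfl⟩
  rw [heq]
  have hfin : {a : A | ∃ s ∈ S, ∃ j, a = u s j}.Finite := by
    have : {a : A | ∃ s ∈ S, ∃ j, a = u s j} = ⋃ s ∈ S, Set.range (u s) := by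
      ext a
      simp only [Set.mem_ofPred_eq, Set.mem_iUnion, Set.mem_range, exists_prop]
      constructor
      · rintro ⟨s, hs, j, rfl⟩; exact ⟨s, hs, j, rfl⟩
      · rintro ⟨s, hs, j, rfl⟩; exact ⟨s, hs, j, rfl⟩
    rw [this]
    exact hSfin.biUnion fun s _ => Set.finite_range _
  exact (AddSubgroup.fg_iff _).mpr ⟨_, rfl, hfin⟩

/-- Variant: the cocycle condition `u 1 = 0` follows when `ρ 1 = 1`. -/
theorem cocycle_one_eq_zero [DecidableEq ι] (ρ : G → Matrix ι ι ℤ) (u : G → ι → A)
    (hρ1 : ρ 1 = 1)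
    (hu : ∀ g h i, u (g * h) i = ∑ j, ρ h i j • u g j + u h i) (i : ι) : u 1 i = 0 := by
  have h := hu 1 1 i
  rw [mul_one, hρ1] at h
  have h2 : ∑ j, (1 : Matrix ι ι ℤ) i j • u 1 j = u 1 i := by
    rw [Finset.sum_eq_single i]
    · simp
    · intro j _ hj
      rw [Matrix.one_apply_ne (Ne.symm hj), zero_smul]
    · intro hi; exact absurd (Finset.mem_univ i) hi
  rw [h2] at h
  have := congrArg (fun x => x - u 1 i) h
  simpa using this.symm

end Cocycle

end Fermat.Agent.S22
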