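import Mathlib

/-!
# S22: cuspidal primitives (definition, uniqueness, total choice function)

`IsCuspPrim φ Φ`: `Φ` is a primitive of `φ` on the upper half plane `{0 < im z}` which tends to `0`
along every vertical line.  Such a primitive is unique on the upper half plane, which makes
`cuspPrim φ` (a chosen one, `0` if none exists) additive and homogeneous in `φ`.
-/

set_option autoImplicit false

open Complex Filter Topology

namespace Fermat.Agent.S22

/-- `Φ` is a cuspidal primitive of `φ` on the upper half plane. -/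
structure IsCuspPrim (φ Φ : ℂ → ℂ) : Prop where
  hasDerivAt : ∀ z : ℂ, 0 < z.im → HasDerivAt Φ (φ z) z
  tendsto : ∀ x : ℝ, Tendsto (fun y : ℝ => Φ (x + y * I)) atTop (𝓝 0)

theorem IsCuspPrim.zero : IsCuspPrim 0 0 :=
  ⟨fun z _ => by simp, fun _ => by simp⟩

theorem IsCuspPrim.add {φ ψ Φ Ψ : ℂ → ℂ} (h1 : IsCuspPrim φ Φ) (h2 : IsCuspPrim ψ Ψ) :
    IsCuspPrim (φ + ψ) (Φ + Ψ) :=
  ⟨fun z hz => (h1.hasDerivAt z hz).add (h2.hasDerivAt z hz),
    fun x => by simpa using (h1.tendsto x).add (h2.tendsto x)⟩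

theorem IsCuspPrim.neg {φ Φ : ℂ → ℂ} (h1 : IsCuspPrim φ Φ) : IsCuspPrim (-φ) (-Φ) :=
  ⟨fun z hz => (h1.hasDerivAt z hz).neg, fun x => by simpa using (h1.tendsto x).neg⟩

theorem IsCuspPrim.sub {φ ψ Φ Ψ : ℂ → ℂ} (h1 : IsCuspPrim φ Φ) (h2 : IsCuspPrim ψ Ψ) :
    IsCuspPrim (φ - ψ) (Φ - Ψ) :=
  ⟨fun z hz => (h1.hasDerivAt z hz).sub (h2.hasDerivAt z hz),
    fun x => by simpa using (h1.tendsto x).sub (h2.tendsto x)⟩

theorem IsCuspPrim.const_smul {φ Φ : ℂ → ℂ} (c : ℂ) (h1 : IsCuspPrim φ Φ) :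
    IsCuspPrim (c • φ) (c • Φ) :=
  ⟨fun z hz => (h1.hasDerivAt z hz).const_smul c,
    fun x => by simpa using (h1.tendsto x).const_smul c⟩

theorem IsCuspPrim.sum {ι : Type*} (s : Finset ι) {φ Φ : ι → ℂ → ℂ}
    (h : ∀ i ∈ s, IsCuspPrim (φ i) (Φ i)) : IsCuspPrim (∑ i ∈ s, φ i) (∑ i ∈ s, Φ i) := by
  classical
  induction s using Finset.induction_on with
  | empty => simpa using IsCuspPrim.zero
  | insert a s ha ih =>
    rw [Finset.sum_insert ha, Finset.sum_insert ha]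
    exact (h a (Finset.mem_insert_self a s)).add (ih fun i hi => h i (Finset.mem_insert_of_mem hi))

/-- Only the values of `φ` on the upper half plane matter. -/
theorem IsCuspPrim.congr_left {φ ψ Φ : ℂ → ℂ} (h1 : IsCuspPrim φ Φ)
    (h : ∀ z : ℂ, 0 < z.im → φ z = ψ z) : IsCuspPrim ψ Φ :=
  ⟨fun z hz => h z hz ▸ h1.hasDerivAt z hz, h1.tendsto⟩

/-- A function with zero derivative on the upper half plane which tends to `0` along one vertical
line vanishes on the upper half plane. -/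
theorem eq_zero_of_hasDerivAt_zero_of_tendsto {D : ℂ → ℂ}
    (hD : ∀ z : ℂ, 0 < z.im → HasDerivAt D 0 z) (x : ℝ)
    (hlim : Tendsto (fun y : ℝ => D (x + y * I)) atTop (𝓝 0)) :
    ∀ z : ℂ, 0 < z.im → D z = 0 := by
  have hopen : IsOpen {z : ℂ | 0 < z.im} := isOpen_lt continuous_const Complex.continuous_im
  have hconv : Convex ℝ {z : ℂ | 0 < z.im} := convex_halfSpace_im_gt 0
  have hdiff : DifferentiableOn ℂ D {z : ℂ | 0 < z.im} :=
    fun z hz => (hD z hz).differentiableAt.differentiableWithinAt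
  have hfd : Set.EqOn (fderiv ℂ D) 0 {z : ℂ | 0 < z.im} := by
    intro z hz
    have := (hD z hz).hasFDerivAt.fderiv
    rw [this]
    ext
    simp
  intro z hz
  have hconst : ∀ y : ℝ, 0 < y → D (x + y * I) = D z := by
    intro y hy
    refine hopen.is_const_of_fderiv_eq_zero hconv.isPreconnected hdiff hfd ?_ hz
    simp [hy]
  have h2 : Tendsto (fun y : ℝ => D (x + y * I)) atTop (𝓝 (D z)) := by
    apply tendsto_const_nhds.congr'
    filter_upwards [eventually_gt_atTop 0] with y hy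
    exact (hconst y hy).symm
  exact tendsto_nhds_unique h2 hlim

/-- Uniqueness of cuspidal primitives on the upper half plane. -/
theorem IsCuspPrim.unique {φ Φ Ψ : ℂ → ℂ} (h1 : IsCuspPrim φ Φ) (h2 : IsCuspPrim φ Ψ) :
    ∀ z : ℂ, 0 < z.im → Φ z = Ψ z := by
  have h := h1.sub h2
  intro z hz
  have := eq_zero_of_hasDerivAt_zero_of_tendsto
    (fun z hz => by simpa using h.hasDerivAt z hz) 0 (h.tendsto 0) z hz
  simpa [sub_eq_zero] using this

open Classical in
/-- A chosen cuspidal primitive of `φ` (`0` if there is none). -/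
noncomputable def cuspPrim (φ : ℂ → ℂ) : ℂ → ℂ :=
  if h : ∃ Φ, IsCuspPrim φ Φ then h.choose else 0

theorem isCuspPrim_cuspPrim {φ : ℂ → ℂ} (h : ∃ Φ, IsCuspPrim φ Φ) : IsCuspPrim φ (cuspPrim φ) := by
  unfold cuspPrim
  rw [dif_pos h]
  exact h.choose_spec

theorem cuspPrim_eq {φ Φ : ℂ → ℂ} (h : IsCuspPrim φ Φ) :
    ∀ z : ℂ, 0 < z.im → cuspPrim φ z = Φ z :=
  (isCuspPrim_cuspPrim ⟨Φ, h⟩).unique h

end Fermat.Agent.S22
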