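import Fermat.Agent.S22.SpinePer

/-!
# S22: the period is independent of the base point (proof of INPUT (C))
-/

set_option autoImplicit false

open UpperHalfPlane Complex Filter Topology CuspForm
open scoped MatrixGroups

namespace Fermat.Agent.S22

variable {N w : ℕ}

/-- The Möbius map of an integer matrix as a function on `ℂ`. -/
noncomputable def moebC (γ : SL(2, ℤ)) (z : ℂ) : ℂ :=
  ((γ 0 0 : ℂ) * z + (γ 0 1 : ℂ)) / ((γ 1 0 : ℂ) * z + (γ 1 1 : ℂ))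

theorem coe_smul_eq_moebC (γ : SL(2, ℤ)) (z : ℍ) : ((γ • z : ℍ) : ℂ) = moebC γ (z : ℂ) := by
  rw [UpperHalfPlane.coe_specialLinearGroup_apply]
  simp [moebC]

theorem denomC_ne_zero (γ : SL(2, ℤ)) {z : ℂ} (hz : 0 < z.im) :
    (γ 1 0 : ℂ) * z + (γ 1 1 : ℂ) ≠ 0 := by
  have := UpperHalfPlane.denom_ne_zero (γ : GL (Fin 2) ℝ) ⟨z, hz⟩
  simpa [UpperHalfPlane.denom] using this

theorem moebC_im_pos (γ : SL(2, ℤ)) {z : ℂ} (hz : 0 < z.im) : 0 < (moebC γ z).im := by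
  have := (γ • (⟨z, hz⟩ : ℍ)).im_pos
  rw [← UpperHalfPlane.coe_im, coe_smul_eq_moebC] at this
  exact this

theorem det_eq_one_C (γ : SL(2, ℤ)) :
    (γ 0 0 : ℂ) * (γ 1 1 : ℂ) - (γ 0 1 : ℂ) * (γ 1 0 : ℂ) = 1 := by
  have h := γ.det_coe
  rw [Matrix.det_fin_two] at h
  exact_mod_cast congrArg (fun n : ℤ => (n : ℂ)) h

theorem hasDerivAt_moebC (γ : SL(2, ℤ)) {z : ℂ} (hz : 0 < z.im) :
    HasDerivAt (moebC γ) (1 / ((γ 1 0 : ℂ) * z + (γ 1 1 : ℂ)) ^ 2) z := by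
  have hd := denomC_ne_zero γ hz
  have h1 : HasDerivAt (fun z : ℂ => (γ 0 0 : ℂ) * z + (γ 0 1 : ℂ)) (γ 0 0 : ℂ) z := by
    simpa using ((hasDerivAt_id z).const_mul (γ 0 0 : ℂ)).add_const (γ 0 1 : ℂ)
  have h2 : HasDerivAt (fun z : ℂ => (γ 1 0 : ℂ) * z + (γ 1 1 : ℂ)) (γ 1 0 : ℂ) z := by
    simpa using ((hasDerivAt_id z).const_mul (γ 1 0 : ℂ)).add_const (γ 1 1 : ℂ)
  have h3 := h1.div h2 hd
  have hdet := det_eq_one_C γ
  have h4 : ((γ 0 0 : ℂ) * ((γ 1 0 : ℂ) * z + (γ 1 1 : ℂ)) -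
      ((γ 0 0 : ℂ) * z + (γ 0 1 : ℂ)) * (γ 1 0 : ℂ)) = 1 := by linear_combination hdet
  rw [h4] at h3
  exact h3

/-- Modularity of `f` in terms of `ofComplex` and `moebC`. -/
theorem cuspForm_moebC (f : CF N w) {γ : SL(2, ℤ)} (hγ : γ ∈ CongruenceSubgroup.Gamma0 N)
    {z : ℂ} (hz : 0 < z.im) :
    f (ofComplex (moebC γ z)) = ((γ 1 0 : ℂ) * z + (γ 1 1 : ℂ)) ^ (w + 2) * f (ofComplex z) := by
  have h1 : ofComplex (moebC γ z) = γ • (⟨z, hz⟩ : ℍ) := by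
    apply UpperHalfPlane.ext
    rw [coe_smul_eq_moebC, ofComplex_apply_of_im_pos (moebC_im_pos γ hz)]
  have h2 : ofComplex z = (⟨z, hz⟩ : ℍ) := ofComplex_apply_of_im_pos hz
  rw [h1, h2, SlashInvariantForm.slash_action_eqn_SL'' f hγ]
  congr 1

/-- The derivative of `z ↦ G_j(f)(γ z)`. -/
theorem hasDerivAt_mom_moebC [NeZero N] (f : CF N w) {γ : SL(2, ℤ)}
    (hγ : γ ∈ CongruenceSubgroup.Gamma0 N) (j : Fin (w + 1)) {z : ℂ} (hz : 0 < z.im) :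
    HasDerivAt (fun z => mom f j (moebC γ z))
      (f (ofComplex z) * (((γ 0 0 : ℂ) * z + (γ 0 1 : ℂ)) ^ (j : ℕ) *
        ((γ 1 0 : ℂ) * z + (γ 1 1 : ℂ)) ^ (w - j))) z := by
  have hd := denomC_ne_zero γ hz
  have h1 := (isCuspPrim_mom f j).hasDerivAt (moebC γ z) (moebC_im_pos γ hz)
  have h2 := h1.comp z (hasDerivAt_moebC γ hz)
  refine (h2.congr_deriv ?_ :)
  rw [momFun_apply, cuspForm_moebC f hγ hz, moebC, div_pow]
  have hj : (j : ℕ) ≤ w := Nat.lt_succ_iff.mp j.2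
  have hw : w + 2 = (j : ℕ) + (w - j) + 2 := by omega
  rw [hw, pow_add, pow_add]
  field_simp

/-- The derivative of `z ↦ ∑_i ρ(γ)_{ji} G_i(f)(z)`. -/
theorem hasDerivAt_sum_symMat_mom [NeZero N] (f : CF N w) (γ : SL(2, ℤ)) (j : Fin (w + 1)) {z : ℂ}
    (hz : 0 < z.im) :
    HasDerivAt (fun z => ∑ i : Fin (w + 1), (symMat w γ.1 j i : ℂ) * mom f i z)
      (f (ofComplex z) * (((γ 0 0 : ℂ) * z + (γ 0 1 : ℂ)) ^ (j : ℕ) *
        ((γ 1 0 : ℂ) * z + (γ 1 1 : ℂ)) ^ (w - j))) z := by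
  have h1 : ∀ i : Fin (w + 1), HasDerivAt (fun z => (symMat w γ.1 j i : ℂ) * mom f i z)
      ((symMat w γ.1 j i : ℂ) * (f (ofComplex z) * z ^ (i : ℕ))) z := fun i =>
    ((isCuspPrim_mom f i).hasDerivAt z hz).const_mul _
  have h2 := HasDerivAt.fun_sum (u := Finset.univ) fun i _ => h1 i
  refine (h2.congr_deriv ?_ :)
  have h3 := symMat_eval (R := ℂ) w γ.1 j z
  have h4 : ((γ 0 0 : ℂ) * z + (γ 0 1 : ℂ)) ^ (j : ℕ) * ((γ 1 0 : ℂ) * z + (γ 1 1 : ℂ)) ^ (w - j) =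
      ∑ i : Fin (w + 1), (symMat w γ.1 j i : ℂ) * z ^ (i : ℕ) := by
    rw [h3]
  rw [h4, Finset.mul_sum]
  refine Finset.sum_congr rfl fun i _ => ?_
  ring

/-- INPUT (C): the period is independent of the base point. -/
theorem per_eq_aux [NeZero N] (γ : SL(2, ℤ)) (hγ : γ ∈ CongruenceSubgroup.Gamma0 N)
    (j : Fin (w + 1)) (f : CF N w) (z : ℍ) :
    mom f j ((γ • z : ℍ) : ℂ) - ∑ i : Fin (w + 1), (symMat w γ.1 j i : ℂ) * mom f i (z : ℂ) =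
      per γ j f := by
  set D : ℂ → ℂ := fun z => mom f j (moebC γ z) -
    ∑ i : Fin (w + 1), (symMat w γ.1 j i : ℂ) * mom f i z with hD
  have hDd : ∀ z : ℂ, 0 < z.im → HasDerivAt D 0 z := by
    intro z hz
    have := (hasDerivAt_mom_moebC f hγ j hz).sub (hasDerivAt_sum_symMat_mom f γ j hz)
    rw [sub_self] at this
    exact this
  have hopen : IsOpen {z : ℂ | 0 < z.im} := isOpen_lt continuous_const Complex.continuous_im
  have hconv : Convex ℝ {z : ℂ | 0 < z.im} := convex_halfSpace_im_gt 0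
  have hdiff : DifferentiableOn ℂ D {z : ℂ | 0 < z.im} :=
    fun z hz => (hDd z hz).differentiableAt.differentiableWithinAt
  have hfd : Set.EqOn (fderiv ℂ D) 0 {z : ℂ | 0 < z.im} := by
    intro z hz
    have := (hDd z hz).hasFDerivAt.fderiv
    rw [this]
    ext
    simp
  have hconst : D (z : ℂ) = D ((UpperHalfPlane.I : ℍ) : ℂ) :=
    hopen.is_const_of_fderiv_eq_zero hconv.isPreconnected hdiff hfd z.im_pos
      (UpperHalfPlane.I : ℍ).im_pos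
  rw [per_apply, coe_smul_eq_moebC, coe_smul_eq_moebC]
  exact hconst

end Fermat.Agent.S22
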