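import Fermat.Agent.S22.InputC
import Fermat.Agent.S22.PerEq
import Fermat.Agent.S22.HeckeStable

/-!
# S22: proof of INPUT (E), Hecke stability of the period lattice (helper36)

Glue between the interface-independent package `HeckeStable.lean` and the spine definitions
(`mom`, `per`, `periodLattice`, `symMat`).
-/

set_option autoImplicit false

open UpperHalfPlane Complex Filter Topology CuspForm
open scoped MatrixGroups

namespace Fermat.Agent.S22

namespace HeckeStable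

variable {N w : ℕ}

/-- `moebC` (spine) and `mobZ` (package E) agree. -/
theorem moebC_eq_mobZ (γ : SL(2, ℤ)) (z : ℂ) :
    moebC γ z = mobZ (γ : Matrix (Fin 2) (Fin 2) ℤ) z := rfl

/-- The function `z ↦ f (ofComplex z)` attached to a cusp form. -/
noncomputable def cfun (f : CF N w) : ℂ → ℂ := fun z => f (ofComplex z)

theorem hasDerivAt_mom [NeZero N] (f : CF N w) (i : Fin (w + 1)) (z : ℂ) (hz : 0 < z.im) :
    HasDerivAt (mom f i) (cfun f z * z ^ (i : ℕ)) z :=
  (isCuspPrim_mom f i).hasDerivAt z hz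

theorem tendsto_mom [NeZero N] (f : CF N w) (i : Fin (w + 1)) (x : ℝ) :
    Tendsto (fun y : ℝ => mom f i ((x : ℂ) + (y : ℂ) * Complex.I)) atTop (𝓝 0) :=
  (isCuspPrim_mom f i).tendsto x

/-- Period constants of `f` in the form required by package E. -/
theorem mom_mobZ_eq [NeZero N] (f : CF N w) (δ : SL(2, ℤ))
    (hδ : δ ∈ CongruenceSubgroup.Gamma0 N) (l : Fin (w + 1)) (z : ℂ) (hz : 0 < z.im) :
    mom f l (mobZ (δ : Matrix (Fin 2) (Fin 2) ℤ) z) =
      per δ l f + ∑ n, (symMat w (δ : Matrix (Fin 2) (Fin 2) ℤ) l n : ℂ) * mom f n z := by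
  have h := per_eq δ hδ l f ⟨z, hz⟩
  rw [coe_smul_eq_moebC, moebC_eq_mobZ] at h
  rw [← h]
  simp

/-- `heckeMatrix p j • τ` in terms of `ofComplex`. -/
theorem heckeMatrix_smul_eq {p : ℕ} (hp : p ≠ 0) (j : ℕ) {z : ℂ} (hz : 0 < z.im) :
    ModularForm.heckeMatrix p j • (ofComplex z) = ofComplex ((z + (j : ℂ)) / (p : ℂ)) := by
  have h1 : ofComplex z = (⟨z, hz⟩ : ℍ) := ofComplex_apply_of_im_pos hz
  apply UpperHalfPlane.ext
  rw [ModularForm.coe_heckeMatrix_smul hp, h1]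
  have him : 0 < ((z + (j : ℂ)) / (p : ℂ)).im := by
    rw [← ModularForm.coe_heckeMatrix_smul hp j ⟨z, hz⟩]
    exact (ModularForm.heckeMatrix p j • (⟨z, hz⟩ : ℍ)).im_pos
  rw [ofComplex_apply_of_im_pos him]

/-- `heckeDiagMatrix p • τ` in terms of `ofComplex`. -/
theorem heckeDiagMatrix_smul_eq {p : ℕ} (hp : p ≠ 0) {z : ℂ} (hz : 0 < z.im) :
    ModularForm.heckeDiagMatrix p • (ofComplex z) = ofComplex ((p : ℂ) * z) := by
  have h1 : ofComplex z = (⟨z, hz⟩ : ℍ) := ofComplex_apply_of_im_pos hz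
  apply UpperHalfPlane.ext
  rw [ModularForm.coe_heckeDiagMatrix_smul hp, h1]
  have him : 0 < ((p : ℂ) * z).im := by
    rw [← ModularForm.coe_heckeDiagMatrix_smul hp ⟨z, hz⟩]
    exact (ModularForm.heckeDiagMatrix p • (⟨z, hz⟩ : ℍ)).im_pos
  rw [ofComplex_apply_of_im_pos him]

/-- The `T_p`-image of a cusp form, as a function on `ℂ`. -/
theorem cfun_heckeTLin {p : ℕ} (hp : p.Prime) (hpN : ¬ p ∣ N) (f : CF N w) {z : ℂ}
    (hz : 0 < z.im) :
    cfun (CuspForm.heckeTLin ((w : ℤ) + 2) hp hpN f) z =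
      (p : ℂ)⁻¹ * ∑ j ∈ Finset.range p, cfun f ((z + (j : ℂ)) / (p : ℂ)) +
        (p : ℂ) ^ (w + 1) * cfun f ((p : ℂ) * z) := by
  have hp0 : p ≠ 0 := hp.ne_zero
  unfold cfun
  rw [CuspForm.heckeTLin_apply_apply, ModularForm.heckeT_apply _ hp0]
  rw [heckeDiagMatrix_smul_eq hp0 hz]
  have hexp : ((w : ℤ) + 2 - 1) = ((w + 1 : ℕ) : ℤ) := by push_cast; ring
  rw [hexp, zpow_natCast]
  congr 2
  refine Finset.sum_congr rfl fun j _ => ?_
  rw [heckeMatrix_smul_eq hp0 j hz]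

/-- The `U_p`-image of a cusp form, as a function on `ℂ`. -/
theorem cfun_heckeULin [NeZero N] {p : ℕ} (hp : p ≠ 0) (hpN : p ∣ N) (f : CF N w) {z : ℂ}
    (hz : 0 < z.im) :
    cfun (CuspForm.heckeULin ((w : ℤ) + 2) hpN f) z =
      (p : ℂ)⁻¹ * ∑ j ∈ Finset.range p, cfun f ((z + (j : ℂ)) / (p : ℂ)) := by
  unfold cfun
  rw [CuspForm.heckeULin_apply_apply, ModularForm.heckeU_apply _ hp]
  congr 1
  refine Finset.sum_congr rfl fun j _ => ?_
  rw [heckeMatrix_smul_eq hp j hz]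

/-- `per γ j` evaluated through `mobZ` at the base point `i`. -/
theorem per_apply_mobZ [NeZero N] (γ : SL(2, ℤ)) (j : Fin (w + 1)) (f : CF N w) :
    per γ j f = mom f j (mobZ (γ : Matrix (Fin 2) (Fin 2) ℤ) ((UpperHalfPlane.I : ℍ) : ℂ)) -
      ∑ i : Fin (w + 1), (symMat w (γ : Matrix (Fin 2) (Fin 2) ℤ) j i : ℂ) *
        mom f i ((UpperHalfPlane.I : ℍ) : ℂ) := by
  rw [per_apply, coe_smul_eq_moebC, moebC_eq_mobZ]

/-- Stability under `T_p`, on generators of the lattice. -/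
theorem per_comp_heckeTLin_mem [NeZero N] {p : ℕ} (hp : p.Prime) (hpN : ¬ p ∣ N)
    (γ : SL(2, ℤ)) (hγ : γ ∈ CongruenceSubgroup.Gamma0 N) (j : Fin (w + 1)) :
    (per γ j : CF N w →ₗ[ℂ] ℂ).comp (CuspForm.heckeTLin ((w : ℤ) + 2) hp hpN) ∈
      periodLattice N w := by
  haveI : Fact p.Prime := ⟨hp⟩
  obtain ⟨δ, hδ, hrel⟩ := exists_heckeT_period_relation w hpN (symMat w)
    (fun M M' => symMat_mul w M M') (fun M j z => symMat_eval (R := ℂ) w M j z) γ hγ
  have key : (per γ j : CF N w →ₗ[ℂ] ℂ).comp (CuspForm.heckeTLin ((w : ℤ) + 2) hp hpN) =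
      ∑ x : OnePoint (ZMod p), ∑ l : Fin (w + 1),
        (symMat w (heckeRepZ p x).adjugate j l) • (per (δ x) l : CF N w →ₗ[ℂ] ℂ) := by
    ext f
    rw [LinearMap.comp_apply, per_apply_mobZ]
    have := hrel (cfun f) (cfun (CuspForm.heckeTLin ((w : ℤ) + 2) hp hpN f))
      (fun i => mom f i) (fun i => mom (CuspForm.heckeTLin ((w : ℤ) + 2) hp hpN f) i)
      (fun i z hz => hasDerivAt_mom f i z hz) (fun i x => tendsto_mom f i x)
      (fun i z hz => hasDerivAt_mom _ i z hz) (fun i x => tendsto_mom _ i x)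
      (fun z hz => cfun_heckeTLin hp hpN f hz)
      (fun δ' l => per δ' l f)
      (fun δ' hδ' l z hz => mom_mobZ_eq f δ' hδ' l z hz)
      j ((UpperHalfPlane.I : ℍ) : ℂ) (UpperHalfPlane.I : ℍ).im_pos
    rw [this]
    simp only [LinearMap.sum_apply, LinearMap.smul_apply, zsmul_eq_mul]
  rw [key]
  refine Submodule.sum_mem _ fun x _ => Submodule.sum_mem _ fun l _ => ?_
  exact Submodule.smul_mem _ _ (per_mem_periodLattice (hδ x) l)

/-- Stability under `U_p`, on generators of the lattice. -/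
theorem per_comp_heckeULin_mem [NeZero N] {p : ℕ} (hp : p.Prime) (hpN : p ∣ N)
    (γ : SL(2, ℤ)) (hγ : γ ∈ CongruenceSubgroup.Gamma0 N) (j : Fin (w + 1)) :
    (per γ j : CF N w →ₗ[ℂ] ℂ).comp (CuspForm.heckeULin ((w : ℤ) + 2) hpN) ∈
      periodLattice N w := by
  haveI : NeZero p := ⟨hp.ne_zero⟩
  obtain ⟨δ, hδ, hrel⟩ := exists_heckeU_period_relation w hpN (symMat w)
    (fun M M' => symMat_mul w M M') (fun M j z => symMat_eval (R := ℂ) w M j z) γ hγ
  have key : (per γ j : CF N w →ₗ[ℂ] ℂ).comp (CuspForm.heckeULin ((w : ℤ) + 2) hpN) =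
      ∑ x : ZMod p, ∑ l : Fin (w + 1),
        (symMat w (heckeRepZ p (x : OnePoint (ZMod p))).adjugate j l) •
          (per (δ x) l : CF N w →ₗ[ℂ] ℂ) := by
    ext f
    rw [LinearMap.comp_apply, per_apply_mobZ]
    have := hrel (cfun f) (cfun (CuspForm.heckeULin ((w : ℤ) + 2) hpN f))
      (fun i => mom f i) (fun i => mom (CuspForm.heckeULin ((w : ℤ) + 2) hpN f) i)
      (fun i z hz => hasDerivAt_mom f i z hz) (fun i x => tendsto_mom f i x)
      (fun i z hz => hasDerivAt_mom _ i z hz) (fun i x => tendsto_mom _ i x)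
      (fun z hz => cfun_heckeULin hp.ne_zero hpN f hz)
      (fun δ' l => per δ' l f)
      (fun δ' hδ' l z hz => mom_mobZ_eq f δ' hδ' l z hz)
      j ((UpperHalfPlane.I : ℍ) : ℂ) (UpperHalfPlane.I : ℍ).im_pos
    rw [this]
    simp only [LinearMap.sum_apply, LinearMap.smul_apply, zsmul_eq_mul]
  rw [key]
  refine Submodule.sum_mem _ fun x _ => Submodule.sum_mem _ fun l _ => ?_
  exact Submodule.smul_mem _ _ (per_mem_periodLattice (hδ x) l)

/-- INPUT (E): the period lattice is stable under the transposes of the Hecke generators. -/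
theorem periodLattice_stable_aux [NeZero N] (S : Set ℕ) :
    ∀ g ∈ heckeGenerators N ((w : ℤ) + 2) S, ∀ φ ∈ periodLattice N w,
      φ.comp g ∈ periodLattice N w := by
  intro g hg φ hφ
  refine periodLattice_induction (p := fun φ => φ.comp g ∈ periodLattice N w) ?_ ?_ ?_ ?_ hφ
  · intro γ hγ j
    rcases hg with ⟨ℓ, hℓ, hℓN, -, rfl⟩ | ⟨q, hqN, hq, -, rfl⟩
    · exact per_comp_heckeTLin_mem hℓ hℓN γ hγ j
    · exact per_comp_heckeULin_mem hq hqN γ hγ j
  · show (0 : CF N w →ₗ[ℂ] ℂ).comp g ∈ periodLattice N w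
    rw [LinearMap.zero_comp]
    exact Submodule.zero_mem _
  · intro φ ψ hφ hψ
    show (φ + ψ).comp g ∈ periodLattice N w
    rw [LinearMap.add_comp]
    exact Submodule.add_mem _ hφ hψ
  · intro n φ hφ
    show (n • φ).comp g ∈ periodLattice N w
    have : (n • φ).comp g = n • φ.comp g := by
      ext f
      simp
    rw [this]
    exact Submodule.smul_mem _ n hφ

end HeckeStable

end Fermat.Agent.S22
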