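import Fermat.Agent.S22.Primitive2

/-!
# S22 helper package: decay on vertical strips and cuspidal primitives of `z ^ j * f z`

* `VertDecay F`: `F : ℍ → ℂ` tends to `0` as `im τ → ∞`, uniformly on every vertical strip
  `|re τ| ≤ A`.  (The functions `z ^ j * f z` and their primitives are NOT `IsZeroAtImInfty`,
  since `z ^ j` is unbounded in `re z`; `VertDecay` is the right notion.)
* uniqueness of primitives with `VertDecay`.
* `momPrim h f j`: the primitive of `z ^ j * f z` with `VertDecay`, for `f` cuspidal.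
-/

set_option autoImplicit false

open Complex Filter Function Metric Asymptotics
open UpperHalfPlane hiding I
open scoped Real Topology Manifold

namespace Fermat.Agent.S22

theorem tendsto_add_pow_mul_exp_neg (a : ℕ) (A C : ℝ) {c : ℝ} (hc : 0 < c) :
    Tendsto (fun y : ℝ => (A + y) ^ a * (C * Real.exp (-c * y))) atTop (𝓝 0) := by
  have h1 : Tendsto (fun x : ℝ => x ^ a / Real.exp (c * x)) atTop (𝓝 0) :=
    (isLittleO_pow_exp_pos_mul_atTop a hc).tendsto_div_nhds_zero
  have h2 : Tendsto (fun y : ℝ => A + y) atTop atTop := tendsto_atTop_add_const_left _ _ tendsto_id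
  have h3 := (h1.comp h2).mul_const (C * Real.exp (c * A))
  rw [zero_mul] at h3
  refine h3.congr fun y => ?_
  simp only [comp_apply]
  rw [mul_add, Real.exp_add, neg_mul, Real.exp_neg]
  field_simp

/-- Decay on vertical strips. -/
def VertDecay (F : ℍ → ℂ) : Prop :=
  ∀ A : ℝ, Tendsto F (atImInfty ⊓ 𝓟 {τ : ℍ | |τ.re| ≤ A}) (𝓝 0)

theorem vertDecay_iff {F : ℍ → ℂ} :
    VertDecay F ↔
      ∀ A : ℝ, ∀ ε : ℝ, 0 < ε → ∃ B : ℝ, ∀ τ : ℍ, B ≤ τ.im → |τ.re| ≤ A → ‖F τ‖ ≤ ε := by
  refine forall_congr' fun A => ?_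
  rw [((atImInfty_basis.inf_principal _).tendsto_iff Metric.nhds_basis_closedBall)]
  simp only [true_and, Set.mem_inter_iff, Set.mem_preimage, Set.mem_Ici, Set.mem_ofPred_eq,
    mem_closedBall, dist_zero_right, and_imp]

namespace VertDecay

variable {F G : ℍ → ℂ}

theorem of_isZeroAtImInfty (hF : IsZeroAtImInfty F) : VertDecay F :=
  fun _ => Tendsto.mono_left hF inf_le_left

theorem zero_fun : VertDecay (0 : ℍ → ℂ) := fun _ => tendsto_const_nhds

theorem add (hF : VertDecay F) (hG : VertDecay G) : VertDecay (F + G) := fun A => by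
  have := (hF A).add (hG A)
  rw [add_zero] at this
  exact this

theorem const_mul (c : ℂ) (hF : VertDecay F) : VertDecay (fun τ => c * F τ) := fun A => by
  have := (hF A).const_mul c
  rw [mul_zero] at this
  exact this

theorem smul (c : ℂ) (hF : VertDecay F) : VertDecay (c • F) := hF.const_mul c

theorem neg (hF : VertDecay F) : VertDecay (-F) := fun A => by
  have := (hF A).neg
  rw [neg_zero] at this
  exact this

theorem sub (hF : VertDecay F) (hG : VertDecay G) : VertDecay (F - G) := fun A => by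
  have := (hF A).sub (hG A)
  rw [sub_zero] at this
  exact this

theorem sum {ι : Type*} (s : Finset ι) {F : ι → ℍ → ℂ} (hF : ∀ i ∈ s, VertDecay (F i)) :
    VertDecay (∑ i ∈ s, F i) := by
  classical
  induction s using Finset.induction_on with
  | empty => simpa using zero_fun
  | insert a s ha ih =>
    rw [Finset.sum_insert ha]
    exact (hF a (Finset.mem_insert_self a s)).add
      (ih fun i hi => hF i (Finset.mem_insert_of_mem hi))

/-- Decay along each vertical line. -/
theorem tendsto_vertical (hF : VertDecay F) (x₀ : ℝ) :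
    Tendsto (fun y : ℝ => F (ofComplex (x₀ + y * I))) atTop (𝓝 0) := by
  refine (hF |x₀|).comp ?_
  rw [tendsto_inf]
  constructor
  · rw [atImInfty, tendsto_comap_iff]
    refine tendsto_id.congr' ?_
    filter_upwards [eventually_gt_atTop 0] with y hy
    have : 0 < (x₀ + y * I : ℂ).im := by simpa using hy
    simp [comp_apply, ofComplex_apply_of_im_pos this, UpperHalfPlane.im]
  · rw [tendsto_principal]
    filter_upwards [eventually_gt_atTop 0] with y hy
    have : 0 < (x₀ + y * I : ℂ).im := by simpa using hy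
    simp [ofComplex_apply_of_im_pos this, UpperHalfPlane.re]

/-- A periodic function decaying on vertical strips tends to `0` at `i∞`. -/
theorem isZeroAtImInfty_of_periodic (hF : VertDecay F) {h : ℝ} (hh : 0 < h)
    (hper : Periodic (F ∘ ofComplex) h) : IsZeroAtImInfty F := by
  rw [isZeroAtImInfty_iff]
  intro ε hε
  obtain ⟨B, hB⟩ := vertDecay_iff.mp hF h ε hε
  refine ⟨B, fun τ hτ => ?_⟩
  set n : ℤ := ⌊τ.re / h⌋ with hn
  have him : 0 < ((τ : ℂ) - n * h).im := by simpa using τ.im_pos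
  have h1 : F τ = F ⟨(τ : ℂ) - n * h, him⟩ := by
    have := (hper.int_mul n).sub_eq (τ : ℂ)
    simp only [comp_apply, ofComplex_apply, ofComplex_apply_of_im_pos him] at this
    exact this.symm
  rw [h1]
  apply hB
  · show B ≤ ((τ : ℂ) - n * h).im
    simpa using hτ
  · show |((τ : ℂ) - n * h).re| ≤ h
    have h2 : ((τ : ℂ) - n * h).re = τ.re - n * h := by simp
    rw [h2]
    have h3 : (n : ℝ) ≤ τ.re / h := Int.floor_le _
    have h4 : τ.re / h < n + 1 := Int.lt_floor_add_one _
    rw [le_div_iff₀ hh] at h3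
    rw [div_lt_iff₀ hh] at h4
    rw [abs_le]
    constructor <;> nlinarith

/-- Decay on vertical strips is preserved by upper triangular Möbius transformations. -/
theorem comp_smul (hF : VertDecay F) {g : GL (Fin 2) ℝ} (hg : g 1 0 = 0) :
    VertDecay (fun τ => F (g • τ)) := by
  intro A
  have hre : ∀ τ : ℍ, (g • τ).re = (g 0 0 * τ.re + g 0 1) / g 1 1 := by
    intro τ
    rw [UpperHalfPlane.re_smul]
    simp only [num, denom, hg, Complex.ofReal_zero, zero_mul, zero_add]
    rw [Complex.div_ofReal_re]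
    simp
  refine (hF ((|g 0 0| * A + |g 0 1|) / |g 1 1|)).comp ?_
  rw [tendsto_inf]
  constructor
  · exact (tendsto_smul_atImInfty hg).mono_left inf_le_left
  · rw [tendsto_principal]
    refine eventually_inf_principal.mpr (Eventually.of_forall fun τ hτ => ?_)
    simp only [Set.mem_ofPred_eq] at hτ ⊢
    rw [hre, abs_div]
    apply div_le_div_of_nonneg_right _ (abs_nonneg _)
    calc |g 0 0 * τ.re + g 0 1| ≤ |g 0 0 * τ.re| + |g 0 1| := abs_add_le _ _
      _ = |g 0 0| * |τ.re| + |g 0 1| := by rw [abs_mul]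
      _ ≤ |g 0 0| * A + |g 0 1| := by
          have := mul_le_mul_of_nonneg_left hτ (abs_nonneg (g 0 0))
          linarith

end VertDecay

/-- A cuspidal function times a power of `z` decays on vertical strips. -/
theorem IsCuspidal.vertDecay_pow_mul {h : ℝ} (hh : 0 < h) {F : ℍ → ℂ} (hF : IsCuspidal h F)
    (a : ℕ) : VertDecay (fun τ : ℍ => (τ : ℂ) ^ a * F τ) := by
  intro A
  have hO := hF.zero.exp_decay_atImInfty hh hF.per hF.hol hF.zero.isBoundedAtImInfty
  obtain ⟨C, hC⟩ := hO.bound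
  have hc : 0 < 2 * π / h := by positivity
  have hlim := tendsto_add_pow_mul_exp_neg a A C hc
  have hlim' : Tendsto (fun τ : ℍ => (A + τ.im) ^ a * (C * Real.exp (-(2 * π / h) * τ.im)))
      (atImInfty ⊓ 𝓟 {τ : ℍ | |τ.re| ≤ A}) (𝓝 0) :=
    (hlim.comp tendsto_comap).mono_left inf_le_left
  refine squeeze_zero_norm' ?_ hlim'
  have h1 : ∀ᶠ τ : ℍ in atImInfty ⊓ 𝓟 {τ : ℍ | |τ.re| ≤ A},
      ‖F τ‖ ≤ C * ‖Real.exp (-2 * π * τ.im / h)‖ := hC.filter_mono inf_le_left
  have h2 : ∀ᶠ τ : ℍ in atImInfty ⊓ 𝓟 {τ : ℍ | |τ.re| ≤ A}, |τ.re| ≤ A :=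
    eventually_inf_principal.mpr (Eventually.of_forall fun τ hτ => hτ)
  filter_upwards [h1, h2] with τ hτ1 hτ2
  rw [norm_mul, norm_pow]
  have h3 : ‖(τ : ℂ)‖ ≤ A + τ.im := by
    calc ‖(τ : ℂ)‖ ≤ |(τ : ℂ).re| + |(τ : ℂ).im| := Complex.norm_le_abs_re_add_abs_im _
      _ = |τ.re| + τ.im := by rw [abs_of_pos (show 0 < (τ : ℂ).im from τ.im_pos)]; rfl
      _ ≤ A + τ.im := by linarith
  have h4 : ‖Real.exp (-2 * π * τ.im / h)‖ = Real.exp (-(2 * π / h) * τ.im) := by
    rw [Real.norm_eq_abs, abs_of_pos (Real.exp_pos _)]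
    congr 1
    field_simp
  rw [h4] at hτ1
  exact mul_le_mul (pow_le_pow_left₀ (norm_nonneg _) h3 a) hτ1 (norm_nonneg _)
    (pow_nonneg ((norm_nonneg _).trans h3) a)

/-- A function on `ℍ` with vanishing derivative which decays on vertical strips is zero. -/
theorem eq_zero_of_hasDerivAt_zero_of_vertDecay {F : ℍ → ℂ}
    (hd : ∀ τ : ℍ, HasDerivAt (F ∘ ofComplex) 0 τ) (hz : VertDecay F) : F = 0 := by
  funext τ
  have h1 : Tendsto (fun y : ℝ => F (ofComplex ((0 : ℝ) + y * I))) atTop (𝓝 (F τ)) := by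
    have : (fun y : ℝ => F (ofComplex ((0 : ℝ) + y * I))) = fun _ => F τ :=
      funext fun y => eq_of_hasDerivAt_zero hd _ τ
    rw [this]
    exact tendsto_const_nhds
  exact tendsto_nhds_unique h1 (hz.tendsto_vertical 0)

/-- Two functions on `ℍ` with the same derivative which both decay on vertical strips are
equal. -/
theorem eq_of_hasDerivAt_of_vertDecay {F G : ℍ → ℂ} {f : ℍ → ℂ}
    (hF : ∀ τ : ℍ, HasDerivAt (F ∘ ofComplex) (f τ) τ)
    (hG : ∀ τ : ℍ, HasDerivAt (G ∘ ofComplex) (f τ) τ)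
    (hFz : VertDecay F) (hGz : VertDecay G) : F = G := by
  have h0 : F - G = 0 := by
    apply eq_zero_of_hasDerivAt_zero_of_vertDecay
    · intro τ
      have := (hF τ).sub (hG τ)
      rw [sub_self] at this
      exact this
    · exact hFz.sub hGz
  exact sub_eq_zero.mp h0

/-- Auxiliary family: `momPrimAux h f j s` is the primitive of `z ^ j * iterPrim h f s z`
decaying on vertical strips. -/
noncomputable def momPrimAux (h : ℝ) (f : ℍ → ℂ) : ℕ → ℕ → ℍ → ℂ
  | 0, s => iterPrim h f (s + 1)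
  | j + 1, s => fun τ =>
      (τ : ℂ) ^ (j + 1) * iterPrim h f (s + 1) τ - (j + 1 : ℂ) * momPrimAux h f j (s + 1) τ

variable {h : ℝ} {f g : ℍ → ℂ}

theorem hasDerivAt_momPrimAux (hh : 0 < h) (hf : IsCuspidal h f) (j s : ℕ) (τ : ℍ) :
    HasDerivAt (momPrimAux h f j s ∘ ofComplex) ((τ : ℂ) ^ j * iterPrim h f s τ) τ := by
  induction j generalizing s with
  | zero =>
    simp only [momPrimAux, pow_zero, one_mul]
    exact hasDerivAt_iterPrim_succ hh hf s τ
  | succ j ih =>
    have h1 : HasDerivAt (iterPrim h f (s + 1) ∘ ofComplex) (iterPrim h f s τ) τ :=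
      hasDerivAt_iterPrim_succ hh hf s τ
    have h2 : HasDerivAt (fun z : ℂ => z ^ (j + 1)) ((j + 1 : ℕ) * (τ : ℂ) ^ j) τ := by
      simpa using hasDerivAt_pow (j + 1) (τ : ℂ)
    have h3 := (h2.mul h1).sub ((ih (s + 1)).const_mul (j + 1 : ℂ))
    have h4 : ((j + 1 : ℕ) * (τ : ℂ) ^ j) * (iterPrim h f (s + 1) ∘ ofComplex) τ
        + (τ : ℂ) ^ (j + 1) * iterPrim h f s τ
        - (j + 1 : ℂ) * ((τ : ℂ) ^ j * iterPrim h f (s + 1) τ)
        = (τ : ℂ) ^ (j + 1) * iterPrim h f s τ := by
      simp only [comp_apply, ofComplex_apply]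
      push_cast
      ring
    rw [h4] at h3
    refine h3.congr_of_eventuallyEq ?_
    filter_upwards [isOpen_upperHalfPlaneSet.mem_nhds τ.im_pos] with z hz
    simp only [comp_apply, momPrimAux, ofComplex_apply_of_im_pos hz, Pi.sub_apply, Pi.mul_apply]

theorem vertDecay_momPrimAux (hh : 0 < h) (hf : IsCuspidal h f) (j s : ℕ) :
    VertDecay (momPrimAux h f j s) := by
  induction j generalizing s with
  | zero =>
    intro A
    exact Tendsto.mono_left (isCuspidal_iterPrim hh hf (s + 1)).zero inf_le_left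
  | succ j ih =>
    exact ((isCuspidal_iterPrim hh hf (s + 1)).vertDecay_pow_mul hh (j + 1)).sub
      ((ih (s + 1)).const_mul (j + 1 : ℂ))

theorem momPrimAux_add (hh : 0 < h) (hf : IsCuspidal h f) (hg : IsCuspidal h g) (j s : ℕ) :
    momPrimAux h (f + g) j s = momPrimAux h f j s + momPrimAux h g j s := by
  induction j generalizing s with
  | zero => exact iterPrim_add hh hf hg (s + 1)
  | succ j ih =>
    funext τ
    simp only [momPrimAux, ih (s + 1), iterPrim_add hh hf hg (s + 1), Pi.add_apply]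
    ring

theorem momPrimAux_smul (hh : 0 < h) (c : ℂ) (hf : IsCuspidal h f) (j s : ℕ) :
    momPrimAux h (c • f) j s = c • momPrimAux h f j s := by
  induction j generalizing s with
  | zero => exact iterPrim_smul hh c hf (s + 1)
  | succ j ih =>
    funext τ
    simp only [momPrimAux, ih (s + 1), iterPrim_smul hh c hf (s + 1), Pi.smul_apply, smul_eq_mul]
    ring

/-- `momPrim h f j` is the primitive of `z ^ j * f z` decaying on vertical strips
(for `f` cuspidal of period `h`). -/
noncomputable def momPrim (h : ℝ) (f : ℍ → ℂ) (j : ℕ) : ℍ → ℂ := momPrimAux h f j 0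

theorem hasDerivAt_momPrim (hh : 0 < h) (hf : IsCuspidal h f) (j : ℕ) (τ : ℍ) :
    HasDerivAt (momPrim h f j ∘ ofComplex) (f τ * (τ : ℂ) ^ j) τ := by
  have := hasDerivAt_momPrimAux hh hf j 0 τ
  rw [iterPrim_zero, mul_comm] at this
  exact this

/-- The same statement for plain functions `ℂ → ℂ` on the upper half plane `{z | 0 < im z}`. -/
theorem hasDerivAt_momPrim' (hh : 0 < h) (hf : IsCuspidal h f) (j : ℕ) {z : ℂ} (hz : 0 < z.im) :
    HasDerivAt (momPrim h f j ∘ ofComplex) ((f ∘ ofComplex) z * z ^ j) z := by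
  have := hasDerivAt_momPrim hh hf j ⟨z, hz⟩
  simpa [comp_apply, ofComplex_apply_of_im_pos hz] using this

theorem vertDecay_momPrim (hh : 0 < h) (hf : IsCuspidal h f) (j : ℕ) :
    VertDecay (momPrim h f j) := vertDecay_momPrimAux hh hf j 0

theorem mdifferentiable_momPrim (hh : 0 < h) (hf : IsCuspidal h f) (j : ℕ) :
    MDiff (momPrim h f j) := fun τ =>
  mdifferentiableAt_iff.mpr (hasDerivAt_momPrim hh hf j τ).differentiableAt

/-- Characterisation: any primitive of `f z * z ^ j` decaying on vertical strips is `momPrim`. -/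
theorem eq_momPrim (hh : 0 < h) (hf : IsCuspidal h f) (j : ℕ) {G : ℍ → ℂ}
    (hG : ∀ τ : ℍ, HasDerivAt (G ∘ ofComplex) (f τ * (τ : ℂ) ^ j) τ) (hGz : VertDecay G) :
    G = momPrim h f j :=
  eq_of_hasDerivAt_of_vertDecay hG (hasDerivAt_momPrim hh hf j) hGz (vertDecay_momPrim hh hf j)

theorem momPrim_add (hh : 0 < h) (hf : IsCuspidal h f) (hg : IsCuspidal h g) (j : ℕ) :
    momPrim h (f + g) j = momPrim h f j + momPrim h g j := momPrimAux_add hh hf hg j 0

theorem momPrim_smul (hh : 0 < h) (c : ℂ) (hf : IsCuspidal h f) (j : ℕ) :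
    momPrim h (c • f) j = c • momPrim h f j := momPrimAux_smul hh c hf j 0

/-- `momPrim` does not depend on the period used. -/
theorem momPrim_eq_momPrim {h' : ℝ} (hh : 0 < h) (hh' : 0 < h') (hf : IsCuspidal h f)
    (hf' : IsCuspidal h' f) (j : ℕ) : momPrim h f j = momPrim h' f j :=
  eq_momPrim hh' hf' j (hasDerivAt_momPrim hh hf j) (vertDecay_momPrim hh hf j)

theorem momPrim_zero_eq (h : ℝ) (f : ℍ → ℂ) : momPrim h f 0 = prim h f := rfl

end Fermat.Agent.S22
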