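import Fermat.Agent.S22.SpineDefs
import Fermat.Agent.S22.Primitive3
import Fermat.Agent.S22.SepAux

/-!
# S22 INPUT (A): existence of the moment primitives (proof)
-/

set_option autoImplicit false

open Complex Filter Topology CuspForm Function
open UpperHalfPlane hiding I
open scoped MatrixGroups Manifold

namespace Fermat.Agent.S22

variable {N w : ℕ}

/-- A cusp form for `Γ₀(N)` is cuspidal of period `1` in the sense of `IsCuspidal`. -/
theorem isCuspidal_cuspForm [NeZero N] {k : ℤ} (f : CuspForm (CongruenceSubgroup.Gamma0 N) k) :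
    IsCuspidal 1 (f : ℍ → ℂ) := by
  obtain ⟨h1, h2, h3⟩ := SepAux.self_props f
  refine ⟨?_, h1, h3⟩
  simpa using h2

/-- The moment primitive `momPrim 1 f j ∘ ofComplex` is a cuspidal primitive of `momFun f j`. -/
theorem isCuspPrim_momPrim [NeZero N] (f : CF N w) (j : ℕ) :
    IsCuspPrim (momFun f j) (momPrim 1 (f : ℍ → ℂ) j ∘ ofComplex) := by
  have hf := isCuspidal_cuspForm f
  refine ⟨fun z hz => ?_, fun x => ?_⟩
  · have := hasDerivAt_momPrim' one_pos hf j hz
    simpa [momFun, comp_apply] using this
  · have := (vertDecay_momPrim one_pos hf j).tendsto_vertical x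
    simpa [comp_apply] using this

theorem exists_isCuspPrim_momFun_aux [NeZero N] (f : CF N w) (j : ℕ) :
    ∃ Φ, IsCuspPrim (momFun f j) Φ :=
  ⟨_, isCuspPrim_momPrim f j⟩

end Fermat.Agent.S22
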