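import Fermat.Agent.S22.SpineDefs
import Fermat.Agent.S22.InputAProof

/-!
# S22 INPUT (A): existence of the moment primitives

OWNER: analytic-core team (helper13).  DONE: proof in `Fermat.Agent.S22.InputAProof`
(`Primitive.lean`, `Primitive2.lean`, `Primitive3.lean`).
Mathematically: `G_j = ∑_{s ≤ j} (-1)^s j!/(j-s)! z^(j-s) I^{s+1} f` where `I` is the decaying
primitive operator on 1-periodic holomorphic functions vanishing at `i∞`.
-/

set_option autoImplicit false

open UpperHalfPlane Complex Filter Topology CuspForm
open scoped MatrixGroups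

namespace Fermat.Agent.S22

variable {N w : ℕ}

/-- INPUT (A): the cuspidal primitive of `f(z) z^j` exists. -/
theorem exists_isCuspPrim_momFun [NeZero N] (f : CF N w) (j : ℕ) :
    ∃ Φ, IsCuspPrim (momFun f j) Φ :=
  exists_isCuspPrim_momFun_aux f j

end Fermat.Agent.S22
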