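import Mathlib
import Fermat.Agent.S22.CocycleFG

/-!
# S22 helper package C: period constants of Eichler integrals (abstract form)

Interface-independent.  Everything is stated for plain functions `ℂ → ℂ` on the upper half plane
`{z | 0 < z.im}` (compose with `UpperHalfPlane.ofComplex` / coercion to use it for modular forms).

Main contents (namespace `Fermat.Agent.S22.Periods`):

* `mob a b c d z = (a z + b) / (c z + d)`, `mob_im_pos`, `hasDerivAt_mob`, `denom_ne_zero`.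
* `period_const` : if `G j` is a primitive of `f z * z ^ j` on the upper half plane (`j ≤ m`) and
  `f (γ z) = (c z + d) ^ (m + 2) * f z`, then `G j (γ z) - ∑ i, ρ j i * G i z` is constant, for
  any integers `ρ j i` with `∑ i, ρ j i * z ^ i = (a z + b) ^ j * (c z + d) ^ (m - j)`.
* `rho m a b c d j i` : the integer coefficient of `X ^ i` in `(aX+b)^j (cX+d)^(m-j)`;
  `rho_eval`, `rho_hom` (homogeneous form), `rho_mul` (multiplicativity), `rho_one`.
* `hasDerivAt_upper` : for `α = (a b; 0 d)`, `a, d > 0`, the function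
  `z ↦ ∑ i, rho m d (-b) 0 a j i * G i (α z)` is a primitive of
  `(a ^ (m+1) / d) * f (α z) * z ^ j` (the weight `m + 2` slash of `f` by `α` times `z ^ j`).
* `PrimSystem m V` : a linear family of primitives; `PrimSystem.period γ j : V →ₗ[ℂ] ℂ`;
  `PrimSystem.period_spec`, `PrimSystem.period_one`, `PrimSystem.period_mul` (cocycle relation)
  and `PrimSystem.span_period_fg` : the `ℤ`-span of all periods of a finitely generated group of
  invariances is finitely generated.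
-/

set_option autoImplicit false

open Complex Polynomial

namespace Fermat.Agent.S22.Periods

/-- Möbius transformation attached to an integer matrix `(a b; c d)`. -/
noncomputable def mob (a b c d : ℤ) (z : ℂ) : ℂ := ((a : ℂ) * z + b) / ((c : ℂ) * z + d)

lemma denom_ne_zero {a b c d : ℤ} (hdet : a * d - b * c ≠ 0) {z : ℂ} (hz : 0 < z.im) :
    (c : ℂ) * z + d ≠ 0 := by
  intro h
  have him : ((c : ℂ) * z + d).im = 0 := by rw [h]; simp
  have hre : ((c : ℂ) * z + d).re = 0 := by rw [h]; simp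
  simp at him hre
  rcases him with hc | hz0
  · rw [hc] at hre
    simp at hre
    apply hdet
    have hc' : c = 0 := by exact_mod_cast hc
    have hd' : d = 0 := by exact_mod_cast hre
    rw [hc', hd']; ring
  · exact absurd hz0 hz.ne'

lemma mob_im {a b c d : ℤ} (hdet : a * d - b * c ≠ 0) {z : ℂ} (hz : 0 < z.im) :
    (mob a b c d z).im = ((a * d - b * c : ℤ) : ℝ) * z.im / Complex.normSq ((c : ℂ) * z + d) := by
  have hne := denom_ne_zero hdet hz
  unfold mob
  rw [Complex.div_im]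
  have hns : Complex.normSq ((c : ℂ) * z + d) ≠ 0 := by
    rwa [Ne, Complex.normSq_eq_zero]
  field_simp
  simp
  ring

lemma mob_im_pos {a b c d : ℤ} (hdet : 0 < a * d - b * c) {z : ℂ} (hz : 0 < z.im) :
    0 < (mob a b c d z).im := by
  rw [mob_im hdet.ne' hz]
  have hne := denom_ne_zero hdet.ne' hz
  have hns : 0 < Complex.normSq ((c : ℂ) * z + d) := Complex.normSq_pos.mpr hne
  have : (0 : ℝ) < ((a * d - b * c : ℤ) : ℝ) := by exact_mod_cast hdet
  positivity

lemma hasDerivAt_mob {a b c d : ℤ} (hdet : a * d - b * c ≠ 0) {z : ℂ} (hz : 0 < z.im) :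
    HasDerivAt (mob a b c d) (((a * d - b * c : ℤ) : ℂ) / ((c : ℂ) * z + d) ^ 2) z := by
  have hne := denom_ne_zero hdet hz
  have h1 : HasDerivAt (fun z : ℂ => (a : ℂ) * z + b) (a : ℂ) z := by
    simpa using ((hasDerivAt_id z).const_mul (a : ℂ)).add_const (b : ℂ)
  have h2 : HasDerivAt (fun z : ℂ => (c : ℂ) * z + d) (c : ℂ) z := by
    simpa using ((hasDerivAt_id z).const_mul (c : ℂ)).add_const (d : ℂ)
  have h := h1.div h2 hne
  refine HasDerivAt.congr_deriv (f := mob a b c d) h ?_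
  push_cast
  congr 1
  ring

/-- A function with zero derivative on the upper half plane is constant there. -/
lemma const_of_hasDerivAt_zero {F : ℂ → ℂ} (hF : ∀ z : ℂ, 0 < z.im → HasDerivAt F 0 z) :
    ∃ C : ℂ, ∀ z : ℂ, 0 < z.im → F z = C := by
  have hopen : IsOpen {z : ℂ | 0 < z.im} := UpperHalfPlane.isOpen_upperHalfPlaneSet
  have hconn : IsPreconnected {z : ℂ | 0 < z.im} := (convex_halfSpace_im_gt 0).isPreconnected
  have hd : DifferentiableOn ℂ F {z : ℂ | 0 < z.im} :=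
    fun z hz => (hF z hz).differentiableAt.differentiableWithinAt
  obtain ⟨C, hC⟩ := hopen.exists_is_const_of_deriv_eq_zero hconn hd
    (fun z hz => (hF z hz).deriv)
  exact ⟨C, fun z hz => hC z hz⟩

theorem period_const {m : ℕ} (f : ℂ → ℂ) (G : Fin (m + 1) → ℂ → ℂ)
    (hG : ∀ (j : Fin (m + 1)) (z : ℂ), 0 < z.im → HasDerivAt (G j) (f z * z ^ (j : ℕ)) z)
    (a b c d : ℤ) (hdet : a * d - b * c = 1)
    (hf : ∀ z : ℂ, 0 < z.im → f (mob a b c d z) = ((c : ℂ) * z + d) ^ (m + 2) * f z)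
    (ρ : Fin (m + 1) → Fin (m + 1) → ℤ)
    (hρ : ∀ (j : Fin (m + 1)) (z : ℂ), ∑ i, (ρ j i : ℂ) * z ^ (i : ℕ) =
        ((a : ℂ) * z + b) ^ (j : ℕ) * ((c : ℂ) * z + d) ^ (m - (j : ℕ))) :
    ∃ C : Fin (m + 1) → ℂ, ∀ (j : Fin (m + 1)) (z : ℂ), 0 < z.im →
      G j (mob a b c d z) - ∑ i, (ρ j i : ℂ) * G i z = C j := by
  have hdet0 : a * d - b * c ≠ 0 := by rw [hdet]; exact one_ne_zero
  have hdetpos : 0 < a * d - b * c := by rw [hdet]; exact one_pos
  have key : ∀ j : Fin (m + 1), ∃ C : ℂ, ∀ z : ℂ, 0 < z.im →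
      G j (mob a b c d z) - ∑ i, (ρ j i : ℂ) * G i z = C := by
    intro j
    apply const_of_hasDerivAt_zero
    intro z hz
    have hne := denom_ne_zero hdet0 hz
    have hmz := mob_im_pos hdetpos hz
    have h1 : HasDerivAt (fun z => G j (mob a b c d z))
        (f (mob a b c d z) * (mob a b c d z) ^ (j : ℕ) *
          (((a * d - b * c : ℤ) : ℂ) / ((c : ℂ) * z + d) ^ 2)) z :=
      (hG j _ hmz).comp z (hasDerivAt_mob hdet0 hz)
    have h2 : HasDerivAt (fun z => ∑ i, (ρ j i : ℂ) * G i z)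
        (∑ i, (ρ j i : ℂ) * (f z * z ^ (i : ℕ))) z :=
      HasDerivAt.fun_sum fun i _ => (hG i z hz).const_mul _
    have h := h1.sub h2
    refine h.congr_deriv ?_
    rw [hf z hz, hdet]
    have hsum : ∑ i, (ρ j i : ℂ) * (f z * z ^ (i : ℕ)) =
        f z * (((a : ℂ) * z + b) ^ (j : ℕ) * ((c : ℂ) * z + d) ^ (m - (j : ℕ))) := by
      rw [← hρ j z, Finset.mul_sum]
      exact Finset.sum_congr rfl fun i _ => by ring
    rw [hsum]
    have hj : (j : ℕ) ≤ m := Nat.lt_succ_iff.mp j.2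
    have hpow : ((c : ℂ) * z + d) ^ (m + 2) =
        ((c : ℂ) * z + d) ^ (m - (j : ℕ)) * ((c : ℂ) * z + d) ^ (j : ℕ) * ((c : ℂ) * z + d) ^ 2 := by
      rw [← pow_add, ← pow_add]
      congr 1
      omega
    rw [hpow]
    unfold mob
    rw [div_pow]
    field_simp
    ring
  choose C hC using key
  exact ⟨C, hC⟩

/-- The polynomial `(aX+b)^j (cX+d)^(m-j)` with integer coefficients. -/
noncomputable def rhoPoly (m : ℕ) (a b c d : ℤ) (j : ℕ) : ℤ[X] :=
  (C a * X + C b) ^ j * (C c * X + C d) ^ (m - j)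

lemma natDegree_rhoPoly_le (m : ℕ) (a b c d : ℤ) {j : ℕ} (hj : j ≤ m) :
    (rhoPoly m a b c d j).natDegree ≤ m := by
  unfold rhoPoly
  have h1 : (C a * X + C b : ℤ[X]).natDegree ≤ 1 := natDegree_linear_le
  have h2 : (C c * X + C d : ℤ[X]).natDegree ≤ 1 := natDegree_linear_le
  calc ((C a * X + C b) ^ j * (C c * X + C d) ^ (m - j) : ℤ[X]).natDegree
      ≤ ((C a * X + C b : ℤ[X]) ^ j).natDegree + ((C c * X + C d : ℤ[X]) ^ (m - j)).natDegree :=
        natDegree_mul_le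
    _ ≤ j * 1 + (m - j) * 1 := by
        gcongr
        · exact natDegree_pow_le_of_le j h1
        · exact natDegree_pow_le_of_le (m - j) h2
    _ = m := by omega

/-- Integer matrix of the weight-`m` action on monomials: `rho m a b c d j i` is the coefficient of
`X^i` in `(aX+b)^j (cX+d)^(m-j)`. -/
noncomputable def rho (m : ℕ) (a b c d : ℤ) (j i : Fin (m + 1)) : ℤ :=
  (rhoPoly m a b c d j).coeff i

lemma rho_eval (m : ℕ) (a b c d : ℤ) (j : Fin (m + 1)) (z : ℂ) :
    ∑ i, (rho m a b c d j i : ℂ) * z ^ (i : ℕ) =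
      ((a : ℂ) * z + b) ^ (j : ℕ) * ((c : ℂ) * z + d) ^ (m - (j : ℕ)) := by
  have hj : (j : ℕ) ≤ m := Nat.lt_succ_iff.mp j.2
  have hdeg : (rhoPoly m a b c d j).natDegree < m + 1 :=
    Nat.lt_succ_of_le (natDegree_rhoPoly_le m a b c d hj)
  have h1 : eval₂ (Int.castRingHom ℂ) z (rhoPoly m a b c d j) =
      ((a : ℂ) * z + b) ^ (j : ℕ) * ((c : ℂ) * z + d) ^ (m - (j : ℕ)) := by
    simp only [rhoPoly, eval₂_mul, eval₂_pow, eval₂_add, eval₂_C, eval₂_X]
    simp only [eq_intCast]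
  rw [← h1, eval₂_eq_sum_range' (Int.castRingHom ℂ) hdeg]
  rw [Finset.sum_range]
  rfl

/-- Homogeneous form of `rho_eval`. -/
lemma rho_hom (m : ℕ) (a b c d : ℤ) (j : Fin (m + 1)) (u v : ℂ) (hv : v ≠ 0) :
    ∑ i : Fin (m + 1), (rho m a b c d j i : ℂ) * (u ^ (i : ℕ) * v ^ (m - (i : ℕ))) =
      ((a : ℂ) * u + b * v) ^ (j : ℕ) * ((c : ℂ) * u + d * v) ^ (m - (j : ℕ)) := by
  have hj : (j : ℕ) ≤ m := Nat.lt_succ_iff.mp j.2
  have h := rho_eval m a b c d j (u / v)
  have hterm : ∀ i : Fin (m + 1), (rho m a b c d j i : ℂ) * (u ^ (i : ℕ) * v ^ (m - (i : ℕ))) =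
      v ^ m * ((rho m a b c d j i : ℂ) * (u / v) ^ (i : ℕ)) := by
    intro i
    have hi : (i : ℕ) ≤ m := Nat.lt_succ_iff.mp i.2
    have hvm : v ^ m = v ^ (m - (i : ℕ)) * v ^ (i : ℕ) := by
      rw [← pow_add]; congr 1; omega
    rw [hvm, div_pow]
    field_simp
  rw [Finset.sum_congr rfl fun i _ => hterm i, ← Finset.mul_sum, h]
  have hvm : v ^ m = v ^ (j : ℕ) * v ^ (m - (j : ℕ)) := by
    rw [← pow_add]; congr 1; omega
  rw [hvm]
  have e1 : (a : ℂ) * u + b * v = v * ((a : ℂ) * (u / v) + b) := by field_simp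
  have e2 : (c : ℂ) * u + d * v = v * ((c : ℂ) * (u / v) + d) := by field_simp
  rw [e1, e2, mul_pow, mul_pow]
  ring

/-- An integer vector is determined by the values of the polynomial it defines on an infinite
set. -/
lemma int_vec_eq_of_eval_eq {m : ℕ} (r r' : Fin (m + 1) → ℤ) (S : Set ℂ) (hS : S.Infinite)
    (h : ∀ z ∈ S, ∑ i, (r i : ℂ) * z ^ (i : ℕ) = ∑ i, (r' i : ℂ) * z ^ (i : ℕ)) : r = r' := by
  set p : ℂ[X] := ∑ i : Fin (m + 1), C ((r i : ℂ) - (r' i : ℂ)) * X ^ (i : ℕ) with hp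
  have hroot : ∀ z ∈ S, p.IsRoot z := by
    intro z hz
    rw [IsRoot, hp, eval_finsetSum]
    simp only [eval_mul, eval_C, eval_pow, eval_X]
    have := h z hz
    rw [← sub_eq_zero, ← Finset.sum_sub_distrib] at this
    rw [← this]
    exact Finset.sum_congr rfl fun i _ => by ring
  have hp0 : p = 0 := by
    by_contra hne
    have hsub : S ⊆ p.rootSet ℂ := by
      intro z hz
      rw [mem_rootSet]
      exact ⟨hne, by simpa [IsRoot] using hroot z hz⟩
    exact hS ((p.rootSet_finite ℂ).subset hsub)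
  funext i
  have hc : p.coeff (i : ℕ) = (r i : ℂ) - (r' i : ℂ) := by
    rw [hp, finsetSum_coeff]
    rw [Finset.sum_eq_single i]
    · rw [coeff_C_mul, coeff_X_pow, if_pos rfl, mul_one]
    · intro k _ hk
      rw [coeff_C_mul, coeff_X_pow, if_neg, mul_zero]
      exact fun h' => hk (Fin.ext h'.symm)
    · intro hi; exact absurd (Finset.mem_univ i) hi
  rw [hp0, coeff_zero] at hc
  have : (r i : ℂ) = (r' i : ℂ) := (sub_eq_zero.mp hc.symm)
  exact_mod_cast this


lemma infinite_upperHalfPlaneSet : {z : ℂ | 0 < z.im}.Infinite := by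
  have hinj : Function.Injective (fun n : ℕ => ((n : ℂ) + Complex.I)) := by
    intro n k h
    have := congrArg Complex.re h
    simpa using this
  refine Set.infinite_of_injective_forall_mem hinj ?_
  intro n
  simp

/-- Multiplicativity of `rho`: `rho (M * M') = rho M * rho M'` (matrix product). -/
lemma rho_mul (m : ℕ) (a b c d a' b' c' d' : ℤ) (hdet' : a' * d' - b' * c' ≠ 0)
    (j l : Fin (m + 1)) :
    rho m (a * a' + b * c') (a * b' + b * d') (c * a' + d * c') (c * b' + d * d') j l =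
      ∑ i, rho m a b c d j i * rho m a' b' c' d' i l := by
  have key : (fun l => rho m (a * a' + b * c') (a * b' + b * d') (c * a' + d * c')
      (c * b' + d * d') j l) = fun l => ∑ i, rho m a b c d j i * rho m a' b' c' d' i l := by
    apply int_vec_eq_of_eval_eq _ _ _ infinite_upperHalfPlaneSet
    intro z hz
    have hv : (c' : ℂ) * z + d' ≠ 0 := by
      intro h
      have him : ((c' : ℂ) * z + d').im = 0 := by rw [h]; simp
      have hre : ((c' : ℂ) * z + d').re = 0 := by rw [h]; simp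
      simp at him hre
      rcases him with hc | hz0
      · rw [hc] at hre
        simp at hre
        apply hdet'
        have hc' : c' = 0 := by exact_mod_cast hc
        have hd' : d' = 0 := by exact_mod_cast hre
        rw [hc', hd']; ring
      · exact absurd hz0 (ne_of_gt hz)
    rw [rho_eval]
    have h2 : ∑ l : Fin (m + 1), ((∑ i, rho m a b c d j i * rho m a' b' c' d' i l : ℤ) : ℂ) *
        z ^ (l : ℕ) = ∑ i : Fin (m + 1), (rho m a b c d j i : ℂ) *
          (((a' : ℂ) * z + b') ^ (i : ℕ) * ((c' : ℂ) * z + d') ^ (m - (i : ℕ))) := by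
      simp_rw [← rho_eval m a' b' c' d', Finset.mul_sum]
      rw [Finset.sum_comm]
      refine Finset.sum_congr rfl fun l _ => ?_
      push_cast
      rw [Finset.sum_mul]
      exact Finset.sum_congr rfl fun i _ => by ring
    rw [h2, rho_hom m a b c d j _ _ hv]
    push_cast
    ring
  exact congrFun key l

lemma rho_one (m : ℕ) (j i : Fin (m + 1)) : rho m 1 0 0 1 j i = if i = j then 1 else 0 := by
  unfold rho rhoPoly
  simp only [map_one, one_mul, map_zero, add_zero, zero_mul, zero_add, one_pow, mul_one,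
    coeff_X_pow]
  by_cases h : i = j
  · simp [h]
  · rw [if_neg h, if_neg]
    exact fun h' => h (Fin.ext h')


/-- Derivative of the transported primitives along an upper triangular integer matrix
`α = (a b; 0 d)` with `a, d > 0`: the function `z ↦ ∑ i, rho(adj α) j i * G i (α z)` is a primitive
of `(a ^ (m+1) / d) * f (α z) * z ^ j`, i.e. of `(f ∣[m+2] α) z * z ^ j`. -/
theorem hasDerivAt_upper {m : ℕ} (f : ℂ → ℂ) (G : Fin (m + 1) → ℂ → ℂ)
    (hG : ∀ (j : Fin (m + 1)) (z : ℂ), 0 < z.im → HasDerivAt (G j) (f z * z ^ (j : ℕ)) z)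
    (a b d : ℤ) (ha : 0 < a) (hd : 0 < d) (j : Fin (m + 1)) {z : ℂ} (hz : 0 < z.im) :
    HasDerivAt (fun z => ∑ i, (rho m d (-b) 0 a j i : ℂ) * G i (mob a b 0 d z))
      ((a : ℂ) ^ (m + 1) / d * f (mob a b 0 d z) * z ^ (j : ℕ)) z := by
  have hdetpos : 0 < a * d - b * 0 := by
    rw [mul_zero, sub_zero]; exact mul_pos ha hd
  have hdet0 : a * d - b * 0 ≠ 0 := hdetpos.ne'
  have hmz := mob_im_pos hdetpos hz
  have hdC : (d : ℂ) ≠ 0 := by exact_mod_cast hd.ne'
  have h1 : ∀ i : Fin (m + 1), HasDerivAt (fun z => (rho m d (-b) 0 a j i : ℂ) * G i (mob a b 0 d z))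
      ((rho m d (-b) 0 a j i : ℂ) * (f (mob a b 0 d z) * (mob a b 0 d z) ^ (i : ℕ) *
        (((a * d - b * 0 : ℤ) : ℂ) / ((0 : ℤ) * z + d) ^ 2))) z := fun i =>
    ((hG i _ hmz).comp z (hasDerivAt_mob hdet0 hz)).const_mul _
  have h := HasDerivAt.fun_sum fun i (_ : i ∈ Finset.univ) => h1 i
  refine h.congr_deriv ?_
  have hj : (j : ℕ) ≤ m := Nat.lt_succ_iff.mp j.2
  have hsum : ∑ i : Fin (m + 1), (rho m d (-b) 0 a j i : ℂ) * (f (mob a b 0 d z) *
      (mob a b 0 d z) ^ (i : ℕ) * (((a * d - b * 0 : ℤ) : ℂ) / ((0 : ℤ) * z + d) ^ 2)) =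
      f (mob a b 0 d z) * (((a * d - b * 0 : ℤ) : ℂ) / ((0 : ℤ) * z + d) ^ 2) *
        ∑ i : Fin (m + 1), (rho m d (-b) 0 a j i : ℂ) * (mob a b 0 d z) ^ (i : ℕ) := by
    rw [Finset.mul_sum]
    exact Finset.sum_congr rfl fun i _ => by ring
  rw [hsum, rho_eval]
  have hw : (d : ℂ) * mob a b 0 d z + ((-b : ℤ) : ℂ) = a * z := by
    unfold mob
    simp only [Int.cast_zero, zero_mul, zero_add, Int.cast_neg]
    field_simp
    ring
  rw [hw]
  have ham : (a : ℂ) ^ (m + 1) = a ^ (j : ℕ) * a ^ (m - (j : ℕ)) * a := by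
    rw [← pow_add, ← pow_succ]; congr 1; omega
  rw [ham]
  simp only [Int.cast_zero, zero_mul, zero_add, mul_zero, sub_zero, Int.cast_mul, mul_pow]
  field_simp

/-! ## Primitive systems and their period functionals -/

open scoped MatrixGroups

/-- An abstract system of primitives: for each `v : V` a function `f v` on `ℂ` and functions
`G v j` (`j ≤ m`) whose derivative on the upper half plane is `f v z * z ^ j`.  Both depend
linearly on `v`. -/
structure PrimSystem (m : ℕ) (V : Type*) [AddCommGroup V] [Module ℂ V] where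
  /-- the function attached to a vector -/
  f : V →ₗ[ℂ] (ℂ → ℂ)
  /-- the primitives of `f v z * z ^ j` -/
  G : V →ₗ[ℂ] (Fin (m + 1) → ℂ → ℂ)
  hasDerivAt : ∀ (v : V) (j : Fin (m + 1)) (z : ℂ), 0 < z.im →
    HasDerivAt (G v j) (f v z * z ^ (j : ℕ)) z

variable {m : ℕ} {V : Type*} [AddCommGroup V] [Module ℂ V]

/-- Möbius action of `γ ∈ SL(2,ℤ)` on `ℂ`. -/
noncomputable def smob (γ : SL(2, ℤ)) (z : ℂ) : ℂ := mob (γ 0 0) (γ 0 1) (γ 1 0) (γ 1 1) z

/-- The integer matrix `rho` attached to `γ ∈ SL(2,ℤ)`. -/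
noncomputable def srho (m : ℕ) (γ : SL(2, ℤ)) (j i : Fin (m + 1)) : ℤ :=
  rho m (γ 0 0) (γ 0 1) (γ 1 0) (γ 1 1) j i

lemma sl_det (γ : SL(2, ℤ)) : γ 0 0 * γ 1 1 - γ 0 1 * γ 1 0 = 1 := by
  have h := γ.det_coe
  rw [Matrix.det_fin_two] at h
  exact h

lemma smob_im_pos (γ : SL(2, ℤ)) {z : ℂ} (hz : 0 < z.im) : 0 < (smob γ z).im :=
  mob_im_pos (by rw [sl_det]; exact one_pos) hz

lemma sdenom_ne_zero (γ : SL(2, ℤ)) {z : ℂ} (hz : 0 < z.im) : (γ 1 0 : ℂ) * z + γ 1 1 ≠ 0 :=
  denom_ne_zero (a := γ 0 0) (b := γ 0 1) (by rw [sl_det]; exact one_ne_zero) hz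

lemma smob_one (z : ℂ) : smob 1 z = z := by
  simp [smob, mob]

lemma smob_mul (γ γ' : SL(2, ℤ)) {z : ℂ} (hz : 0 < z.im) :
    smob (γ * γ') z = smob γ (smob γ' z) := by
  have h1 := sdenom_ne_zero γ' hz
  simp only [smob, mob]
  simp only [Matrix.SpecialLinearGroup.coe_mul, Matrix.mul_apply, Fin.sum_univ_two]
  push_cast
  have e1 : (γ 0 0 : ℂ) * (((γ' 0 0 : ℂ) * z + γ' 0 1) / ((γ' 1 0 : ℂ) * z + γ' 1 1)) + γ 0 1 =
      ((γ 0 0 : ℂ) * ((γ' 0 0 : ℂ) * z + γ' 0 1) + γ 0 1 * ((γ' 1 0 : ℂ) * z + γ' 1 1)) /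
        ((γ' 1 0 : ℂ) * z + γ' 1 1) := by
    rw [← mul_div_assoc, div_add' _ _ _ h1]
  have e2 : (γ 1 0 : ℂ) * (((γ' 0 0 : ℂ) * z + γ' 0 1) / ((γ' 1 0 : ℂ) * z + γ' 1 1)) + γ 1 1 =
      ((γ 1 0 : ℂ) * ((γ' 0 0 : ℂ) * z + γ' 0 1) + γ 1 1 * ((γ' 1 0 : ℂ) * z + γ' 1 1)) /
        ((γ' 1 0 : ℂ) * z + γ' 1 1) := by
    rw [← mul_div_assoc, div_add' _ _ _ h1]
  rw [e1, e2, div_div_div_cancel_right₀ h1]
  congr 1 <;> ring

lemma srho_one (m : ℕ) (j i : Fin (m + 1)) : srho m 1 j i = if i = j then 1 else 0 := by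
  simp [srho, rho_one]

lemma srho_mul (m : ℕ) (γ γ' : SL(2, ℤ)) (j l : Fin (m + 1)) :
    srho m (γ * γ') j l = ∑ i, srho m γ j i * srho m γ' i l := by
  have h := rho_mul m (γ 0 0) (γ 0 1) (γ 1 0) (γ 1 1) (γ' 0 0) (γ' 0 1) (γ' 1 0) (γ' 1 1)
    (by rw [sl_det]; exact one_ne_zero) j l
  simp only [srho, Matrix.SpecialLinearGroup.coe_mul, Matrix.mul_apply, Fin.sum_univ_two]
  exact h

namespace PrimSystem

variable (P : PrimSystem m V)

/-- `γ` acts on all `P.f v` like on weight `m + 2` forms. -/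
def IsInvariant (γ : SL(2, ℤ)) : Prop :=
  ∀ (v : V) (z : ℂ), 0 < z.im →
    P.f v (smob γ z) = ((γ 1 0 : ℂ) * z + γ 1 1) ^ (m + 2) * P.f v z

/-- The period functionals of a primitive system. -/
noncomputable def period (γ : SL(2, ℤ)) (j : Fin (m + 1)) : V →ₗ[ℂ] ℂ where
  toFun v := P.G v j (smob γ Complex.I) - ∑ i, (srho m γ j i : ℂ) * P.G v i Complex.I
  map_add' v w := by
    simp only [map_add, Pi.add_apply, mul_add, Finset.sum_add_distrib]
    ring
  map_smul' c v := by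
    simp only [map_smul, Pi.smul_apply, smul_eq_mul, RingHom.id_apply, mul_sub, Finset.mul_sum]
    congr 1
    exact Finset.sum_congr rfl fun i _ => by ring

lemma period_apply (γ : SL(2, ℤ)) (j : Fin (m + 1)) (v : V) :
    P.period γ j v = P.G v j (smob γ Complex.I) - ∑ i, (srho m γ j i : ℂ) * P.G v i Complex.I :=
  rfl

/-- The defining property of the periods holds at every point of the upper half plane. -/
theorem period_spec {γ : SL(2, ℤ)} (hγ : P.IsInvariant γ) (v : V) (j : Fin (m + 1)) {z : ℂ}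
    (hz : 0 < z.im) :
    P.G v j (smob γ z) - ∑ i, (srho m γ j i : ℂ) * P.G v i z = P.period γ j v := by
  obtain ⟨C, hC⟩ := period_const (P.f v) (P.G v) (P.hasDerivAt v) (γ 0 0) (γ 0 1) (γ 1 0) (γ 1 1)
    (sl_det γ) (hγ v) (fun j i => srho m γ j i) (fun j z => rho_eval m _ _ _ _ j z)
  have h1 := hC j z hz
  have h2 := hC j Complex.I (by simp)
  rw [period_apply]
  exact h1.trans h2.symm

theorem period_one (j : Fin (m + 1)) : P.period 1 j = 0 := by
  ext v
  rw [period_apply, smob_one]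
  simp only [srho_one, LinearMap.zero_apply]
  rw [Finset.sum_eq_single j]
  · simp
  · intro i _ hi
    rw [if_neg hi]; simp
  · intro h; exact absurd (Finset.mem_univ j) h

/-- Cocycle relation for the periods. -/
theorem period_mul {γ γ' : SL(2, ℤ)} (hγ : P.IsInvariant γ) (hγ' : P.IsInvariant γ')
    (j : Fin (m + 1)) :
    P.period (γ * γ') j = P.period γ j + ∑ i, srho m γ j i • P.period γ' i := by
  ext v
  have hI : (0 : ℝ) < Complex.I.im := by simp
  have hw := smob_im_pos γ' hI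
  have e1 := P.period_spec hγ v j hw
  have e2 : ∀ i, P.G v i (smob γ' Complex.I) =
      P.period γ' i v + ∑ l, (srho m γ' i l : ℂ) * P.G v l Complex.I := fun i => by
    rw [← P.period_spec hγ' v i hI]; ring
  rw [period_apply, smob_mul γ γ' hI]
  simp only [LinearMap.add_apply, LinearMap.sum_apply, LinearMap.smul_apply]
  rw [← e1]
  simp_rw [e2, srho_mul]
  push_cast
  simp only [mul_add, Finset.sum_add_distrib, Finset.mul_sum, Finset.sum_mul, zsmul_eq_mul]
  rw [Finset.sum_comm (f := fun x y => (srho m γ j x : ℂ) * ((srho m γ' x y : ℂ) * P.G v y Complex.I))]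
  have : ∀ x y : Fin (m + 1), (srho m γ j y : ℂ) * (srho m γ' y x : ℂ) * P.G v x Complex.I =
      (srho m γ j y : ℂ) * ((srho m γ' y x : ℂ) * P.G v x Complex.I) := fun x y => by ring
  simp_rw [this]
  ring

end PrimSystem

namespace PrimSystem

variable (P : PrimSystem m V)

/-- The period lattice of a finitely generated group of invariances is finitely generated
(as an additive subgroup of the dual). -/
theorem closure_period_fg (Γ : Subgroup SL(2, ℤ)) [Group.FG Γ]
    (hΓ : ∀ γ ∈ Γ, P.IsInvariant γ) :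
    (AddSubgroup.closure {φ : V →ₗ[ℂ] ℂ | ∃ γ ∈ Γ, ∃ j, φ = P.period γ j}).FG := by
  have h := Fermat.Agent.S22.cocycle_closure_fg (G := Γ) (A := V →ₗ[ℂ] ℂ) (ι := Fin (m + 1))
    (fun h => Matrix.of fun i j => srho m ((h⁻¹ : Γ) : SL(2, ℤ)) i j)
    (fun g j => P.period ((g⁻¹ : Γ) : SL(2, ℤ)) j)
    (fun i => by simp [P.period_one])
    (fun g h i => by
      have hg := hΓ _ (g⁻¹ : Γ).2
      have hh := hΓ _ (h⁻¹ : Γ).2
      have := P.period_mul hh hg i
      simp only [mul_inv_rev, Subgroup.coe_mul, Matrix.of_apply]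
      rw [this, add_comm])
  have hset : {a : V →ₗ[ℂ] ℂ | ∃ (g : Γ) (i : Fin (m + 1)), a = P.period ((g⁻¹ : Γ) : SL(2, ℤ)) i} =
      {φ : V →ₗ[ℂ] ℂ | ∃ γ ∈ Γ, ∃ j, φ = P.period γ j} := by
    ext φ
    constructor
    · rintro ⟨g, i, rfl⟩
      exact ⟨_, (g⁻¹ : Γ).2, i, rfl⟩
    · rintro ⟨γ, hγ, j, rfl⟩
      exact ⟨(⟨γ, hγ⟩ : Γ)⁻¹, j, by simp⟩
  rw [hset] at h
  exact h

/-- The period lattice (as a `ℤ`-submodule of the dual) is finitely generated. -/
theorem span_period_fg (Γ : Subgroup SL(2, ℤ)) [Group.FG Γ]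
    (hΓ : ∀ γ ∈ Γ, P.IsInvariant γ) :
    (Submodule.span ℤ {φ : V →ₗ[ℂ] ℂ | ∃ γ ∈ Γ, ∃ j, φ = P.period γ j}).FG := by
  rw [Submodule.fg_iff_addSubgroup_fg, Submodule.span_int_eq_addSubgroupClosure]
  exact P.closure_period_fg Γ hΓ

end PrimSystem

end Fermat.Agent.S22.Periods
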