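import Fermat.Agent.S22.SpinePer
import Fermat.Agent.S22.Periods

/-!
# S22: bridge from the abstract period package (`Periods.lean`) to the spine (input C)
-/

set_option autoImplicit false

open UpperHalfPlane Complex Filter Topology CuspForm
open scoped MatrixGroups

namespace Fermat.Agent.S22.PeriodsBridge

open Fermat.Agent.S22

variable {N w : ℕ}

/-- The coercion of `γ • z` is the Möbius transformation of `Periods.lean`. -/
theorem coe_smul_eq_mob (γ : SL(2, ℤ)) (z : ℍ) :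
    ((γ • z : ℍ) : ℂ) = Periods.mob (γ 0 0) (γ 0 1) (γ 1 0) (γ 1 1) (z : ℂ) := by
  rw [UpperHalfPlane.coe_specialLinearGroup_apply]
  simp [Periods.mob]

/-- Modularity of a cusp form, as a statement about `f ∘ ofComplex`. -/
theorem comp_ofComplex_mob (γ : SL(2, ℤ)) (hγ : γ ∈ CongruenceSubgroup.Gamma0 N) (f : CF N w)
    (z : ℂ) (hz : 0 < z.im) :
    (fun z : ℂ => f (ofComplex z)) (Periods.mob (γ 0 0) (γ 0 1) (γ 1 0) (γ 1 1) z) =
      ((γ 1 0 : ℂ) * z + γ 1 1) ^ (w + 2) * (fun z : ℂ => f (ofComplex z)) z := by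
  set τ : ℍ := ⟨z, hz⟩ with hτ
  have hzτ : z = (τ : ℂ) := rfl
  have h1 : ofComplex z = τ := ofComplex_apply_of_im_pos hz
  have h2 : ofComplex (Periods.mob (γ 0 0) (γ 0 1) (γ 1 0) (γ 1 1) z) = γ • τ := by
    rw [hzτ, ← coe_smul_eq_mob, ofComplex_apply]
  show f (ofComplex _) = _ * f (ofComplex z)
  rw [h1, h2]
  have h3 := SlashInvariantForm.slash_action_eqn_SL'' f hγ τ
  rw [h3, ModularGroup.denom_apply]
  congr 1

/-- INPUT (C) of the spine: the period is independent of the base point. -/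
theorem per_eq' [NeZero N] (γ : SL(2, ℤ)) (hγ : γ ∈ CongruenceSubgroup.Gamma0 N)
    (j : Fin (w + 1)) (f : CF N w) (z : ℍ) :
    mom f j ((γ • z : ℍ) : ℂ) - ∑ i : Fin (w + 1), (symMat w γ.1 j i : ℂ) * mom f i (z : ℂ) =
      per γ j f := by
  have hG : ∀ (j : Fin (w + 1)) (z : ℂ), 0 < z.im →
      HasDerivAt ((fun j : Fin (w + 1) => mom f (j : ℕ)) j)
        ((fun z : ℂ => f (ofComplex z)) z * z ^ (j : ℕ)) z :=
    fun j z hz => (isCuspPrim_mom f j).hasDerivAt z hz
  obtain ⟨C, hC⟩ := Periods.period_const (fun z : ℂ => f (ofComplex z))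
    (fun j : Fin (w + 1) => mom f (j : ℕ)) hG (γ 0 0) (γ 0 1) (γ 1 0) (γ 1 1)
    (Periods.sl_det γ) (comp_ofComplex_mob γ hγ f)
    (fun j i => symMat w γ.1 j i) (fun j z => by
      have := symMat_eval (R := ℂ) w γ.1 j z
      simpa using this)
  have e1 := hC j (z : ℂ) z.im_pos
  have e2 := hC j ((UpperHalfPlane.I : ℍ) : ℂ) (UpperHalfPlane.I : ℍ).im_pos
  rw [per_apply, coe_smul_eq_mob, coe_smul_eq_mob]
  exact e1.trans e2.symm

end Fermat.Agent.S22.PeriodsBridge
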