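import Fermat.Agent.S22.SpinePer
import Fermat.Agent.S22.PeriodsBridge

/-!
# S22 INPUT (C): the period is independent of the base point

OWNER: periods team.  Replace the `sorry` (add imports of your own files; they may import
`Fermat.Agent.S22.SpinePer` and earlier).  Mathematically: by `isCuspPrim_mom`, the modularity of `f`
and `symMat_eval`, the function `z ↦ G_j(γ z) - ∑_i ρ(γ)_{ji} G_i(z)` has derivative `0` on the upper
half plane, hence is constant, and `per γ j f` is its value at `z = i`.
-/

set_option autoImplicit false

open UpperHalfPlane Complex Filter Topology CuspForm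
open scoped MatrixGroups

namespace Fermat.Agent.S22

variable {N w : ℕ}

/-- INPUT (C): the period is independent of the base point. -/
theorem per_eq [NeZero N] (γ : SL(2, ℤ)) (hγ : γ ∈ CongruenceSubgroup.Gamma0 N)
    (j : Fin (w + 1)) (f : CF N w) (z : ℍ) :
    mom f j ((γ • z : ℍ) : ℂ) - ∑ i : Fin (w + 1), (symMat w γ.1 j i : ℂ) * mom f i (z : ℂ) =
      per γ j f :=
  PeriodsBridge.per_eq' γ hγ j f z

end Fermat.Agent.S22
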