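import Fermat.Agent.S22.InputC
import Fermat.Agent.S22.HeckeStableGlue

/-!
# S22 INPUT (E): Hecke stability of the period lattice

DONE (helper36): proved in `Fermat/Agent/S22/HeckeStableGlue.lean` from the interface-independent
package `Fermat/Agent/S22/HeckeStable.lean`.  By `periodLattice_induction` it suffices to show
`(per γ j).comp (heckeTLin ..) ∈ periodLattice N w` and the same for `heckeULin`, i.e.
`c_j(γ)(T f) = ∑_α ∑_i (integer) • c_i(γ_α)(f)`.
-/

set_option autoImplicit false

open UpperHalfPlane Complex Filter Topology CuspForm
open scoped MatrixGroups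

namespace Fermat.Agent.S22

variable {N w : ℕ}

/-- INPUT (E): the period lattice is stable under the transposes of the Hecke generators. -/
theorem periodLattice_stable [NeZero N] (S : Set ℕ) :
    ∀ g ∈ heckeGenerators N ((w : ℤ) + 2) S, ∀ φ ∈ periodLattice N w,
      φ.comp g ∈ periodLattice N w :=
  HeckeStable.periodLattice_stable_aux S

end Fermat.Agent.S22
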