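import Mathlib

/-!
# S22 helper package: decaying periodic primitives on the upper half plane

Conventions are those of `Mathlib.NumberTheory.ModularForms.QExpansion`: functions `f : ℍ → ℂ`,
periodicity as `Function.Periodic (f ∘ ofComplex) h`, holomorphy as `MDiff f`, decay as
`IsZeroAtImInfty f`, derivatives through `f ∘ ofComplex`.
-/

set_option autoImplicit false

open Complex Filter Function Metric
open UpperHalfPlane hiding I
open scoped Real Topology Manifold

namespace Fermat.Agent.S22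

local notation "𝕢" => Periodic.qParam

theorem qParam_add_period {h : ℝ} (hh : h ≠ 0) (z : ℂ) : 𝕢 h (z + h) = 𝕢 h z := by
  have hh' : (h : ℂ) ≠ 0 := by exact_mod_cast hh
  simp only [Periodic.qParam]
  rw [show 2 * (π : ℂ) * I * (z + h) / h = 2 * π * I * z / h + 2 * π * I by field_simp]
  rw [Complex.exp_add, Complex.exp_two_pi_mul_I, mul_one]

theorem hasDerivAt_qParam (h : ℝ) (z : ℂ) :
    HasDerivAt (𝕢 h) (𝕢 h z * (2 * π * I / h)) z := by
  simpa only [id_eq, mul_one] using! (((hasDerivAt_id z).const_mul _).div_const _).cexp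

/-- A holomorphic, `h`-periodic function on `ℍ` vanishing at `i∞` has a holomorphic, `h`-periodic
primitive vanishing at `i∞`. -/
theorem exists_primitive_isZeroAtImInfty {h : ℝ} (hh : 0 < h) {f : ℍ → ℂ}
    (hper : Periodic (f ∘ ofComplex) h) (hhol : MDiff f) (hzero : IsZeroAtImInfty f) :
    ∃ F : ℍ → ℂ, Periodic (F ∘ ofComplex) h ∧ MDiff F ∧ IsZeroAtImInfty F ∧
      ∀ τ : ℍ, HasDerivAt (F ∘ ofComplex) (f τ) τ := by
  set g := cuspFunction h f with hg
  have hgdiff : DifferentiableOn ℂ g (ball 0 1) :=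
    differentiableOn_cuspFunction_ball hh hper hhol hzero.isBoundedAtImInfty
  have hg0 : g 0 = 0 := hzero.cuspFunction_apply_zero hh
  have hball : ball (0 : ℂ) 1 ∈ 𝓝 (0 : ℂ) := ball_mem_nhds 0 one_pos
  have hg1 : DifferentiableOn ℂ (dslope g 0) (ball 0 1) :=
    (differentiableOn_dslope hball).mpr hgdiff
  obtain ⟨G, hG0, hG⟩ := hg1.isExactOn_ball.with_val_at 0 0
  have hh' : (h : ℂ) ≠ 0 := by exact_mod_cast hh.ne'
  have hc : (2 * (π : ℂ) * I) ≠ 0 := two_pi_I_ne_zero
  -- the primitive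
  set F : ℍ → ℂ := fun τ => (h / (2 * π * I)) * G (𝕢 h τ) with hF
  -- key derivative computation
  have hderiv : ∀ τ : ℍ, HasDerivAt (F ∘ ofComplex) (f τ) τ := by
    intro τ
    have hq : 𝕢 h τ ∈ ball (0 : ℂ) 1 := by
      simpa using Periodic.norm_qParam_lt_one hh τ.im_pos
    have hqne : 𝕢 h (τ : ℂ) ≠ 0 := Periodic.qParam_ne_zero _
    have h1 : HasDerivAt (fun z : ℂ => (h / (2 * π * I)) * G (𝕢 h z))
        ((h / (2 * π * I)) * (dslope g 0 (𝕢 h τ) * (𝕢 h τ * (2 * π * I / h)))) τ :=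
      ((hG _ hq).comp (τ : ℂ) (hasDerivAt_qParam h τ)).const_mul _
    have h2 : (h / (2 * π * I)) * (dslope g 0 (𝕢 h τ) * (𝕢 h τ * (2 * π * I / h))) = f τ := by
      rw [dslope_of_ne _ hqne, slope_def_field, hg0, sub_zero, sub_zero, hg,
        eq_cuspFunction τ hh.ne' hper]
      field_simp
    rw [h2] at h1
    refine h1.congr_of_eventuallyEq ?_
    filter_upwards [isOpen_upperHalfPlaneSet.mem_nhds τ.im_pos] with z hz
    simp only [comp_apply, hF, ofComplex_apply_of_im_pos hz]
  refine ⟨F, ?_, ?_, ?_, hderiv⟩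
  · -- periodicity
    intro w
    by_cases! hw : 0 < im w
    · have hw' : 0 < im (w + h) := by simp [hw]
      simp only [comp_apply, ofComplex_apply_of_im_pos hw', ofComplex_apply_of_im_pos hw, hF]
      congr 2
      exact qParam_add_period hh.ne' w
    · have hw' : im (w + h) ≤ 0 := by simpa using hw
      simp [ofComplex_apply_of_im_nonpos hw', ofComplex_apply_of_im_nonpos hw]
  · -- holomorphy
    intro τ
    exact mdifferentiableAt_iff.mpr (hderiv τ).differentiableAt
  · -- decay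
    have hGcont : ContinuousAt G 0 := (hG 0 (mem_ball_self one_pos)).continuousAt
    have h1 : Tendsto (fun τ : ℍ => G (𝕢 h τ)) atImInfty (𝓝 (G 0)) :=
      hGcont.tendsto.comp (qParam_tendsto_atImInfty hh)
    rw [hG0] at h1
    have h2 := h1.const_mul (h / (2 * π * I))
    rw [mul_zero] at h2
    exact h2

/-- A function on `ℍ` with vanishing derivative is constant. -/
theorem eq_of_hasDerivAt_zero {F : ℍ → ℂ}
    (hd : ∀ τ : ℍ, HasDerivAt (F ∘ ofComplex) 0 τ) (τ τ' : ℍ) : F τ = F τ' := by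
  have hopen : IsOpen {z : ℂ | 0 < z.im} := isOpen_upperHalfPlaneSet
  have hconn : IsPreconnected {z : ℂ | 0 < z.im} := (convex_halfSpace_im_gt 0).isPreconnected
  have hdiff : DifferentiableOn ℂ (F ∘ ofComplex) {z : ℂ | 0 < z.im} := fun z hz =>
    (hd ⟨z, hz⟩).differentiableAt.differentiableWithinAt
  have hderiv : Set.EqOn (deriv (F ∘ ofComplex)) 0 {z : ℂ | 0 < z.im} := fun z hz =>
    (hd ⟨z, hz⟩).deriv
  have := hopen.is_const_of_deriv_eq_zero hconn hdiff hderiv (x := (τ : ℂ)) (y := (τ' : ℂ))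
    τ.im_pos τ'.im_pos
  simpa using this

/-- A function on `ℍ` with vanishing derivative which tends to `0` at `i∞` is zero. -/
theorem eq_zero_of_hasDerivAt_zero_of_isZeroAtImInfty {F : ℍ → ℂ}
    (hd : ∀ τ : ℍ, HasDerivAt (F ∘ ofComplex) 0 τ) (hz : IsZeroAtImInfty F) : F = 0 := by
  funext τ
  have hconst : F = fun _ => F τ := funext fun τ' => eq_of_hasDerivAt_zero hd τ' τ
  have h1 : Tendsto F atImInfty (𝓝 (F τ)) := by
    conv => enter [1]; rw [hconst]
    exact tendsto_const_nhds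
  exact tendsto_nhds_unique h1 hz

/-- Two functions on `ℍ` with the same derivative which both tend to `0` at `i∞` are equal. -/
theorem eq_of_hasDerivAt_of_isZeroAtImInfty {F G : ℍ → ℂ} {f : ℍ → ℂ}
    (hF : ∀ τ : ℍ, HasDerivAt (F ∘ ofComplex) (f τ) τ)
    (hG : ∀ τ : ℍ, HasDerivAt (G ∘ ofComplex) (f τ) τ)
    (hFz : IsZeroAtImInfty F) (hGz : IsZeroAtImInfty G) : F = G := by
  have h0 : F - G = 0 := by
    apply eq_zero_of_hasDerivAt_zero_of_isZeroAtImInfty
    · intro τ
      have := (hF τ).sub (hG τ)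
      rw [sub_self] at this
      exact this
    · have := hFz.sub hGz
      rw [sub_zero] at this
      exact this
  exact sub_eq_zero.mp h0

end Fermat.Agent.S22
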