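import Mathlib

/-!
# S22, separation package: interface-independent core (helper21)

* `eichlerE`, `periodPoly`, `eichler_transform` (S2): the Eichler combination
  `E(z) = ∑_j C(m,j) (-1)^j z^(m-j) G_j(z)` and its transformation law.
* `hasDerivAt_eichlerE_succ`, `eq_zero_of_eichlerE_eq_zero` (S3): `E_{m+1}' = (m+1) E_m`, and
  `E_m = 0` on an open set forces `f = 0` there.

* `eichler_sum_eq_factorial_mul`, `eichlerE_eq_factorial_mul` (S5): if `A j s` obeys the
  integration-by-parts recursion of `cuspPrimAux` (Primitive3.lean), the Eichler combination of the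
  `A j 0` equals `m! * I (m+1)` (the `(m+1)`-fold iterated decaying primitive).

(S1) and (S4) of the original claim are in `NegWeight.lean` / `CuspBound.lean` (helper1).
-/

set_option autoImplicit false

namespace Fermat.Agent.S22.SepCore

open Filter Topology Finset Polynomial



section S2



noncomputable def eichlerE (m : ℕ) (G : ℕ → ℂ → ℂ) (z : ℂ) : ℂ :=
  ∑ j ∈ range (m + 1), (m.choose j : ℂ) * (-1) ^ j * z ^ (m - j) * G j z

theorem eichlerE_zero (G : ℕ → ℂ → ℂ) (z : ℂ) : eichlerE 0 G z = G 0 z := by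
  simp [eichlerE]

theorem alternating_choose_sum_complex (n : ℕ) :
    ∑ j ∈ range (n + 2), ((n + 1).choose j : ℂ) * (-1) ^ j = 0 := by
  have h := Int.alternating_sum_range_choose (n := n + 1)
  rw [if_neg (by omega)] at h
  have h2 := congrArg (Int.cast : ℤ → ℂ) h
  push_cast at h2
  rw [← h2]
  refine Finset.sum_congr rfl fun j _ => ?_
  ring

/-- (S3) derivative of the Eichler combination. -/
theorem hasDerivAt_eichlerE_succ (m : ℕ) (G : ℕ → ℂ → ℂ) (f : ℂ → ℂ) (z : ℂ)
    (hG : ∀ j ∈ range (m + 2), HasDerivAt (G j) (f z * z ^ j) z) :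
    HasDerivAt (eichlerE (m + 1) G) ((m + 1 : ℂ) * eichlerE m G z) z := by
  have hterm : ∀ j ∈ range (m + 2), HasDerivAt
      (fun w : ℂ => ((m + 1).choose j : ℂ) * (-1) ^ j * w ^ (m + 1 - j) * G j w)
      (((m + 1).choose j : ℂ) * (-1) ^ j * (((m + 1 - j : ℕ) : ℂ) * z ^ (m + 1 - j - 1)) * G j z
        + ((m + 1).choose j : ℂ) * (-1) ^ j * z ^ (m + 1 - j) * (f z * z ^ j)) z := by
    intro j hj
    have h1 : HasDerivAt (fun w : ℂ => w ^ (m + 1 - j))
        (((m + 1 - j : ℕ) : ℂ) * z ^ (m + 1 - j - 1)) z := hasDerivAt_pow _ z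
    exact (h1.const_mul (((m + 1).choose j : ℂ) * (-1) ^ j)).fun_mul (hG j hj)
  have hsum := HasDerivAt.fun_sum hterm
  have heq : eichlerE (m + 1) G
      = fun w => ∑ j ∈ range (m + 2), ((m + 1).choose j : ℂ) * (-1) ^ j * w ^ (m + 1 - j) * G j w := by
    funext w
    rfl
  rw [heq]
  refine hsum.congr_deriv ?_
  rw [Finset.sum_add_distrib]
  -- second part vanishes
  have hsecond : ∑ j ∈ range (m + 2),
      ((m + 1).choose j : ℂ) * (-1) ^ j * z ^ (m + 1 - j) * (f z * z ^ j) = 0 := by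
    have : ∀ j ∈ range (m + 2),
        ((m + 1).choose j : ℂ) * (-1) ^ j * z ^ (m + 1 - j) * (f z * z ^ j)
          = (((m + 1).choose j : ℂ) * (-1) ^ j) * (f z * z ^ (m + 1)) := by
      intro j hj
      have hj' : j ≤ m + 1 := Nat.lt_succ_iff.mp (Finset.mem_range.mp hj)
      have : z ^ (m + 1) = z ^ (m + 1 - j) * z ^ j := by
        rw [← pow_add]; congr 1; omega
      rw [this]; ring
    rw [Finset.sum_congr rfl this, ← Finset.sum_mul, alternating_choose_sum_complex, zero_mul]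
  rw [hsecond, add_zero, Finset.sum_range_succ]
  have hlast : ((m + 1).choose (m + 1) : ℂ) * (-1) ^ (m + 1) *
      (((m + 1 - (m + 1) : ℕ) : ℂ) * z ^ (m + 1 - (m + 1) - 1)) * G (m + 1) z = 0 := by
    simp
  rw [hlast, add_zero, eichlerE, Finset.mul_sum]
  refine Finset.sum_congr rfl fun j hj => ?_
  have hj' : j ≤ m := Nat.lt_succ_iff.mp (Finset.mem_range.mp hj)
  have hch : ((m + 1).choose j : ℂ) * ((m + 1 - j : ℕ) : ℂ) = (m.choose j : ℂ) * (m + 1 : ℂ) := by
    have := Nat.choose_mul_succ_eq m j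
    have h2 := congrArg (Nat.cast : ℕ → ℂ) this
    push_cast at h2
    rw [h2]
  have hexp : m + 1 - j - 1 = m - j := by omega
  rw [hexp]
  linear_combination ((-1) ^ j * z ^ (m - j) * G j z) * hch





noncomputable def periodPoly (m : ℕ) (κ : ℕ → ℂ) (a b c d : ℂ) : ℂ[X] :=
  ∑ j ∈ range (m + 1), C ((m.choose j : ℂ) * (-1) ^ j * κ j) *
    (C a * X + C b) ^ (m - j) * (C c * X + C d) ^ j

theorem eval_periodPoly (m : ℕ) (κ : ℕ → ℂ) (a b c d z : ℂ) :
    (periodPoly m κ a b c d).eval z =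
      ∑ j ∈ range (m + 1), (m.choose j : ℂ) * (-1) ^ j * κ j *
        (a * z + b) ^ (m - j) * (c * z + d) ^ j := by
  simp [periodPoly, eval_finsetSum]

theorem key_binomial (m : ℕ) (A B : ℂ) (a b c d : ℂ) :
    ∑ j ∈ range (m + 1), C ((m.choose j : ℂ) * (-1) ^ j * A ^ (m - j) * B ^ j) *
        ((C a * X + C b) ^ j * (C c * X + C d) ^ (m - j))
      = (C A * (C c * X + C d) - C B * (C a * X + C b)) ^ m := by
  have h := add_pow (-(C B * (C a * X + C b))) (C A * (C c * X + C d)) m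
  rw [show C A * (C c * X + C d) - C B * (C a * X + C b)
      = -(C B * (C a * X + C b)) + C A * (C c * X + C d) by ring, h]
  refine Finset.sum_congr rfl fun j hj => ?_
  rw [neg_pow (C B * (C a * X + C b)), mul_pow (C B), mul_pow (C A)]
  simp only [map_mul, map_pow, map_natCast, map_neg, map_one]
  ring

noncomputable def coeffPairing (m : ℕ) (H : ℕ → ℂ) : ℂ[X] →ₗ[ℂ] ℂ :=
  ∑ i ∈ range (m + 1), (H i) • (lcoeff ℂ i)

theorem coeffPairing_apply (m : ℕ) (H : ℕ → ℂ) (P : ℂ[X]) :
    coeffPairing m H P = ∑ i ∈ range (m + 1), P.coeff i * H i := by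
  simp [coeffPairing, LinearMap.sum_apply, mul_comm]

theorem coeff_sub_pow (m i : ℕ) (hi : i ≤ m) (z : ℂ) :
    ((C z - X) ^ m : ℂ[X]).coeff i = (m.choose i : ℂ) * (-1) ^ i * z ^ (m - i) := by
  have h := add_pow (-X : ℂ[X]) (C z) m
  rw [show C z - X = -X + C z by ring, h, finsetSum_coeff]
  rw [Finset.sum_eq_single i]
  · rw [neg_pow, ← C_pow, mul_assoc, mul_assoc, ← C_eq_natCast, ← C_mul]
    rw [show ((-1 : ℂ[X]) ^ i) = C ((-1 : ℂ) ^ i) by simp]
    rw [coeff_C_mul, coeff_X_pow_mul', if_pos le_rfl, Nat.sub_self, coeff_C_zero]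
    ring
  · intro j _ hji
    rw [neg_pow, ← C_pow, mul_assoc, mul_assoc, ← C_eq_natCast, ← C_mul]
    rw [show ((-1 : ℂ[X]) ^ j) = C ((-1 : ℂ) ^ j) by simp]
    rw [coeff_C_mul, coeff_X_pow_mul']
    split_ifs with hle
    · rw [coeff_C, if_neg (by omega), mul_zero]
    · rw [mul_zero]
  · intro h; exact absurd (Finset.mem_range.mpr (Nat.lt_succ_of_le hi)) h

theorem coeffPairing_sub_pow (m : ℕ) (H : ℕ → ℂ) (z : ℂ) :
    coeffPairing m H ((C z - X) ^ m)
      = ∑ i ∈ range (m + 1), (m.choose i : ℂ) * (-1) ^ i * z ^ (m - i) * H i := by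
  rw [coeffPairing_apply]
  refine Finset.sum_congr rfl fun i hi => ?_
  rw [coeff_sub_pow m i (Nat.lt_succ_iff.mp (Finset.mem_range.mp hi))]

/-- If `∑_i ρ_i X^i = Q(X)` for all complex `X` (sum over `i ≤ m`), then the pairing of `Q`
with `H` is `∑_i ρ_i H_i`. -/
theorem coeffPairing_of_eval_eq (m : ℕ) (H : ℕ → ℂ) (ρ : ℕ → ℂ) (Q : ℂ[X])
    (h : ∀ x : ℂ, ∑ i ∈ range (m + 1), ρ i * x ^ i = Q.eval x) :
    coeffPairing m H Q = ∑ i ∈ range (m + 1), ρ i * H i := by
  have hQ : Q = ∑ i ∈ range (m + 1), C (ρ i) * X ^ i := by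
    apply Polynomial.funext
    intro x
    rw [← h x, eval_finsetSum]
    simp
  rw [coeffPairing_apply]
  refine Finset.sum_congr rfl fun i hi => ?_
  congr 1
  rw [hQ, finsetSum_coeff, Finset.sum_eq_single i]
  · simp
  · intro j _ hji
    rw [coeff_C_mul, coeff_X_pow, if_neg (Ne.symm hji), mul_zero]
  · intro hn; exact absurd hi hn

theorem coeffPairing_C_mul (m : ℕ) (H : ℕ → ℂ) (u : ℂ) (P : ℂ[X]) :
    coeffPairing m H (C u * P) = u * coeffPairing m H P := by
  rw [C_mul', map_smul, smul_eq_mul]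

/-- (S2) Transformation law for the Eichler combination, in pointwise form. -/
theorem eichler_transform (m : ℕ) (a b c d z w : ℂ) (hw : w * (c * z + d) = a * z + b)
    (ρ : ℕ → ℕ → ℂ)
    (hρ : ∀ j ∈ range (m + 1), ∀ x : ℂ,
      ∑ i ∈ range (m + 1), ρ j i * x ^ i = (a * x + b) ^ j * (c * x + d) ^ (m - j))
    (Gw Hz κ : ℕ → ℂ)
    (hG : ∀ j ∈ range (m + 1), Gw j = κ j + ∑ i ∈ range (m + 1), ρ j i * Hz i) :
    (c * z + d) ^ m * ∑ j ∈ range (m + 1), (m.choose j : ℂ) * (-1) ^ j * w ^ (m - j) * Gw j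
      = (a * d - b * c) ^ m *
          ∑ i ∈ range (m + 1), (m.choose i : ℂ) * (-1) ^ i * z ^ (m - i) * Hz i
        + (periodPoly m κ a b c d).eval z := by
  -- pairing form of the hypothesis
  have hpair : ∀ j ∈ range (m + 1),
      ∑ i ∈ range (m + 1), ρ j i * Hz i
        = coeffPairing m Hz ((C a * X + C b) ^ j * (C c * X + C d) ^ (m - j)) := by
    intro j hj
    rw [coeffPairing_of_eval_eq m Hz (ρ j) _ (fun x => by rw [hρ j hj x]; simp)]
  -- rewrite the left-hand side termwise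
  have hterm : ∀ j ∈ range (m + 1),
      (c * z + d) ^ m * ((m.choose j : ℂ) * (-1) ^ j * w ^ (m - j) * Gw j)
        = (m.choose j : ℂ) * (-1) ^ j * κ j * (a * z + b) ^ (m - j) * (c * z + d) ^ j
          + coeffPairing m Hz
              (C ((m.choose j : ℂ) * (-1) ^ j * (a * z + b) ^ (m - j) * (c * z + d) ^ j) *
                ((C a * X + C b) ^ j * (C c * X + C d) ^ (m - j))) := by
    intro j hj
    have hjm : j ≤ m := Nat.lt_succ_iff.mp (Finset.mem_range.mp hj)
    have hpow : (c * z + d) ^ m * w ^ (m - j) = (a * z + b) ^ (m - j) * (c * z + d) ^ j := by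
      rw [← hw, mul_pow]
      conv_lhs => rw [show m = (m - j) + j by omega, pow_add]
      have : m - j + j - j = m - j := by omega
      rw [this]
      ring
    rw [hG j hj, hpair j hj, coeffPairing_C_mul]
    linear_combination ((m.choose j : ℂ) * (-1) ^ j *
      (κ j + coeffPairing m Hz ((C a * X + C b) ^ j * (C c * X + C d) ^ (m - j)))) * hpow
  rw [Finset.mul_sum, Finset.sum_congr rfl hterm, Finset.sum_add_distrib, ← map_sum,
    key_binomial m (a * z + b) (c * z + d) a b c d, eval_periodPoly, add_comm]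
  congr 1
  have hpoly : (C (a * z + b) * (C c * X + C d) - C (c * z + d) * (C a * X + C b) : ℂ[X])
      = C (a * d - b * c) * (C z - X) := by
    simp only [map_add, map_mul, map_sub]
    ring
  rw [hpoly, mul_pow, ← C_pow, coeffPairing_C_mul, coeffPairing_sub_pow]


/-- (S2) Transformation law, stated with `eichlerE`: if
`G_j(w) = κ_j + ∑_i ρ_{ji} H_i(z)` where `ρ_j` are the coefficients of `(aX+b)^j (cX+d)^(m-j)` and
`w (cz+d) = az+b`, then
`(cz+d)^m E_G(w) = (ad-bc)^m E_H(z) + P_κ(z)` with `P_κ = periodPoly m κ a b c d`. -/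
theorem eichlerE_transform (m : ℕ) (a b c d z w : ℂ) (hw : w * (c * z + d) = a * z + b)
    (ρ : ℕ → ℕ → ℂ)
    (hρ : ∀ j ∈ range (m + 1), ∀ x : ℂ,
      ∑ i ∈ range (m + 1), ρ j i * x ^ i = (a * x + b) ^ j * (c * x + d) ^ (m - j))
    (G H : ℕ → ℂ → ℂ) (κ : ℕ → ℂ)
    (hG : ∀ j ∈ range (m + 1), G j w = κ j + ∑ i ∈ range (m + 1), ρ j i * H i z) :
    (c * z + d) ^ m * eichlerE m G w
      = (a * d - b * c) ^ m * eichlerE m H z + (periodPoly m κ a b c d).eval z :=
  eichler_transform m a b c d z w hw ρ hρ (fun j => G j w) (fun i => H i z) κ hG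

end S2

section S34
/-- If a function vanishes on an open set, its derivative at points of this set vanishes. -/
theorem deriv_eq_zero_of_eqOn_zero {F : ℂ → ℂ} {F' : ℂ} {U : Set ℂ} (hU : IsOpen U) {z : ℂ}
    (hz : z ∈ U) (hF : ∀ w ∈ U, F w = 0) (hd : HasDerivAt F F' z) : F' = 0 := by
  have h0 : HasDerivAt (fun _ : ℂ => (0 : ℂ)) 0 z := hasDerivAt_const z 0
  have hev : F =ᶠ[𝓝 z] fun _ => (0 : ℂ) := by
    filter_upwards [hU.mem_nhds hz] with w hw using hF w hw
  exact (hd.congr_of_eventuallyEq hev.symm).unique h0 |>.symm ▸ rfl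

/-- (S3') If the Eichler combination of the primitives `G_j` of `f z^j` vanishes on an open set,
then so does `f`. -/
theorem eq_zero_of_eichlerE_eq_zero (m : ℕ) (G : ℕ → ℂ → ℂ) (f : ℂ → ℂ) (U : Set ℂ)
    (hU : IsOpen U)
    (hG : ∀ j ∈ range (m + 1), ∀ z ∈ U, HasDerivAt (G j) (f z * z ^ j) z)
    (hE : ∀ z ∈ U, eichlerE m G z = 0) : ∀ z ∈ U, f z = 0 := by
  induction m with
  | zero =>
    intro z hz
    have hd := hG 0 (by simp) z hz
    have h0 : ∀ w ∈ U, G 0 w = 0 := fun w hw => by rw [← eichlerE_zero G w]; exact hE w hw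
    have := deriv_eq_zero_of_eqOn_zero hU hz h0 hd
    simpa using this
  | succ m ih =>
    apply ih
    · intro j hj z hz
      exact hG j (Finset.mem_range.mpr (by have := Finset.mem_range.mp hj; omega)) z hz
    · intro z hz
      have hd := hasDerivAt_eichlerE_succ m G f z (fun j hj => hG j hj z hz)
      have := deriv_eq_zero_of_eqOn_zero hU hz hE hd
      have hne : (m + 1 : ℂ) ≠ 0 := by exact_mod_cast Nat.succ_ne_zero m
      exact (mul_eq_zero.mp this).resolve_left hne

end S34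


section S5

/-- (S5) Pointwise identity: if `A j s` obeys the integration-by-parts recursion
`A 0 s = I (s+1)`, `A (j+1) s = z^(j+1) I (s+1) - (j+1) A j (s+1)` (so that `A j s` is the
decaying primitive of `z^j I_s`), then the Eichler combination of the `A j s` is `m! I (s+m+1)`. -/
theorem eichler_sum_eq_factorial_mul (z : ℂ) (I : ℕ → ℂ) (A : ℕ → ℕ → ℂ)
    (hA0 : ∀ s, A 0 s = I (s + 1))
    (hAs : ∀ j s, A (j + 1) s = z ^ (j + 1) * I (s + 1) - (j + 1 : ℂ) * A j (s + 1))
    (m s : ℕ) :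
    ∑ j ∈ range (m + 1), (m.choose j : ℂ) * (-1) ^ j * z ^ (m - j) * A j s
      = (m.factorial : ℂ) * I (s + m + 1) := by
  induction m generalizing s with
  | zero => simp [hA0]
  | succ m ih =>
    -- uniform formula A j s = z^j I(s+1) - j * A (j-1) (s+1)
    have hA : ∀ j, A j s = z ^ j * I (s + 1) - (j : ℂ) * A (j - 1) (s + 1) := by
      intro j
      cases j with
      | zero => simp [hA0]
      | succ j => rw [hAs]; simp
    have hsplit : ∑ j ∈ range (m + 2), ((m + 1).choose j : ℂ) * (-1) ^ j * z ^ (m + 1 - j) * A j s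
        = (∑ j ∈ range (m + 2), ((m + 1).choose j : ℂ) * (-1) ^ j) * (z ^ (m + 1) * I (s + 1))
          - ∑ j ∈ range (m + 2), ((m + 1).choose j : ℂ) * (-1) ^ j * z ^ (m + 1 - j) *
              ((j : ℂ) * A (j - 1) (s + 1)) := by
      rw [Finset.sum_mul, ← Finset.sum_sub_distrib]
      refine Finset.sum_congr rfl fun j hj => ?_
      have hj' : j ≤ m + 1 := Nat.lt_succ_iff.mp (Finset.mem_range.mp hj)
      have hz : z ^ (m + 1) = z ^ (m + 1 - j) * z ^ j := by
        rw [← pow_add]; congr 1; omega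
      rw [hA j, hz]
      ring
    rw [hsplit, alternating_choose_sum_complex, zero_mul, zero_sub, Finset.sum_range_succ']
    simp only [Nat.cast_zero, zero_mul, mul_zero, add_zero, Nat.add_sub_cancel]
    have hterm : ∀ i ∈ range (m + 1),
        ((m + 1).choose (i + 1) : ℂ) * (-1) ^ (i + 1) * z ^ (m + 1 - (i + 1)) *
          (((i + 1 : ℕ) : ℂ) * A i (s + 1))
        = -((m + 1 : ℂ) * ((m.choose i : ℂ) * (-1) ^ i * z ^ (m - i) * A i (s + 1))) := by
      intro i _
      have hch : ((m + 1).choose (i + 1) : ℂ) * ((i + 1 : ℕ) : ℂ) = (m + 1 : ℂ) * (m.choose i : ℂ) := by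
        have := Nat.add_one_mul_choose_eq m i
        have h2 := congrArg (Nat.cast : ℕ → ℂ) this
        push_cast at h2 ⊢
        linear_combination -h2
      have hexp : m + 1 - (i + 1) = m - i := by omega
      rw [hexp, pow_succ]
      linear_combination ((-1) ^ i * (-1) * z ^ (m - i) * A i (s + 1)) * hch
    rw [Finset.sum_congr rfl hterm, Finset.sum_neg_distrib, neg_neg, ← Finset.mul_sum, ih (s + 1),
      Nat.factorial_succ]
    push_cast
    have : s + 1 + m + 1 = s + (m + 1) + 1 := by omega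
    rw [this]
    ring


/-- (S5) function form: with `G j = A j 0`, `eichlerE m G z = m! * I (m+1) z`. -/
theorem eichlerE_eq_factorial_mul (m : ℕ) (z : ℂ) (I : ℕ → ℂ → ℂ) (A : ℕ → ℕ → ℂ → ℂ)
    (hA0 : ∀ s, A 0 s z = I (s + 1) z)
    (hAs : ∀ j s, A (j + 1) s z = z ^ (j + 1) * I (s + 1) z - (j + 1 : ℂ) * A j (s + 1) z) :
    eichlerE m (fun j => A j 0) z = (m.factorial : ℂ) * I (m + 1) z := by
  have h := eichler_sum_eq_factorial_mul z (fun s => I s z) (fun j s => A j s z) hA0 hAs m 0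
  simpa [eichlerE] using h

end S5

end Fermat.Agent.S22.SepCore
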