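import Mathlib
import Fermat.Agent.S22.Primitive
import Fermat.Agent.S22.SepCore
import Fermat.Agent.S22.SepAux
import Fermat.Agent.S22.CuspBound

/-!
# S22, package F: separation for the period lattice

If the `(m+1)`-fold decaying primitive `E` of a cusp form `f` of weight `m+2` on `Γ₀(N)` is
slash-invariant of weight `-m`, then `f = 0`.

Everything is expressed with first derivatives only (no Bol identity, no path integrals).
-/

open UpperHalfPlane ModularForm CongruenceSubgroup Filter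
open scoped MatrixGroups ModularForm Manifold Topology

noncomputable section

namespace Fermat.Agent.S22.Separation

/-- `F : ℍ → ℂ` has complex derivative `F'` everywhere on the upper half plane. -/
def HasDerivOnH (F F' : ℍ → ℂ) : Prop :=
  ∀ τ : ℍ, HasDerivAt (F ∘ ofComplex) (F' τ) (τ : ℂ)

namespace HasDerivOnH

variable {F F' G G' : ℍ → ℂ}

theorem add (hF : HasDerivOnH F F') (hG : HasDerivOnH G G') :
    HasDerivOnH (fun τ => F τ + G τ) (fun τ => F' τ + G' τ) := fun τ => (hF τ).add (hG τ)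

theorem sub (hF : HasDerivOnH F F') (hG : HasDerivOnH G G') :
    HasDerivOnH (fun τ => F τ - G τ) (fun τ => F' τ - G' τ) := fun τ => (hF τ).sub (hG τ)

theorem mul (hF : HasDerivOnH F F') (hG : HasDerivOnH G G') :
    HasDerivOnH (fun τ => F τ * G τ) (fun τ => F' τ * G τ + F τ * G' τ) := fun τ => by
  have h := (hF τ).mul (hG τ)
  simp only [Function.comp_apply, ofComplex_apply] at h
  exact h

theorem const_mul (c : ℂ) (hF : HasDerivOnH F F') :
    HasDerivOnH (fun τ => c * F τ) (fun τ => c * F' τ) := fun τ => (hF τ).const_mul c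

theorem mul_const (c : ℂ) (hF : HasDerivOnH F F') :
    HasDerivOnH (fun τ => F τ * c) (fun τ => F' τ * c) := fun τ => (hF τ).mul_const c

theorem pow (n : ℕ) (hF : HasDerivOnH F F') :
    HasDerivOnH (fun τ => F τ ^ n) (fun τ => (n : ℂ) * F τ ^ (n - 1) * F' τ) := fun τ => by
  have h := (hF τ).pow n
  simp only [Function.comp_apply, ofComplex_apply] at h
  exact h

theorem congr_deriv {F'' : ℍ → ℂ} (hF : HasDerivOnH F F') (h : ∀ τ, F' τ = F'' τ) :
    HasDerivOnH F F'' := fun τ => h τ ▸ hF τ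

theorem sum {ι : Type*} (s : Finset ι) {A A' : ι → ℍ → ℂ}
    (h : ∀ i ∈ s, HasDerivOnH (A i) (A' i)) :
    HasDerivOnH (fun τ => ∑ i ∈ s, A i τ) (fun τ => ∑ i ∈ s, A' i τ) := fun τ => by
  have := HasDerivAt.fun_sum (u := s) (A := fun i => A i ∘ ofComplex) (A' := fun i => A' i τ)
    (x := (τ : ℂ)) (fun i hi => h i hi τ)
  simpa [Function.comp_def] using this

end HasDerivOnH

theorem hasDerivOnH_const (c : ℂ) : HasDerivOnH (fun _ => c) (fun _ => 0) := fun τ => by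
  simpa [Function.comp_def] using hasDerivAt_const (τ : ℂ) c

theorem hasDerivOnH_coe : HasDerivOnH (fun τ : ℍ => (τ : ℂ)) (fun _ => 1) := fun τ => by
  refine (hasDerivAt_id (τ : ℂ)).congr_of_eventuallyEq ?_
  filter_upwards [isOpen_upperHalfPlaneSet.mem_nhds τ.im_pos] with z hz
  simp [ofComplex_apply_of_im_pos hz]

theorem HasDerivOnH.div_const {F F' : ℍ → ℂ} (hF : HasDerivOnH F F') (c : ℂ) :
    HasDerivOnH (fun τ => F τ / c) (fun τ => F' τ / c) := fun τ => (hF τ).div_const c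

theorem HasDerivOnH.div {F F' G G' : ℍ → ℂ} (hF : HasDerivOnH F F') (hG : HasDerivOnH G G')
    (hne : ∀ τ, G τ ≠ 0) :
    HasDerivOnH (fun τ => F τ / G τ) (fun τ => (F' τ * G τ - F τ * G' τ) / G τ ^ 2) := fun τ => by
  have h := (hF τ).div (hG τ) (by simpa using hne τ)
  simp only [Function.comp_apply, ofComplex_apply] at h
  exact h

/-- A function with zero derivative on `ℍ` is constant. -/
theorem HasDerivOnH.eq_of_zero {F : ℍ → ℂ} (hF : HasDerivOnH F (fun _ => 0)) (τ τ' : ℍ) :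
    F τ = F τ' :=
  eq_of_hasDerivAt_zero hF τ τ'

/-- Functions `ℂ → ℂ` differentiable on the upper half plane give `HasDerivOnH`. -/
theorem hasDerivOnH_of_hasDerivAt {F F' : ℂ → ℂ}
    (h : ∀ z : ℂ, 0 < z.im → HasDerivAt F (F' z) z) :
    HasDerivOnH (fun τ : ℍ => F τ) (fun τ : ℍ => F' τ) := fun τ => by
  refine (h τ τ.im_pos).congr_of_eventuallyEq ?_
  filter_upwards [isOpen_upperHalfPlaneSet.mem_nhds τ.im_pos] with z hz
  simp [ofComplex_apply_of_im_pos hz]

theorem HasDerivOnH.mdifferentiable {F F' : ℍ → ℂ} (hF : HasDerivOnH F F') : MDiff F := by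
  rw [UpperHalfPlane.mdifferentiable_iff]
  intro z hz
  have := hF ⟨z, hz⟩
  exact this.differentiableAt.differentiableWithinAt

theorem SL_det_eq_one (s : SL(2, ℤ)) : (s : GL (Fin 2) ℝ).val.det = 1 := by
  rw [← Matrix.GeneralLinearGroup.val_det_apply]; simp

/-- Chain rule for the Möbius action of `SL(2,ℤ)`. -/
theorem HasDerivOnH.comp_smul {F F' : ℍ → ℂ} (hF : HasDerivOnH F F') (s : SL(2, ℤ)) :
    HasDerivOnH (fun τ => F (s • τ)) (fun τ => F' (s • τ) / denom s τ ^ 2) := fun τ => by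
  have h1 : HasDerivAt (fun z : ℂ => ((s • ofComplex z : ℍ) : ℂ)) (1 / denom s τ ^ 2) τ := by
    have := (hasStrictDerivAt_smul (g := (s : GL (Fin 2) ℝ))
      (by rw [SL_det_eq_one]; exact one_pos) τ).hasDerivAt
    rw [SL_det_eq_one] at this
    simpa using this
  have h2 : HasDerivAt (F ∘ ofComplex) (F' (s • τ)) ((s • ofComplex (τ : ℂ) : ℍ) : ℂ) := by
    rw [ofComplex_apply]; exact hF (s • τ)
  have h3 := h2.comp (τ : ℂ) h1
  have h4 : ((F ∘ ofComplex) ∘ fun z : ℂ => ((s • ofComplex z : ℍ) : ℂ)) =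
      (fun τ => F (s • τ)) ∘ ofComplex := by
    funext z
    simp [Function.comp_apply, ofComplex_apply]
  rw [h4] at h3
  exact h3.congr_deriv (mul_one_div _ _)

theorem hasDerivOnH_denom (s : SL(2, ℤ)) :
    HasDerivOnH (fun τ => denom s τ) (fun _ => (s 1 0 : ℂ)) := fun τ => by
  have h : HasDerivAt (fun z : ℂ => (s 1 0 : ℂ) * z + (s 1 1 : ℂ)) (s 1 0 : ℂ) (τ : ℂ) := by
    simpa using ((hasDerivAt_id (τ : ℂ)).const_mul (s 1 0 : ℂ)).add_const (s 1 1 : ℂ)
  refine h.congr_of_eventuallyEq ?_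
  filter_upwards [isOpen_upperHalfPlaneSet.mem_nhds τ.im_pos] with z hz
  simp [ofComplex_apply_of_im_pos hz, ModularGroup.denom_apply]

/-! ## Section 2: the first order Taylor kernel -/

open Finset in
theorem kernel_telescope (m : ℕ) (a : ℕ → ℂ) (w u j : ℂ) (hj : j ≠ 0) :
    ∑ t ∈ range (m + 1), ((a (t + 1) / j ^ 2 * w ^ (m - t)) * u ^ t +
        (a t * w ^ (m - t)) * ((t : ℂ) * u ^ (t - 1) * (-w / j ^ 2))) / (t.factorial : ℂ)
      = a (m + 1) * u ^ m / (j ^ 2 * (m.factorial : ℂ)) := by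
  set v : ℕ → ℂ := fun t => a t * w ^ (m + 1 - t) * ((t : ℂ) * u ^ (t - 1)) / (t.factorial : ℂ) / j ^ 2
    with hv
  have hterm : ∀ t ∈ range (m + 1), ((a (t + 1) / j ^ 2 * w ^ (m - t)) * u ^ t +
        (a t * w ^ (m - t)) * ((t : ℂ) * u ^ (t - 1) * (-w / j ^ 2))) / (t.factorial : ℂ)
      = v (t + 1) - v t := by
    intro t ht
    have htm : t ≤ m := Nat.lt_succ_iff.mp (mem_range.mp ht)
    have h1 : m + 1 - (t + 1) = m - t := by omega
    have h2 : m + 1 - t = (m - t) + 1 := by omega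
    have hf : ((t + 1).factorial : ℂ) = ((t : ℂ) + 1) * (t.factorial : ℂ) := by
      rw [Nat.factorial_succ]; push_cast; ring
    have hf0 : (t.factorial : ℂ) ≠ 0 := by exact_mod_cast t.factorial_ne_zero
    have ht1 : ((t : ℂ) + 1) ≠ 0 := by exact_mod_cast Nat.succ_ne_zero t
    simp only [hv, h1, h2, Nat.add_sub_cancel, hf, pow_succ]
    push_cast
    field_simp
    ring
  rw [sum_congr rfl hterm, sum_range_sub]
  simp only [hv]
  have hf : ((m + 1).factorial : ℂ) = ((m : ℂ) + 1) * (m.factorial : ℂ) := by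
    rw [Nat.factorial_succ]; push_cast; ring
  have hf0 : (m.factorial : ℂ) ≠ 0 := by exact_mod_cast m.factorial_ne_zero
  have hm1 : ((m : ℂ) + 1) ≠ 0 := by exact_mod_cast Nat.succ_ne_zero m
  simp only [Nat.sub_self, pow_zero, Nat.add_sub_cancel, hf]
  push_cast
  field_simp
  ring

/-- The first order Taylor kernel attached to a derivative chain `D` and `s ∈ SL(2,ℤ)`. -/
def taylorKernel (m : ℕ) (D : ℕ → ℍ → ℂ) (s : SL(2, ℤ)) (X : ℂ) (τ : ℍ) : ℂ :=
  ∑ t ∈ Finset.range (m + 1),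
    D t (s • τ) * ((s 1 0 : ℂ) * X + (s 1 1 : ℂ)) ^ (m - t) * ((X - τ) / denom s τ) ^ t /
      (t.factorial : ℂ)

theorem hasDerivOnH_taylorKernel (m : ℕ) (D : ℕ → ℍ → ℂ)
    (hD : ∀ t ≤ m, HasDerivOnH (D t) (D (t + 1))) (s : SL(2, ℤ)) (X : ℂ) :
    HasDerivOnH (taylorKernel m D s X)
      (fun τ => D (m + 1) (s • τ) * (X - τ) ^ m / (denom s τ ^ (m + 2) * (m.factorial : ℂ))) := by
  set w : ℂ := (s 1 0 : ℂ) * X + (s 1 1 : ℂ) with hw
  have hne : ∀ τ : ℍ, denom s τ ≠ 0 := fun τ => denom_ne_zero s τ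
  have hu : HasDerivOnH (fun τ : ℍ => (X - τ) / denom s τ) (fun τ => -w / denom s τ ^ 2) := by
    have h := ((hasDerivOnH_const X).sub hasDerivOnH_coe).div (hasDerivOnH_denom s) hne
    refine h.congr_deriv fun τ => ?_
    congr 1
    rw [ModularGroup.denom_apply, hw]
    ring
  have hterm : ∀ t ∈ Finset.range (m + 1), HasDerivOnH
      (fun τ => D t (s • τ) * w ^ (m - t) * ((X - τ) / denom s τ) ^ t / (t.factorial : ℂ))
      (fun τ => ((D (t + 1) (s • τ) / denom s τ ^ 2 * w ^ (m - t)) * ((X - τ) / denom s τ) ^ t +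
        (D t (s • τ) * w ^ (m - t)) * ((t : ℂ) * ((X - τ) / denom s τ) ^ (t - 1) *
          (-w / denom s τ ^ 2))) / (t.factorial : ℂ)) := by
    intro t ht
    have htm : t ≤ m := Nat.lt_succ_iff.mp (Finset.mem_range.mp ht)
    exact ((((hD t htm).comp_smul s).mul_const (w ^ (m - t))).mul (hu.pow t)).div_const _
  have hsum := HasDerivOnH.sum (Finset.range (m + 1)) hterm
  refine hsum.congr_deriv fun τ => ?_
  rw [kernel_telescope m (fun t => D t (s • τ)) w ((X - τ) / denom s τ) (denom s τ) (hne τ)]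
  rw [div_pow, pow_add]
  have h1 := hne τ
  have hf0 : (m.factorial : ℂ) ≠ 0 := by exact_mod_cast m.factorial_ne_zero
  field_simp

theorem taylorKernel_diag (m : ℕ) (D : ℕ → ℍ → ℂ) (s : SL(2, ℤ)) (τ : ℍ) :
    taylorKernel m D s τ τ = D 0 (s • τ) * denom s τ ^ m := by
  unfold taylorKernel
  rw [Finset.sum_eq_single 0]
  · simp [ModularGroup.denom_apply]
  · intro t _ ht
    simp [ht]
  · intro h
    exact absurd (Finset.mem_range.mpr (Nat.succ_pos m)) h

/-- For fixed `τ₀`, the kernel is a polynomial in `X`. -/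
theorem exists_poly_taylorKernel (m : ℕ) (D : ℕ → ℍ → ℂ) (s : SL(2, ℤ)) (τ₀ : ℍ) :
    ∃ P : Polynomial ℂ, ∀ X : ℂ, P.eval X = taylorKernel m D s X τ₀ := by
  refine ⟨∑ t ∈ Finset.range (m + 1),
    Polynomial.C (D t (s • τ₀) / (denom s τ₀ ^ t * (t.factorial : ℂ))) *
      (Polynomial.C (s 1 0 : ℂ) * Polynomial.X + Polynomial.C (s 1 1 : ℂ)) ^ (m - t) *
      (Polynomial.X - Polynomial.C (τ₀ : ℂ)) ^ t, fun X => ?_⟩
  unfold taylorKernel
  rw [Polynomial.eval_finsetSum]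
  refine Finset.sum_congr rfl fun t _ => ?_
  simp only [Polynomial.eval_mul, Polynomial.eval_C, Polynomial.eval_pow, Polynomial.eval_add,
    Polynomial.eval_X, Polynomial.eval_sub]
  rw [div_pow]
  have h1 := denom_ne_zero s τ₀
  have hf0 : (t.factorial : ℂ) ≠ 0 := by exact_mod_cast t.factorial_ne_zero
  field_simp

/-! ## Section 3: comparison of two chains -/

theorem denom_one_SL (τ : ℍ) : denom (1 : SL(2, ℤ)) τ = 1 := by
  rw [ModularGroup.denom_apply]; simp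

/-- If `D` and `J` are derivative chains of length `m + 1` such that the bottom of `J` is the weight
`m + 2` slash of the bottom of `D` by `s`, then the weight `-m` slash of the top of `D` and the top
of `J` differ by a polynomial of degree at most `m`. -/
theorem exists_poly_slash_top (m : ℕ) (D J : ℕ → ℍ → ℂ)
    (hD : ∀ t ≤ m, HasDerivOnH (D t) (D (t + 1))) (hJ : ∀ t ≤ m, HasDerivOnH (J t) (J (t + 1)))
    (s : SL(2, ℤ)) (hJD : ∀ τ : ℍ, J (m + 1) τ = D (m + 1) (s • τ) / denom s τ ^ (m + 2)) :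
    ∃ P : Polynomial ℂ, ∀ τ : ℍ, D 0 (s • τ) * denom s τ ^ m = J 0 τ + P.eval (τ : ℂ) := by
  obtain ⟨P1, hP1⟩ := exists_poly_taylorKernel m D s UpperHalfPlane.I
  obtain ⟨P2, hP2⟩ := exists_poly_taylorKernel m J 1 UpperHalfPlane.I
  refine ⟨P1 - P2, fun τ => ?_⟩
  have hΔ : HasDerivOnH
      (fun σ => taylorKernel m D s (τ : ℂ) σ - taylorKernel m J 1 (τ : ℂ) σ) (fun _ => 0) := by
    refine ((hasDerivOnH_taylorKernel m D hD s (τ : ℂ)).sub
      (hasDerivOnH_taylorKernel m J hJ 1 (τ : ℂ))).congr_deriv fun σ => ?_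
    rw [one_smul, denom_one_SL, hJD σ, one_pow, one_mul]
    have h1 := denom_ne_zero s σ
    have hf0 : (m.factorial : ℂ) ≠ 0 := by exact_mod_cast m.factorial_ne_zero
    field_simp
    ring
  have h := hΔ.eq_of_zero τ UpperHalfPlane.I
  simp only [taylorKernel_diag, one_smul, denom_one_SL, one_pow, mul_one, ← hP1, ← hP2] at h
  rw [Polynomial.eval_sub, ← h]
  ring

/-! ## Section 4: periodicity conversions and towers of decaying primitives -/

theorem periodic_comp_ofComplex_of_T_zpow {F : ℍ → ℂ} {N : ℕ}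
    (h : ∀ z : ℍ, F (ModularGroup.T ^ (N : ℤ) • z) = F z) :
    Function.Periodic (F ∘ ofComplex) ((N : ℝ) : ℂ) := by
  intro x
  simp only [Function.comp_apply]
  by_cases hx : 0 < x.im
  · have hx' : 0 < (x + ((N : ℝ) : ℂ)).im := by simpa using hx
    have : ofComplex (x + ((N : ℝ) : ℂ)) = ModularGroup.T ^ (N : ℤ) • ofComplex x := by
      ext
      rw [ofComplex_apply_of_im_pos hx', ModularGroup.coe_T_zpow_smul_eq,
        ofComplex_apply_of_im_pos hx]
      simp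
    rw [this, h]
  · have hx := not_lt.mp hx
    have hx' : (x + ((N : ℝ) : ℂ)).im ≤ 0 := by simpa using hx
    rw [ofComplex_apply_of_im_nonpos hx, ofComplex_apply_of_im_nonpos hx']

theorem T_zpow_of_periodic_comp_ofComplex {F : ℍ → ℂ} {N : ℕ}
    (h : Function.Periodic (F ∘ ofComplex) ((N : ℝ) : ℂ)) (z : ℍ) :
    F (ModularGroup.T ^ (N : ℤ) • z) = F z := by
  have h1 := h (z : ℂ)
  simp only [Function.comp_apply, ofComplex_apply] at h1
  rw [← h1]
  congr 1
  ext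
  have hz' : 0 < ((z : ℂ) + ((N : ℝ) : ℂ)).im := by simpa using z.im_pos
  rw [ModularGroup.coe_T_zpow_smul_eq, ofComplex_apply_of_im_pos hz']
  simp

/-- Iterating `exists_primitive_isZeroAtImInfty`. -/
theorem exists_tower {h : ℝ} (hh : 0 < h) {φ : ℍ → ℂ}
    (hper : Function.Periodic (φ ∘ ofComplex) h) (hhol : MDiff φ) (hzero : IsZeroAtImInfty φ) :
    ∃ T : ℕ → ℍ → ℂ, T 0 = φ ∧ ∀ t, Function.Periodic (T t ∘ ofComplex) h ∧ MDiff (T t) ∧
      IsZeroAtImInfty (T t) ∧ HasDerivOnH (T (t + 1)) (T t) := by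
  classical
  let S := {F : ℍ → ℂ // Function.Periodic (F ∘ ofComplex) h ∧ MDiff F ∧ IsZeroAtImInfty F}
  have hstep : ∀ F : S, ∃ G : S, HasDerivOnH G.1 F.1 := by
    intro F
    obtain ⟨G, h1, h2, h3, h4⟩ := exists_primitive_isZeroAtImInfty hh F.2.1 F.2.2.1 F.2.2.2
    exact ⟨⟨G, h1, h2, h3⟩, h4⟩
  choose step hstep' using hstep
  let seq : ℕ → S := fun n => Nat.rec ⟨φ, hper, hhol, hzero⟩ (fun _ F => step F) n
  exact ⟨fun t => (seq t).1, rfl,
    fun t => ⟨(seq t).2.1, (seq t).2.2.1, (seq t).2.2.2, hstep' (seq t)⟩⟩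

/-! ## Section 5: the separation theorem (interface-free form) -/

open Finset SepCore

/-- slash invariance of a cusp form for `Γ₀(N)`, in `SL(2,ℤ)` form -/
theorem cuspForm_slash_eq {N : ℕ} {k : ℤ} (f : CuspForm (Gamma0 N) k) (γ : SL(2, ℤ))
    (hγ : γ ∈ Gamma0 N) : (f : ℍ → ℂ) ∣[k] γ = f :=
  f.slash_action_eq' _ ⟨γ, hγ, rfl⟩

theorem SL_det_complex (γ : SL(2, ℤ)) :
    (γ 0 0 : ℂ) * (γ 1 1 : ℂ) - (γ 0 1 : ℂ) * (γ 1 0 : ℂ) = 1 := by
  have h := γ.det_coe
  rw [Matrix.det_fin_two] at h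
  have h2 := congrArg (Int.cast : ℤ → ℂ) h
  push_cast at h2
  exact h2

theorem coe_smul_mul_denom (γ : SL(2, ℤ)) (τ : ℍ) :
    ((γ • τ : ℍ) : ℂ) * ((γ 1 0 : ℂ) * τ + (γ 1 1 : ℂ)) = (γ 0 0 : ℂ) * τ + (γ 0 1 : ℂ) := by
  have hne : (γ 1 0 : ℂ) * τ + (γ 1 1 : ℂ) ≠ 0 := by
    have := denom_ne_zero γ τ
    rwa [ModularGroup.denom_apply] at this
  rw [coe_specialLinearGroup_apply]
  simp only [algebraMap_int_eq, eq_intCast, Complex.ofReal_intCast]
  exact div_mul_cancel₀ _ hne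

theorem eichlerE_slash_invariant (w : ℕ) (G : ℕ → ℂ → ℂ) (γ : SL(2, ℤ)) (ρ : ℕ → ℕ → ℂ)
    (hρ : ∀ j ∈ range (w + 1), ∀ x : ℂ, ∑ i ∈ range (w + 1), ρ j i * x ^ i =
        ((γ 0 0 : ℂ) * x + (γ 0 1 : ℂ)) ^ j * ((γ 1 0 : ℂ) * x + (γ 1 1 : ℂ)) ^ (w - j))
    (hGγ : ∀ j ∈ range (w + 1), ∀ τ : ℍ,
        G j ((γ • τ : ℍ) : ℂ) = ∑ i ∈ range (w + 1), ρ j i * G i (τ : ℂ)) :
    (fun τ : ℍ => eichlerE w G τ) ∣[-(w : ℤ)] γ = fun τ : ℍ => eichlerE w G τ := by
  funext τ
  rw [SL_slash_apply, neg_neg, zpow_natCast, ModularGroup.denom_apply]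
  have h := eichlerE_transform w (γ 0 0 : ℂ) (γ 0 1 : ℂ) (γ 1 0 : ℂ) (γ 1 1 : ℂ) τ
    ((γ • τ : ℍ) : ℂ) (coe_smul_mul_denom γ τ) ρ hρ G G 0
    (by intro j hj; rw [hGγ j hj τ, Pi.zero_apply, zero_add])
  rw [SL_det_complex, one_pow, one_mul, eval_periodPoly] at h
  simp only [Pi.zero_apply, mul_zero, zero_mul, sum_const_zero, add_zero] at h
  rw [mul_comm]
  exact h

theorem hasDerivOnH_eichlerE_succ (r : ℕ) (G : ℕ → ℂ → ℂ) (φ : ℍ → ℂ)
    (hG : ∀ j ∈ range (r + 2), ∀ z : ℂ, 0 < z.im → HasDerivAt (G j) (φ (ofComplex z) * z ^ j) z) :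
    HasDerivOnH (fun τ : ℍ => eichlerE (r + 1) G τ) (fun τ => ((r : ℂ) + 1) * eichlerE r G τ) :=
  hasDerivOnH_of_hasDerivAt (F := eichlerE (r + 1) G) (F' := fun z => ((r : ℂ) + 1) * eichlerE r G z)
    (fun z hz => hasDerivAt_eichlerE_succ r G (fun z => φ (ofComplex z)) z
      (fun j hj => hG j hj z hz))

theorem hasDerivOnH_eichlerE_zero (G : ℕ → ℂ → ℂ) (φ : ℍ → ℂ)
    (hG : ∀ z : ℂ, 0 < z.im → HasDerivAt (G 0) (φ (ofComplex z) * z ^ 0) z) :
    HasDerivOnH (fun τ : ℍ => eichlerE 0 G τ) φ := by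
  have h1 : (fun τ : ℍ => eichlerE 0 G τ) = fun τ : ℍ => G 0 τ := by
    funext τ; exact eichlerE_zero G τ
  rw [h1]
  refine (hasDerivOnH_of_hasDerivAt (F := G 0) (F' := fun z => φ (ofComplex z) * z ^ 0) hG).congr_deriv
    fun τ => ?_
  simp [ofComplex_apply]

/-- The derivative chain `D_t = w!/(w-t)! E_{w-t}` (`t ≤ w`), `D_{w+1} = w! φ`. -/
def eichlerChain (w : ℕ) (G : ℕ → ℂ → ℂ) (φ : ℍ → ℂ) (t : ℕ) (τ : ℍ) : ℂ :=
  if t ≤ w then (w.descFactorial t : ℂ) * eichlerE (w - t) G τ else (w.factorial : ℂ) * φ τ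

theorem hasDerivOnH_eichlerChain (w : ℕ) (G : ℕ → ℂ → ℂ) (φ : ℍ → ℂ)
    (hG : ∀ j ∈ range (w + 1), ∀ z : ℂ, 0 < z.im → HasDerivAt (G j) (φ (ofComplex z) * z ^ j) z) :
    ∀ t ≤ w, HasDerivOnH (eichlerChain w G φ t) (eichlerChain w G φ (t + 1)) := by
  intro t ht
  rcases ht.lt_or_eq with hlt | rfl
  · obtain ⟨r, hr⟩ : ∃ r, w - t = r + 1 := ⟨w - t - 1, by omega⟩
    have hr' : w - (t + 1) = r := by omega
    have h1 : eichlerChain w G φ t = fun τ : ℍ => (w.descFactorial t : ℂ) * eichlerE (r + 1) G τ := by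
      funext τ; simp [eichlerChain, ht, hr]
    have h2 : eichlerChain w G φ (t + 1) =
        fun τ : ℍ => (w.descFactorial (t + 1) : ℂ) * eichlerE r G τ := by
      funext τ; simp [eichlerChain, Nat.succ_le_of_lt hlt, hr']
    rw [h1, h2]
    refine ((hasDerivOnH_eichlerE_succ r G φ (fun j hj => hG j ?_)).const_mul _).congr_deriv
      fun τ => ?_
    · rw [mem_range] at hj ⊢; omega
    · rw [Nat.descFactorial_succ, hr]
      push_cast
      ring
  · have h1 : eichlerChain t G φ t = fun τ : ℍ => (t.factorial : ℂ) * eichlerE 0 G τ := by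
      funext τ; simp [eichlerChain, Nat.descFactorial_self]
    have h2 : eichlerChain t G φ (t + 1) = fun τ => (t.factorial : ℂ) * φ τ := by
      funext τ; simp [eichlerChain]
    rw [h1, h2]
    exact (hasDerivOnH_eichlerE_zero G φ (hG 0 (mem_range.mpr (Nat.succ_pos t)))).const_mul _

theorem eq_zero_of_periods_eq_zero {N : ℕ} [NeZero N] (w : ℕ)
    (f : CuspForm (Gamma0 N) ((w : ℤ) + 2)) (G : ℕ → ℂ → ℂ)
    (hG : ∀ j ∈ range (w + 1), ∀ z : ℂ, 0 < z.im →
      HasDerivAt (G j) (f (ofComplex z) * z ^ j) z)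
    (hG0 : Tendsto (fun y : ℝ => G 0 (y * Complex.I)) atTop (𝓝 0))
    (hper : ∀ γ : SL(2, ℤ), γ ∈ Gamma0 N → ∃ ρ : ℕ → ℕ → ℂ,
      (∀ j ∈ range (w + 1), ∀ x : ℂ, ∑ i ∈ range (w + 1), ρ j i * x ^ i =
        ((γ 0 0 : ℂ) * x + (γ 0 1 : ℂ)) ^ j * ((γ 1 0 : ℂ) * x + (γ 1 1 : ℂ)) ^ (w - j)) ∧
      ∀ j ∈ range (w + 1), ∀ τ : ℍ,
        G j ((γ • τ : ℍ) : ℂ) = ∑ i ∈ range (w + 1), ρ j i * G i (τ : ℂ)) :
    f = 0 := by
  classical
  set E : ℍ → ℂ := fun τ => eichlerE w G τ with hE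
  have hchain := hasDerivOnH_eichlerChain w G (f : ℍ → ℂ) hG
  have hE_eq : eichlerChain w G f 0 = E := by
    funext τ; simp [eichlerChain, hE]
  have hE_mdiff : MDiff E := by
    rw [← hE_eq]; exact (hchain 0 (Nat.zero_le w)).mdifferentiable
  -- invariance
  have hinv : ∀ γ : SL(2, ℤ), γ ∈ Gamma0 N → E ∣[-(w : ℤ)] γ = E := by
    intro γ hγ
    obtain ⟨ρ, hρ, hGγ⟩ := hper γ hγ
    exact eichlerE_slash_invariant w G γ ρ hρ hGγ
  -- boundedness at all cusps
  have hbdd : ∀ s : SL(2, ℤ), IsBoundedAtImInfty (E ∣[-(w : ℤ)] s) := by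
    intro s
    set φ : ℍ → ℂ := (f : ℍ → ℂ) ∣[(w : ℤ) + 2] s with hφ
    obtain ⟨M, _, hM⟩ := SepAux.translate_props f
    have hφ_hol : MDiff φ := (hM s).1
    have hφ_zero : IsZeroAtImInfty φ := (hM s).2.2
    have hφ_per : Function.Periodic (φ ∘ ofComplex) ((N : ℝ) : ℂ) :=
      periodic_comp_ofComplex_of_T_zpow
        (fun z => slash_periodic_of_invariant (f : ℍ → ℂ) (cuspForm_slash_eq f) s z)
    have hN : (0 : ℝ) < (N : ℝ) := by exact_mod_cast Nat.pos_of_ne_zero (NeZero.ne N)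
    obtain ⟨T, hT0, hT⟩ := exists_tower hN hφ_per hφ_hol hφ_zero
    set J : ℕ → ℍ → ℂ := fun t τ => (w.factorial : ℂ) * T (w + 1 - t) τ with hJ
    have hJchain : ∀ t ≤ w, HasDerivOnH (J t) (J (t + 1)) := by
      intro t ht
      have h1 : w + 1 - t = (w + 1 - (t + 1)) + 1 := by omega
      have h2 := ((hT (w + 1 - (t + 1))).2.2.2).const_mul (w.factorial : ℂ)
      rw [← h1] at h2
      exact h2
    have hJD : ∀ τ : ℍ,
        J (w + 1) τ = eichlerChain w G f (w + 1) (s • τ) / denom s τ ^ (w + 2) := by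
      intro τ
      simp only [hJ, Nat.sub_self, hT0, hφ, eichlerChain, if_neg (Nat.not_succ_le_self w)]
      have hz : denom s τ ^ ((w : ℤ) + 2) = denom s τ ^ (w + 2) := by
        rw [← zpow_natCast]; norm_cast
      rw [SL_slash_apply, zpow_neg, hz]
      ring
    obtain ⟨P, hP⟩ := exists_poly_slash_top w (eichlerChain w G f) J hchain hJchain s hJD
    refine isBoundedAtImInfty_slash_of_eq_add_poly E hinv s (J 0) ?_ ?_ P ?_
    · have h1 : IsBoundedAtImInfty (T (w + 1)) := (hT (w + 1)).2.2.1.isBoundedAtImInfty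
      exact h1.smul (w.factorial : ℂ)
    · intro z
      have := T_zpow_of_periodic_comp_ofComplex (hT (w + 1)).1 z
      simp only [hJ, Nat.sub_zero]
      rw [this]
    · intro z
      rw [SL_slash_apply, neg_neg, zpow_natCast, ← hP z, hE_eq]
  -- conclusion `E = 0`
  have hE0 : E = 0 := by
    rcases Nat.eq_zero_or_pos w with rfl | hw
    · simp only [Nat.cast_zero, neg_zero] at hinv hbdd
      obtain ⟨c, hc⟩ := SepAux.eq_const_of_slash_invariant_of_zero (N := N) E hE_mdiff hinv hbdd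
      have hEG : ∀ τ : ℍ, E τ = G 0 τ := fun τ => by simp [hE, eichlerE_zero]
      have hconst : ∀ y : ℝ, 0 < y → G 0 (y * Complex.I) = c := by
        intro y hy
        have := hEG ⟨y * Complex.I, by simpa using hy⟩
        rw [hc] at this
        simpa using this.symm
      have h2 : Tendsto (fun y : ℝ => G 0 (y * Complex.I)) atTop (𝓝 c) := by
        apply tendsto_const_nhds.congr'
        filter_upwards [eventually_gt_atTop 0] with y hy
        exact (hconst y hy).symm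
      have hc0 : c = 0 := tendsto_nhds_unique h2 hG0
      rw [hc, hc0]; rfl
    · exact SepAux.eq_zero_of_slash_invariant_of_neg (N := N) (by simpa using hw) E hE_mdiff
        hinv hbdd
  -- conclusion `f = 0`
  have hf0 := eq_zero_of_eichlerE_eq_zero w G (fun z => f (ofComplex z)) {z : ℂ | 0 < z.im}
    isOpen_upperHalfPlaneSet (fun j hj z hz => hG j hj z hz) (fun z hz => by
      have := congrFun hE0 ⟨z, hz⟩
      simpa [hE] using this)
  ext τ
  have := hf0 τ τ.im_pos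
  simpa using this

end Fermat.Agent.S22.Separation
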