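import Fermat.Agent.S22.InputC
import Fermat.Agent.S22.Separation

/-!
# S22 INPUT (F): the period lattice separates points

OWNER: separation team (helper92).  The proof is in `Fermat.Agent.S22.Separation`
(`eq_zero_of_periods_eq_zero`, interface-free); this file is only the glue to the spine.
-/

set_option autoImplicit false

open UpperHalfPlane Complex Filter Topology CuspForm
open scoped MatrixGroups

namespace Fermat.Agent.S22

variable {N w : ℕ}

/-- INPUT (F): the period lattice separates the points of `V`. -/
theorem periodLattice_separating [NeZero N] (f : CF N w)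
    (h : ∀ φ ∈ periodLattice N w, φ f = 0) : f = 0 := by
  refine Separation.eq_zero_of_periods_eq_zero w f (fun j => mom f j) ?_ ?_ ?_
  · intro j _ z hz
    exact (isCuspPrim_mom f j).hasDerivAt z hz
  · have h0 := (isCuspPrim_mom f 0).tendsto 0
    simpa using h0
  · intro γ hγ
    refine ⟨fun j i => ((symPoly w γ.1 j).coeff i : ℂ), ?_, ?_⟩
    · intro j hj x
      have h1 := symMat_eval (R := ℂ) w γ.1 ⟨j, Finset.mem_range.mp hj⟩ x
      rw [← Fin.sum_univ_eq_sum_range (fun i => ((symPoly w γ.1 j).coeff i : ℂ) * x ^ i) (w + 1)]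
      simpa [symMat_apply] using h1
    · intro j hj τ
      have h1 := per_eq γ hγ ⟨j, Finset.mem_range.mp hj⟩ f τ
      rw [h _ (per_mem_periodLattice hγ ⟨j, Finset.mem_range.mp hj⟩), sub_eq_zero] at h1
      rw [h1, ← Fin.sum_univ_eq_sum_range (fun i => ((symPoly w γ.1 j).coeff i : ℂ) * mom f i τ)
        (w + 1)]
      rfl

end Fermat.Agent.S22
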