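import Mathlib
import Fermat.Prelude.Thm_ModularForm_sturm_bound_Gamma0
import Fermat.Prelude.Thm_CongruenceSubgroup_one_mem_strictPeriods_Gamma0

set_option autoImplicit false
open UpperHalfPlane ModularForm Matrix.SpecialLinearGroup
open scoped MatrixGroups ModularForm Manifold

namespace Fermat.Agent.S22

/-- A holomorphic function on `ℍ` which is invariant of weight `k ≤ 0` under `Γ₀(N)`, bounded at
all cusps (i.e. all `SL(2,ℤ)`-translates are bounded at `i∞`) and vanishing at `i∞`, is zero. -/
theorem eq_zero_of_nonpos_weight {N : ℕ} [NeZero N] {k : ℤ} (hk : k ≤ 0) (G : ℍ → ℂ)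
    (hinv : ∀ γ : SL(2, ℤ), γ ∈ CongruenceSubgroup.Gamma0 N → G ∣[k] γ = G)
    (hholo : MDiff G)
    (hbdd : ∀ σ : SL(2, ℤ), IsBoundedAtImInfty (G ∣[k] σ))
    (hzero : IsZeroAtImInfty G) : G = 0 := by
  -- build the modular form
  let F : ModularForm (CongruenceSubgroup.Gamma0 N) k :=
    { toFun := G
      slash_action_eq' := by
        rintro γ ⟨γ', hγ', rfl⟩
        exact hinv γ' hγ'
      holo' := hholo
      bdd_at_cusps' := by
        intro c hc
        rw [Subgroup.IsArithmetic.isCusp_iff_isCusp_SL2Z] at hc
        rw [OnePoint.isBoundedAt_iff_forall_SL2Z hc]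
        intro σ _
        exact hbdd σ }
  have hF : F = 0 := by
    apply ModularForm.sturm_bound_Gamma0 N F
    intro n hn
    have h0 : (k * ((CongruenceSubgroup.Gamma0 N).index : ℤ)).toNat / 12 = 0 := by
      have : k * ((CongruenceSubgroup.Gamma0 N).index : ℤ) ≤ 0 :=
        mul_nonpos_of_nonpos_of_nonneg hk (by positivity)
      rw [Int.toNat_of_nonpos this]
    rw [h0] at hn
    have hn0 : n = 0 := Nat.le_zero.mp hn
    subst hn0
    have hper := SlashInvariantFormClass.periodic_comp_ofComplex F
      (CongruenceSubgroup.one_mem_strictPeriods_Gamma0 N)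
    have han := ModularFormClass.analyticAt_cuspFunction_zero F one_pos
      (CongruenceSubgroup.one_mem_strictPeriods_Gamma0 N)
    rw [UpperHalfPlane.qExpansion_coeff_zero one_pos han hper]
    exact hzero.valueAtInfty_eq_zero
  funext z
  have := congrArg (fun g : ModularForm (CongruenceSubgroup.Gamma0 N) k => g z) hF
  exact this

end Fermat.Agent.S22
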