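import Mathlib

/-!
# S22 helper package: the integer matrices of `Sym^m` of a 2×2 integer matrix

For `M = !![a, b; c, d]` an integer matrix and `m : ℕ`, `symMat m M` is the
`(m+1) × (m+1)` integer matrix with
`symMat m M j i = coeff_i ((a X + b)^j (c X + d)^(m-j))`, so that for every commutative ring `R`
and `z x y : R`

* `∑ i, symMat m M j i * z^i = (a z + b)^j (c z + d)^(m-j)`            (`symMat_eval`)
* `∑ i, symMat m M j i * x^i y^(m-i) = (a x + b y)^j (c x + d y)^(m-j)` (`symMat_eval_hom`)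

and `symMat m 1 = 1`, `symMat m (M * M') = symMat m M * symMat m M'`.
-/

set_option autoImplicit false

open Polynomial Finset

namespace Fermat.Agent.S22

/-- The integer polynomial `(a X + b)^j (c X + d)^(m-j)` attached to `M = !![a, b; c, d]`. -/
noncomputable def symPoly (m : ℕ) (M : Matrix (Fin 2) (Fin 2) ℤ) (j : ℕ) : ℤ[X] :=
  (C (M 0 0) * X + C (M 0 1)) ^ j * (C (M 1 0) * X + C (M 1 1)) ^ (m - j)

/-- The matrix of `Sym^m M` on monomials: row `j` is the coefficient vector of
`(a X + b)^j (c X + d)^(m-j)`. -/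
noncomputable def symMat (m : ℕ) (M : Matrix (Fin 2) (Fin 2) ℤ) :
    Matrix (Fin (m + 1)) (Fin (m + 1)) ℤ :=
  fun j i => (symPoly m M j).coeff i

theorem symMat_apply (m : ℕ) (M : Matrix (Fin 2) (Fin 2) ℤ) (j i : Fin (m + 1)) :
    symMat m M j i = (symPoly m M j).coeff i := rfl

theorem natDegree_linear_le (a b : ℤ) : (C a * X + C b : ℤ[X]).natDegree ≤ 1 := by
  refine (natDegree_add_le _ _).trans (max_le ?_ ?_)
  · exact (natDegree_C_mul_le _ _).trans natDegree_X_le
  · simp

theorem natDegree_symPoly_le (m : ℕ) (M : Matrix (Fin 2) (Fin 2) ℤ) {j : ℕ} (hj : j ≤ m) :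
    (symPoly m M j).natDegree ≤ m := by
  unfold symPoly
  refine natDegree_mul_le.trans ?_
  have h1 : ((C (M 0 0) * X + C (M 0 1) : ℤ[X]) ^ j).natDegree ≤ j :=
    natDegree_pow_le.trans (by simpa using Nat.mul_le_mul_left j (natDegree_linear_le _ _))
  have h2 : ((C (M 1 0) * X + C (M 1 1) : ℤ[X]) ^ (m - j)).natDegree ≤ m - j :=
    natDegree_pow_le.trans (by simpa using Nat.mul_le_mul_left (m - j) (natDegree_linear_le _ _))
  omega

/-- One-variable evaluation formula. -/
theorem symMat_eval {R : Type*} [CommRing R] (m : ℕ) (M : Matrix (Fin 2) (Fin 2) ℤ)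
    (j : Fin (m + 1)) (z : R) :
    ∑ i : Fin (m + 1), (symMat m M j i : R) * z ^ (i : ℕ) =
      ((M 0 0 : R) * z + (M 0 1 : R)) ^ (j : ℕ) * ((M 1 0 : R) * z + (M 1 1 : R)) ^ (m - j) := by
  have hdeg : (symPoly m M j).natDegree < m + 1 :=
    Nat.lt_succ_of_le (natDegree_symPoly_le m M (Nat.lt_succ_iff.mp j.2))
  have h := eval₂_eq_sum_range' (Int.castRingHom R) hdeg z
  rw [Finset.sum_range] at h
  simp only [symMat_apply]
  rw [show (∑ i : Fin (m + 1), ((symPoly m M j).coeff (i : ℕ) : R) * z ^ (i : ℕ)) =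
      eval₂ (Int.castRingHom R) z (symPoly m M j) from h.symm]
  simp only [symPoly, eval₂_mul, eval₂_pow, eval₂_add, eval₂_C, eval₂_X]
  simp only [eq_intCast]

theorem homogenize_linear (a b : ℤ) :
    (C a * X + C b : ℤ[X]).homogenize 1 =
      MvPolynomial.C a * MvPolynomial.X 0 + MvPolynomial.C b * MvPolynomial.X 1 := by
  rw [homogenize_add, homogenize_C_mul, homogenize_X one_ne_zero, homogenize_C]
  simp

theorem homogenize_linear_pow (a b : ℤ) (n : ℕ) :
    ((C a * X + C b : ℤ[X]) ^ n).homogenize n =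
      (MvPolynomial.C a * MvPolynomial.X 0 + MvPolynomial.C b * MvPolynomial.X 1) ^ n := by
  induction n with
  | zero => simp
  | succ n ih =>
    rw [pow_succ, homogenize_mul _ _ ?_ (natDegree_linear_le a b), ih, homogenize_linear, pow_succ]
    exact natDegree_pow_le.trans (by simpa using Nat.mul_le_mul_left n (natDegree_linear_le a b))

theorem homogenize_symPoly (m : ℕ) (M : Matrix (Fin 2) (Fin 2) ℤ) {j : ℕ} (hj : j ≤ m) :
    (symPoly m M j).homogenize m =
      (MvPolynomial.C (M 0 0) * MvPolynomial.X 0 + MvPolynomial.C (M 0 1) * MvPolynomial.X 1) ^ j *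
      (MvPolynomial.C (M 1 0) * MvPolynomial.X 0 + MvPolynomial.C (M 1 1) * MvPolynomial.X 1) ^
        (m - j) := by
  obtain ⟨l, rfl⟩ : ∃ l, m = j + l := ⟨m - j, by omega⟩
  unfold symPoly
  rw [Nat.add_sub_cancel_left, homogenize_mul, homogenize_linear_pow, homogenize_linear_pow]
  · exact natDegree_pow_le.trans (by simpa using Nat.mul_le_mul_left j (natDegree_linear_le _ _))
  · exact natDegree_pow_le.trans (by simpa using Nat.mul_le_mul_left l (natDegree_linear_le _ _))

/-- Homogeneous evaluation formula. -/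
theorem symMat_eval_hom {R : Type*} [CommRing R] (m : ℕ) (M : Matrix (Fin 2) (Fin 2) ℤ)
    (j : Fin (m + 1)) (x y : R) :
    ∑ i : Fin (m + 1), (symMat m M j i : R) * x ^ (i : ℕ) * y ^ (m - i) =
      ((M 0 0 : R) * x + (M 0 1 : R) * y) ^ (j : ℕ) *
        ((M 1 0 : R) * x + (M 1 1 : R) * y) ^ (m - j) := by
  have hj : (j : ℕ) ≤ m := Nat.lt_succ_iff.mp j.2
  have h := congrArg (MvPolynomial.eval₂ (Int.castRingHom R) ![x, y]) (homogenize_symPoly m M hj)
  simp only [MvPolynomial.eval₂_mul, MvPolynomial.eval₂_pow, MvPolynomial.eval₂_add,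
    MvPolynomial.eval₂_C, MvPolynomial.eval₂_X, Matrix.cons_val_zero, Matrix.cons_val_one] at h
  simp only [eq_intCast] at h
  rw [← h, homogenize, MvPolynomial.eval₂_sum, Finset.Nat.sum_antidiagonal_eq_sum_range_succ_mk,
    Finset.sum_range]
  refine Finset.sum_congr rfl fun i _ => ?_
  rw [MvPolynomial.eval₂_monomial, symMat_apply, Finsupp.update_eq_add_single (by simp),
    Finsupp.prod_add_index' (by simp) (by intro a b c; exact pow_add _ _ _),
    Finsupp.prod_single_index (by simp), Finsupp.prod_single_index (by simp)]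
  simp [mul_assoc]

theorem symPoly_one (m : ℕ) (j : ℕ) : symPoly m 1 j = X ^ j := by
  simp [symPoly]

theorem symMat_one (m : ℕ) : symMat m 1 = 1 := by
  ext j i
  rw [symMat_apply, symPoly_one, coeff_X_pow, Matrix.one_apply]
  simp only [Fin.ext_iff]
  by_cases h : (i : ℕ) = j
  · simp [h]
  · simp [h, Ne.symm h]

theorem symPoly_mul (m : ℕ) (M M' : Matrix (Fin 2) (Fin 2) ℤ) (j : Fin (m + 1)) :
    symPoly m (M * M') j = ∑ l : Fin (m + 1), C (symMat m M j l) * symPoly m M' l := by
  have h := symMat_eval_hom (R := ℤ[X]) m M j (C (M' 0 0) * X + C (M' 0 1))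
    (C (M' 1 0) * X + C (M' 1 1))
  have hl : ∀ l : Fin (m + 1), ((symMat m M j l : ℤ) : ℤ[X]) *
      (C (M' 0 0) * X + C (M' 0 1)) ^ (l : ℕ) * (C (M' 1 0) * X + C (M' 1 1)) ^ (m - l) =
      C (symMat m M j l) * symPoly m M' l := by
    intro l
    rw [symPoly, mul_assoc]
    simp
  rw [Finset.sum_congr rfl fun l _ => hl l] at h
  rw [h]
  unfold symPoly
  simp only [Matrix.mul_apply, Fin.sum_univ_two, C_add, C_mul]
  congr 1
  · congr 1
    simp only [← C_eq_intCast, Int.cast_id]
    ring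
  · congr 1
    simp only [← C_eq_intCast, Int.cast_id]
    ring

theorem symMat_mul (m : ℕ) (M M' : Matrix (Fin 2) (Fin 2) ℤ) :
    symMat m (M * M') = symMat m M * symMat m M' := by
  ext j i
  rw [symMat_apply, symPoly_mul, Matrix.mul_apply, finsetSum_coeff]
  refine Finset.sum_congr rfl fun l _ => ?_
  rw [coeff_C_mul, symMat_apply, symMat_apply]

end Fermat.Agent.S22
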