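import Fermat.Agent.S22.InputC
import Fermat.Agent.S22.InputAProof
import Fermat.Agent.S22.SepCore
import Fermat.Agent.S22.SepAux2
import Fermat.Agent.S22.CuspBound
import Fermat.Agent.S22.NegWeight

/-!
# S22: separation of points by the period lattice (second route, via moments of `f ∣ s`)
-/

set_option autoImplicit false

open Complex Filter Topology CuspForm Function Finset
open UpperHalfPlane hiding I
open scoped MatrixGroups Manifold ModularForm

namespace Fermat.Agent.S22.SepAlt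

open Fermat.Agent.S22

/-- (L2) The Eichler combination of the moment primitives of a cuspidal function is
`m! * iterPrim (m+1)`. -/
theorem eichlerE_momPrim {h : ℝ} (φ : ℍ → ℂ) (m : ℕ) (τ : ℍ) :
    SepCore.eichlerE m (fun j z => momPrim h φ j (ofComplex z)) (τ : ℂ) =
      (m.factorial : ℂ) * iterPrim h φ (m + 1) τ := by
  have := SepCore.eichlerE_eq_factorial_mul m (τ : ℂ)
    (fun s z => iterPrim h φ s (ofComplex z)) (fun j s z => momPrimAux h φ j s (ofComplex z))
    (fun s => by simp [momPrimAux])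
    (fun j s => by simp [momPrimAux, ofComplex_apply])
  simpa [momPrim, ofComplex_apply] using this


/-- (L1) Two-function variant of `Periods.period_const`: if `G j` is a primitive of `f z * z^j`,
`H i` a primitive of `g z * z^i` and `f (γ z) = (c z + d)^(m+2) * g z`, then
`G j (γ z) - ∑ i, ρ j i * H i z` is constant on the upper half plane. -/
theorem period_const₂ {m : ℕ} (f g : ℂ → ℂ) (G H : Fin (m + 1) → ℂ → ℂ)
    (hG : ∀ (j : Fin (m + 1)) (z : ℂ), 0 < z.im → HasDerivAt (G j) (f z * z ^ (j : ℕ)) z)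
    (hH : ∀ (j : Fin (m + 1)) (z : ℂ), 0 < z.im → HasDerivAt (H j) (g z * z ^ (j : ℕ)) z)
    (a b c d : ℤ) (hdet : a * d - b * c = 1)
    (hf : ∀ z : ℂ, 0 < z.im → f (Periods.mob a b c d z) = ((c : ℂ) * z + d) ^ (m + 2) * g z)
    (ρ : Fin (m + 1) → Fin (m + 1) → ℤ)
    (hρ : ∀ (j : Fin (m + 1)) (z : ℂ), ∑ i, (ρ j i : ℂ) * z ^ (i : ℕ) =
        ((a : ℂ) * z + b) ^ (j : ℕ) * ((c : ℂ) * z + d) ^ (m - (j : ℕ))) :
    ∃ C : Fin (m + 1) → ℂ, ∀ (j : Fin (m + 1)) (z : ℂ), 0 < z.im →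
      G j (Periods.mob a b c d z) - ∑ i, (ρ j i : ℂ) * H i z = C j := by
  have hdet0 : a * d - b * c ≠ 0 := by rw [hdet]; exact one_ne_zero
  have hdetpos : 0 < a * d - b * c := by rw [hdet]; exact one_pos
  have key : ∀ j : Fin (m + 1), ∃ C : ℂ, ∀ z : ℂ, 0 < z.im →
      G j (Periods.mob a b c d z) - ∑ i, (ρ j i : ℂ) * H i z = C := by
    intro j
    apply Periods.const_of_hasDerivAt_zero
    intro z hz
    have hne := Periods.denom_ne_zero hdet0 hz
    have hmz := Periods.mob_im_pos hdetpos hz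
    have h1 : HasDerivAt (fun z => G j (Periods.mob a b c d z))
        (f (Periods.mob a b c d z) * (Periods.mob a b c d z) ^ (j : ℕ) *
          (((a * d - b * c : ℤ) : ℂ) / ((c : ℂ) * z + d) ^ 2)) z :=
      (hG j _ hmz).comp z (Periods.hasDerivAt_mob hdet0 hz)
    have h2 : HasDerivAt (fun z => ∑ i, (ρ j i : ℂ) * H i z)
        (∑ i, (ρ j i : ℂ) * (g z * z ^ (i : ℕ))) z :=
      HasDerivAt.fun_sum fun i _ => (hH i z hz).const_mul _
    have h := h1.sub h2
    refine h.congr_deriv ?_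
    rw [hf z hz, hdet]
    have hsum : ∑ i, (ρ j i : ℂ) * (g z * z ^ (i : ℕ)) =
        g z * (((a : ℂ) * z + b) ^ (j : ℕ) * ((c : ℂ) * z + d) ^ (m - (j : ℕ))) := by
      rw [← hρ j z, Finset.mul_sum]
      exact Finset.sum_congr rfl fun i _ => by ring
    rw [hsum]
    have hj : (j : ℕ) ≤ m := Nat.lt_succ_iff.mp j.2
    have hpow : ((c : ℂ) * z + d) ^ (m + 2) =
        ((c : ℂ) * z + d) ^ (m - (j : ℕ)) * ((c : ℂ) * z + d) ^ (j : ℕ) * ((c : ℂ) * z + d) ^ 2 := by
      rw [← pow_add, ← pow_add]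
      congr 1
      omega
    rw [hpow]
    unfold Periods.mob
    rw [div_pow]
    field_simp
    ring
  choose C hC using key
  exact ⟨C, hC⟩

/-- `ℕ`-indexed version of the integer matrix `symMat w M` (zero outside the range). -/
noncomputable def rhoN (w : ℕ) (M : Matrix (Fin 2) (Fin 2) ℤ) (j i : ℕ) : ℂ :=
  if h : j < w + 1 ∧ i < w + 1 then (symMat w M ⟨j, h.1⟩ ⟨i, h.2⟩ : ℂ) else 0

/-- `ℕ`-indexed version of a vector indexed by `Fin (w+1)` (zero outside the range). -/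
noncomputable def kapN {w : ℕ} (κ : Fin (w + 1) → ℂ) (j : ℕ) : ℂ :=
  if h : j < w + 1 then κ ⟨j, h⟩ else 0

theorem sum_rhoN (w : ℕ) (M : Matrix (Fin 2) (Fin 2) ℤ) (j : Fin (w + 1)) (F : ℕ → ℂ) :
    ∑ i ∈ range (w + 1), rhoN w M j i * F i =
      ∑ i : Fin (w + 1), (symMat w M j i : ℂ) * F i := by
  rw [Finset.sum_range]
  refine Finset.sum_congr rfl fun i _ => ?_
  simp [rhoN, j.2, i.2]

/-- General transformation law of the Eichler combination under `s ∈ SL(2,ℤ)`. -/
theorem eichlerE_smul (w : ℕ) (s : SL(2, ℤ)) (G H : ℕ → ℂ → ℂ) (κ : Fin (w + 1) → ℂ) (z : ℍ)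
    (hGH : ∀ j : Fin (w + 1), G j ((s • z : ℍ) : ℂ) -
      ∑ i : Fin (w + 1), (symMat w s.1 j i : ℂ) * H i (z : ℂ) = κ j) :
    SepCore.eichlerE w G ((s • z : ℍ) : ℂ) * denom s z ^ w =
      SepCore.eichlerE w H (z : ℂ) +
        (SepCore.periodPoly w (kapN κ) (s 0 0) (s 0 1) (s 1 0) (s 1 1)).eval (z : ℂ) := by
  have hden : denom s z = (s 1 0 : ℂ) * z + s 1 1 := ModularGroup.denom_apply s z
  have hne : (s 1 0 : ℂ) * z + s 1 1 ≠ 0 := by
    rw [← hden]; exact denom_ne_zero s z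
  have hw : ((s • z : ℍ) : ℂ) * ((s 1 0 : ℂ) * z + s 1 1) = (s 0 0 : ℂ) * z + s 0 1 := by
    rw [UpperHalfPlane.coe_specialLinearGroup_apply]
    have : (((algebraMap ℤ ℝ) (s 1 0) : ℝ) : ℂ) * (z : ℂ) + (((algebraMap ℤ ℝ) (s 1 1) : ℝ) : ℂ)
        = (s 1 0 : ℂ) * z + s 1 1 := by simp
    rw [this, div_mul_cancel₀ _ hne]
    simp
  have hdet : (s 0 0 : ℂ) * (s 1 1 : ℂ) - (s 0 1 : ℂ) * (s 1 0 : ℂ) = 1 := by
    have := Periods.sl_det s
    exact_mod_cast this
  have key := SepCore.eichlerE_transform w (s 0 0) (s 0 1) (s 1 0) (s 1 1) (z : ℂ)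
    ((s • z : ℍ) : ℂ) hw (rhoN w s.1)
    (fun j hj x => by
      have hj' : j < w + 1 := Finset.mem_range.mp hj
      have := sum_rhoN w s.1 ⟨j, hj'⟩ (fun i => x ^ i)
      simp only at this
      rw [this]
      have h2 := symMat_eval (R := ℂ) w s.1 ⟨j, hj'⟩ x
      simpa using h2)
    G H (kapN κ)
    (fun j hj => by
      have hj' : j < w + 1 := Finset.mem_range.mp hj
      have := sum_rhoN w s.1 ⟨j, hj'⟩ (fun i => H i (z : ℂ))
      simp only at this
      rw [this]
      have h2 := hGH ⟨j, hj'⟩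
      simp only [kapN, hj', dif_pos]
      rw [← h2]
      ring)
  rw [hdet, one_pow, one_mul] at key
  rw [← key, hden]
  ring

variable {N w : ℕ}

/-- (a) On the upper half plane the moment primitive of the spine is `momPrim 1 f j`. -/
theorem mom_eq_momPrim [NeZero N] (f : CF N w) (j : ℕ) {z : ℂ} (hz : 0 < z.im) :
    mom f j z = momPrim 1 (f : ℍ → ℂ) j (ofComplex z) :=
  cuspPrim_eq (isCuspPrim_momPrim f j) z hz

/-- The Eichler integral `w! * I^{w+1} f` of a cusp form. -/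
noncomputable def eich (f : CF N w) : ℍ → ℂ :=
  fun τ => (w.factorial : ℂ) * iterPrim 1 (f : ℍ → ℂ) (w + 1) τ

/-- (b) The Eichler integral is the Eichler combination of the moment primitives. -/
theorem eich_eq [NeZero N] (f : CF N w) (τ : ℍ) :
    eich f τ = SepCore.eichlerE w (fun j => mom f j) (τ : ℂ) := by
  rw [eich, ← eichlerE_momPrim (h := 1) (f : ℍ → ℂ) w τ]
  unfold SepCore.eichlerE
  refine Finset.sum_congr rfl fun j _ => ?_
  beta_reduce
  rw [mom_eq_momPrim f j τ.im_pos]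

theorem mdiff_eich [NeZero N] (f : CF N w) : MDiff (eich f) := by
  have h := (isCuspidal_iterPrim one_pos (isCuspidal_cuspForm f) (w + 1)).hol
  have : eich f = (w.factorial : ℂ) • iterPrim 1 (f : ℍ → ℂ) (w + 1) := by
    funext τ; simp [eich]
  rw [this]
  exact (IsCuspidal.smul _ (isCuspidal_iterPrim one_pos (isCuspidal_cuspForm f) (w + 1))).hol

theorem isZeroAtImInfty_eich [NeZero N] (f : CF N w) : IsZeroAtImInfty (eich f) := by
  have : eich f = (w.factorial : ℂ) • iterPrim 1 (f : ℍ → ℂ) (w + 1) := by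
    funext τ; simp [eich]
  rw [this]
  exact (IsCuspidal.smul _ (isCuspidal_iterPrim one_pos (isCuspidal_cuspForm f) (w + 1))).zero

/-- slash of weight `-w` by `s ∈ SL(2,ℤ)`. -/
theorem slash_neg_apply (F : ℍ → ℂ) (s : SL(2, ℤ)) (z : ℍ) :
    (F ∣[-(w : ℤ)] s) z = F (s • z) * denom s z ^ w := by
  rw [ModularForm.SL_slash_apply, neg_neg, zpow_natCast]

/-- (c) If all periods of `f` vanish, then the Eichler integral is `Γ₀(N)`-invariant of
weight `-w`. -/
theorem eich_invariant [NeZero N] (f : CF N w)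
    (h : ∀ φ ∈ periodLattice N w, φ f = 0) (γ : SL(2, ℤ))
    (hγ : γ ∈ CongruenceSubgroup.Gamma0 N) : eich f ∣[-(w : ℤ)] γ = eich f := by
  funext z
  rw [slash_neg_apply, eich_eq, eich_eq]
  have key := eichlerE_smul w γ (fun j => mom f j) (fun j => mom f j) (fun _ => 0) z
    (fun j => by
      rw [per_eq γ hγ j f z]
      exact h _ (per_mem_periodLattice hγ j))
  rw [key, SepCore.eval_periodPoly]
  simp [kapN]

/-- A cusp form for `Γ₀(N)` is slash-invariant under `Γ₀(N)` (as a plain function). -/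
theorem cuspForm_slash_eq (f : CF N w) (γ : SL(2, ℤ)) (hγ : γ ∈ CongruenceSubgroup.Gamma0 N) :
    (f : ℍ → ℂ) ∣[(w : ℤ) + 2] γ = f :=
  f.slash_action_eq' (Matrix.SpecialLinearGroup.mapGL ℝ γ) ⟨γ, hγ, rfl⟩

/-- Every `SL(2,ℤ)`-translate of a cusp form for `Γ₀(N)` is cuspidal of period `N`. -/
theorem isCuspidal_translate [NeZero N] (f : CF N w) (s : SL(2, ℤ)) :
    IsCuspidal (N : ℝ) ((f : ℍ → ℂ) ∣[(w : ℤ) + 2] s) := by
  obtain ⟨M, hM0, hM⟩ := SepAux.translate_props f
  obtain ⟨h1, _, h3⟩ := hM s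
  refine ⟨?_, h1, h3⟩
  rw [← SepAux.T_zpow_natCast_invariant_iff_periodic_ofReal]
  intro z
  exact slash_periodic_of_invariant (f : ℍ → ℂ) (cuspForm_slash_eq f) s z

/-- (d) Boundedness at all cusps of the Eichler integral, assuming `Γ₀(N)`-invariance. -/
theorem eich_slash_bounded [NeZero N] (f : CF N w)
    (hinv : ∀ γ : SL(2, ℤ), γ ∈ CongruenceSubgroup.Gamma0 N → eich f ∣[-(w : ℤ)] γ = eich f)
    (s : SL(2, ℤ)) : IsBoundedAtImInfty (eich f ∣[-(w : ℤ)] s) := by
  have hN : (0 : ℝ) < N := Nat.cast_pos.mpr (NeZero.pos N)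
  set φ : ℍ → ℂ := (f : ℍ → ℂ) ∣[(w : ℤ) + 2] s with hφ
  have hcusp : IsCuspidal (N : ℝ) φ := isCuspidal_translate f s
  have hfφ : ∀ z : ℂ, 0 < z.im →
      (fun z : ℂ => f (ofComplex z)) (Periods.mob (s 0 0) (s 0 1) (s 1 0) (s 1 1) z) =
        ((s 1 0 : ℂ) * z + s 1 1) ^ (w + 2) * (fun z : ℂ => φ (ofComplex z)) z := by
    intro z hz
    set τ : ℍ := ⟨z, hz⟩ with hτ
    have hzτ : z = (τ : ℂ) := rfl
    have h1 : ofComplex z = τ := ofComplex_apply_of_im_pos hz
    have h2 : ofComplex (Periods.mob (s 0 0) (s 0 1) (s 1 0) (s 1 1) z) = s • τ := by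
      rw [hzτ, ← PeriodsBridge.coe_smul_eq_mob, ofComplex_apply]
    show f (ofComplex _) = _ * φ (ofComplex z)
    rw [h1, h2, hφ, ModularForm.SL_slash_apply]
    have hden : denom s τ = (s 1 0 : ℂ) * z + s 1 1 := ModularGroup.denom_apply s τ
    have hne : (s 1 0 : ℂ) * z + s 1 1 ≠ 0 := by
      rw [← hden]; exact denom_ne_zero s τ
    have hz2 : ((s 1 0 : ℂ) * z + s 1 1) ^ (-((w : ℤ) + 2)) =
        (((s 1 0 : ℂ) * z + s 1 1) ^ (w + 2))⁻¹ := by
      rw [zpow_neg, ← zpow_natCast]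
      congr 2
    rw [hden, hz2]
    field_simp
  obtain ⟨C, hC⟩ := period_const₂ (m := w) (fun z : ℂ => f (ofComplex z))
    (fun z : ℂ => φ (ofComplex z))
    (fun j : Fin (w + 1) => mom f (j : ℕ)) (fun i : Fin (w + 1) => momPrim N φ (i : ℕ) ∘ ofComplex)
    (fun j z hz => (isCuspPrim_mom f j).hasDerivAt z hz)
    (fun j z hz => hasDerivAt_momPrim' hN hcusp j hz)
    (s 0 0) (s 0 1) (s 1 0) (s 1 1) (Periods.sl_det s) hfφ
    (fun j i => symMat w s.1 j i) (fun j z => by
      have := symMat_eval (R := ℂ) w s.1 j z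
      simpa using this)
  set D : ℍ → ℂ := fun τ => (w.factorial : ℂ) * iterPrim N φ (w + 1) τ with hD
  have hDeq : D = (w.factorial : ℂ) • iterPrim N φ (w + 1) := by
    funext τ; simp [hD]
  have hDcusp : IsCuspidal (N : ℝ) D := by
    rw [hDeq]
    exact IsCuspidal.smul _ (isCuspidal_iterPrim hN hcusp (w + 1))
  refine isBoundedAtImInfty_slash_of_eq_add_poly (eich f) hinv s D
    hDcusp.zero.isBoundedAtImInfty
    ((SepAux.T_zpow_natCast_invariant_iff_periodic_ofReal D N).mpr hDcusp.per)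
    (SepCore.periodPoly w (kapN C) (s 0 0) (s 0 1) (s 1 0) (s 1 1)) ?_
  intro z
  rw [slash_neg_apply, eich_eq]
  have key := eichlerE_smul w s (fun j => mom f j)
    (fun i z => momPrim N φ i (ofComplex z)) C z
    (fun j => by
      have := hC j (z : ℂ) z.im_pos
      rw [PeriodsBridge.coe_smul_eq_mob]
      exact this)
  rw [key, eichlerE_momPrim]

/-- (e) INPUT (F), second proof: the period lattice separates the points of `V`. -/
theorem periodLattice_separating_alt [NeZero N] (f : CF N w)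
    (h : ∀ φ ∈ periodLattice N w, φ f = 0) : f = 0 := by
  have hinv := eich_invariant f h
  have hE : eich f = 0 :=
    eq_zero_of_nonpos_weight (N := N) (k := -(w : ℤ)) (by omega) (eich f) hinv (mdiff_eich f)
      (eich_slash_bounded f hinv) (isZeroAtImInfty_eich f)
  have hI : iterPrim 1 (f : ℍ → ℂ) (w + 1) = 0 := by
    funext τ
    have := congrFun hE τ
    simp only [eich, Pi.zero_apply, mul_eq_zero] at this
    rcases this with h0 | h0
    · exact absurd h0 (by exact_mod_cast (Nat.factorial_ne_zero w))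
    · exact h0
  have hf0 : (f : ℍ → ℂ) = 0 :=
    eq_zero_of_iterPrim_eq_zero one_pos (isCuspidal_cuspForm f) (w + 1) hI
  exact DFunLike.coe_injective hf0

end Fermat.Agent.S22.SepAlt
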