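import Mathlib
import Fermat.Statements.S22
import Fermat.Agent.S22.PolyAction
import Fermat.Agent.S22.CuspPrim

/-!
# S22 spine, part 1: definitions (moments convention)

For `V = CF N w = S_{w+2}(Γ₀(N))`:
* `momFun f j z = f(z) z^j` (as a function on `ℂ`, via `ofComplex`);
* `mom f j = cuspPrim (momFun f j)`, the moment primitive `G_j(f)`;
* `perVal γ j f = G_j(f)(γ i) - ∑_i ρ(γ)_{ji} G_i(f)(i)` with `ρ(γ) = symMat w γ`.
-/

set_option autoImplicit false

open UpperHalfPlane Complex Filter Topology CuspForm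
open scoped MatrixGroups

namespace Fermat.Agent.S22

/-- The space of cusp forms of weight `w + 2` and level `Γ₀(N)`. -/
abbrev CF (N w : ℕ) := CuspForm (CongruenceSubgroup.Gamma0 N) ((w : ℤ) + 2)

variable {N w : ℕ}

/-- The integrand `f(z) z^j` as a function on `ℂ`. -/
noncomputable def momFun (f : CF N w) (j : ℕ) : ℂ → ℂ := fun z => f (ofComplex z) * z ^ j

/-- The `j`-th moment primitive `G_j(f)`: the cuspidal primitive of `f(z) z^j`. -/
noncomputable def mom (f : CF N w) (j : ℕ) : ℂ → ℂ := cuspPrim (momFun f j)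

theorem momFun_apply (f : CF N w) (j : ℕ) (z : ℂ) : momFun f j z = f (ofComplex z) * z ^ j := rfl

theorem momFun_add (f g : CF N w) (j : ℕ) : momFun (f + g) j = momFun f j + momFun g j := by
  funext z
  simp [momFun, add_mul]

theorem momFun_smul (c : ℂ) (f : CF N w) (j : ℕ) : momFun (c • f) j = c • momFun f j := by
  funext z
  simp [momFun, mul_assoc]

/-- The period `c_j(γ)(f)`, evaluated at the base point `i`. -/
noncomputable def perVal (γ : SL(2, ℤ)) (j : Fin (w + 1)) (f : CF N w) : ℂ :=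
  mom f j ((γ • (UpperHalfPlane.I : ℍ) : ℍ) : ℂ) -
    ∑ i : Fin (w + 1), (symMat w γ.1 j i : ℂ) * mom f i ((UpperHalfPlane.I : ℍ) : ℂ)

end Fermat.Agent.S22
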