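import Fermat.Statements.S22
import Fermat.Prelude.Thm_ModularForm_sturm_bound_Gamma0
import Fermat.Prelude.Thm_CongruenceSubgroup_one_mem_strictPeriods_Gamma0

set_option autoImplicit false
open CuspForm ModularFormClass UpperHalfPlane ModularForm

namespace Fermat.Agent.S22

/-- A cusp form viewed as a modular form. -/
noncomputable def cuspToModularForm {N : ℕ} {k : ℤ} (f : CuspForm (CongruenceSubgroup.Gamma0 N) k) :
    ModularForm (CongruenceSubgroup.Gamma0 N) k where
  toSlashInvariantForm := f.toSlashInvariantForm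
  holo' := f.holo'
  bdd_at_cusps' := fun hc g hg => (f.zero_at_cusps' hc g hg).isBoundedAtImInfty

theorem cuspForm_eq_zero_of_sturm_zero {N : ℕ} [NeZero N] {k : ℤ}
    (f : CuspForm (CongruenceSubgroup.Gamma0 N) k)
    (h : (k * (CongruenceSubgroup.Gamma0 N).index).toNat / 12 = 0) : f = 0 := by
  have h0 : cuspToModularForm f = 0 := by
    apply ModularForm.sturm_bound_Gamma0 N (cuspToModularForm f)
    intro n hn
    rw [h] at hn
    have hn0 : n = 0 := Nat.le_zero.mp hn
    subst hn0
    exact CuspFormClass.qExpansion_coeff_zero (f := f) one_pos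
      (CongruenceSubgroup.one_mem_strictPeriods_Gamma0 N)
  ext z
  have := congrArg (fun g : ModularForm (CongruenceSubgroup.Gamma0 N) k => g z) h0
  exact this

theorem cuspForm_eq_zero_of_nonpos {N : ℕ} [NeZero N] {k : ℤ} (hk : k ≤ 0)
    (f : CuspForm (CongruenceSubgroup.Gamma0 N) k) : f = 0 := by
  apply cuspForm_eq_zero_of_sturm_zero
  have : k * ((CongruenceSubgroup.Gamma0 N).index : ℤ) ≤ 0 :=
    mul_nonpos_of_nonpos_of_nonneg hk (by positivity)
  rw [Int.toNat_of_nonpos this]

theorem cuspForm_eq_zero_of_odd {N : ℕ} {k : ℤ} (hk : Odd k)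
    (f : CuspForm (CongruenceSubgroup.Gamma0 N) k) : f = 0 := by
  have h0 : cuspToModularForm f = 0 := by
    apply ModularForm.eq_zero_of_neg_one_mem _ hk
    refine ⟨-1, ?_, ?_⟩
    · simp [CongruenceSubgroup.Gamma0_mem]
    · ext i j
      fin_cases i <;> fin_cases j <;> simp [Matrix.SpecialLinearGroup.mapGL]
  ext z
  have := congrArg (fun g : ModularForm (CongruenceSubgroup.Gamma0 N) k => g z) h0
  exact this

theorem moduleFinite_heckeAlgebra_of_forall_eq_zero (N : ℕ) [NeZero N] (k : ℤ) (S : Set ℕ)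
    (h : ∀ f : CuspForm (CongruenceSubgroup.Gamma0 N) k, f = 0) :
    Module.Finite ℤ (CuspForm.heckeAlgebra N k S) := by
  have : Subsingleton (CuspForm (CongruenceSubgroup.Gamma0 N) k) :=
    ⟨fun a b => (h a).trans (h b).symm⟩
  have : Subsingleton (Module.End ℂ (CuspForm (CongruenceSubgroup.Gamma0 N) k)) :=
    ⟨fun a b => LinearMap.ext fun x => Subsingleton.elim _ _⟩
  have : Subsingleton (CuspForm.heckeAlgebra N k S) :=
    ⟨fun a b => Subtype.ext (Subsingleton.elim _ _)⟩
  infer_instance

/-- `S22` for weights `k ≤ 0` (the space of cusp forms is zero). -/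
theorem result_of_nonpos {N : ℕ} [NeZero N] {k : ℤ} (hk : k ≤ 0) (S : Set ℕ) :
    Module.Finite ℤ (CuspForm.heckeAlgebra N k S) :=
  moduleFinite_heckeAlgebra_of_forall_eq_zero N k S (cuspForm_eq_zero_of_nonpos hk)

/-- `S22` for odd weights (the space of cusp forms is zero since `-1 ∈ Γ₀(N)`). -/
theorem result_of_odd {N : ℕ} [NeZero N] {k : ℤ} (hk : Odd k) (S : Set ℕ) :
    Module.Finite ℤ (CuspForm.heckeAlgebra N k S) :=
  moduleFinite_heckeAlgebra_of_forall_eq_zero N k S (cuspForm_eq_zero_of_odd hk)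

end Fermat.Agent.S22
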