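import Fermat.Agent.S22.Assembly
import Fermat.Agent.S22.Trivial
import Fermat.Agent.S22.CocycleFG
import Fermat.Agent.S22.InputC
import Fermat.Agent.S22.InputE
import Fermat.Agent.S22.InputF

/-!
# S22 spine, part 3: finite generation of the period lattice and the final assembly
-/

set_option autoImplicit false

open UpperHalfPlane Complex Filter Topology CuspForm
open scoped MatrixGroups

namespace Fermat.Agent.S22

variable {N w : ℕ}

/-- The cocycle relation `c(γγ') = c(γ) + ρ(γ) c(γ')`. -/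
theorem per_mul [NeZero N] (γ γ' : SL(2, ℤ)) (hγ : γ ∈ CongruenceSubgroup.Gamma0 N)
    (hγ' : γ' ∈ CongruenceSubgroup.Gamma0 N) (j : Fin (w + 1)) :
    (per (γ * γ') j : CF N w →ₗ[ℂ] ℂ) =
      per γ j + ∑ l : Fin (w + 1), symMat w γ.1 j l • per γ' l := by
  ext f
  have h1 := per_eq (γ * γ') (mul_mem hγ hγ') j f UpperHalfPlane.I
  have h2 := per_eq γ hγ j f (γ' • UpperHalfPlane.I)
  have h3 : ∀ l : Fin (w + 1), _ := fun l => per_eq γ' hγ' l f UpperHalfPlane.I
  rw [LinearMap.add_apply, LinearMap.sum_apply, ← h1, ← h2]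
  simp only [LinearMap.smul_apply, ← h3, zsmul_eq_mul]
  rw [mul_smul]
  have hmul : (γ * γ').1 = γ.1 * γ'.1 := rfl
  rw [hmul, symMat_mul]
  simp only [Matrix.mul_apply, Int.cast_sum, Int.cast_mul, Finset.sum_mul, mul_sub,
    Finset.sum_sub_distrib, Finset.mul_sum]
  rw [Finset.sum_comm]
  ring_nf

theorem per_one [NeZero N] (j : Fin (w + 1)) : (per (1 : SL(2, ℤ)) j : CF N w →ₗ[ℂ] ℂ) = 0 := by
  ext f
  rw [per_apply]
  have h1 : ((1 : SL(2, ℤ)).1 : Matrix (Fin 2) (Fin 2) ℤ) = 1 := rfl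
  rw [h1, symMat_one, one_smul]
  simp [Matrix.one_apply, Finset.sum_ite_eq]

/-- (T1) The period lattice is finitely generated. -/
theorem periodLattice_fg [NeZero N] : (periodLattice N w).FG := by
  have : Group.FG (CongruenceSubgroup.Gamma0 N) := gamma0_fg N
  have h := cocycle_closure_fg_left (G := CongruenceSubgroup.Gamma0 N) (A := CF N w →ₗ[ℂ] ℂ)
    (ι := Fin (w + 1)) (fun g => symMat w g.1.1) (fun g j => per g.1 j)
    (fun i => per_one i)
    (fun g h i => per_mul (w := w) g.1 h.1 g.2 h.2 i)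
  rw [Submodule.fg_iff_addSubgroup_fg]
  convert h using 1
  rw [periodLattice, ← Submodule.span_int_eq_addSubgroupClosure]
  simp only [Submodule.toAddSubgroup_inj]
  congr 1
  ext φ
  constructor
  · rintro ⟨γ, hγ, j, rfl⟩
    exact ⟨⟨γ, hγ⟩, j, rfl⟩
  · rintro ⟨g, j, rfl⟩
    exact ⟨g.1, g.2, j, rfl⟩

/-- S22 for even weights `k = w + 2 ≥ 2`. -/
theorem moduleFinite_heckeAlgebra_add_two (N : ℕ) [NeZero N] (w : ℕ) (S : Set ℕ) :
    Module.Finite ℤ (CuspForm.heckeAlgebra N ((w : ℤ) + 2) S) :=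
  moduleFinite_adjoin_of_lattice (heckeGenerators N ((w : ℤ) + 2) S) (periodLattice N w)
    periodLattice_fg (periodLattice_stable S) periodLattice_separating

/-- S22. -/
theorem moduleFinite_heckeAlgebra_all (N : ℕ) [NeZero N] (k : ℤ) (S : Set ℕ) :
    Module.Finite ℤ (CuspForm.heckeAlgebra N k S) := by
  by_cases hk : k ≤ 0
  · exact result_of_nonpos hk S
  · by_cases hodd : Odd k
    · exact result_of_odd hodd S
    · obtain ⟨w, rfl⟩ : ∃ w : ℕ, k = (w : ℤ) + 2 := by
        refine ⟨(k - 2).toNat, ?_⟩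
        have h1 : k ≠ 1 := fun h => hodd (h ▸ odd_one)
        have h2 : 0 ≤ k - 2 := by omega
        rw [Int.toNat_of_nonneg h2]
        ring
      exact moduleFinite_heckeAlgebra_add_two N w S

end Fermat.Agent.S22
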