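import Fermat.Agent.S22.InputA

/-!
# S22 spine, part 2: the period functionals and the period lattice
-/

set_option autoImplicit false

open UpperHalfPlane Complex Filter Topology CuspForm
open scoped MatrixGroups

namespace Fermat.Agent.S22

variable {N w : ℕ}

theorem isCuspPrim_mom [NeZero N] (f : CF N w) (j : ℕ) : IsCuspPrim (momFun f j) (mom f j) :=
  isCuspPrim_cuspPrim (exists_isCuspPrim_momFun f j)

theorem mom_add [NeZero N] (f g : CF N w) (j : ℕ) {z : ℂ} (hz : 0 < z.im) :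
    mom (f + g) j z = mom f j z + mom g j z := by
  have h : IsCuspPrim (momFun (f + g) j) (mom f j + mom g j) := by
    rw [momFun_add]
    exact (isCuspPrim_mom f j).add (isCuspPrim_mom g j)
  exact cuspPrim_eq h z hz

theorem mom_smul [NeZero N] (c : ℂ) (f : CF N w) (j : ℕ) {z : ℂ} (hz : 0 < z.im) :
    mom (c • f) j z = c * mom f j z := by
  have h : IsCuspPrim (momFun (c • f) j) (c • mom f j) := by
    rw [momFun_smul]
    exact (isCuspPrim_mom f j).const_smul c
  exact cuspPrim_eq h z hz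

/-- The period functional `c_j(γ) : V →ₗ[ℂ] ℂ`. -/
noncomputable def per [NeZero N] (γ : SL(2, ℤ)) (j : Fin (w + 1)) : CF N w →ₗ[ℂ] ℂ where
  toFun := perVal γ j
  map_add' f g := by
    simp only [perVal]
    rw [mom_add f g j (γ • (UpperHalfPlane.I : ℍ)).im_pos]
    simp only [mom_add f g _ (UpperHalfPlane.I : ℍ).im_pos, mul_add, Finset.sum_add_distrib]
    ring
  map_smul' c f := by
    simp only [perVal, RingHom.id_apply, smul_eq_mul]
    rw [mom_smul c f j (γ • (UpperHalfPlane.I : ℍ)).im_pos]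
    simp only [mom_smul c f _ (UpperHalfPlane.I : ℍ).im_pos]
    rw [mul_sub, Finset.mul_sum]
    congr 1
    refine Finset.sum_congr rfl fun i _ => ?_
    ring

theorem per_apply [NeZero N] (γ : SL(2, ℤ)) (j : Fin (w + 1)) (f : CF N w) :
    per γ j f = mom f j ((γ • (UpperHalfPlane.I : ℍ) : ℍ) : ℂ) -
      ∑ i : Fin (w + 1), (symMat w γ.1 j i : ℂ) * mom f i ((UpperHalfPlane.I : ℍ) : ℂ) := rfl

/-- The period lattice `Λ ⊆ V^*`. -/
noncomputable def periodLattice (N w : ℕ) [NeZero N] : Submodule ℤ (CF N w →ₗ[ℂ] ℂ) :=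
  Submodule.span ℤ {φ | ∃ γ : SL(2, ℤ), γ ∈ CongruenceSubgroup.Gamma0 N ∧
    ∃ j : Fin (w + 1), φ = per γ j}

theorem per_mem_periodLattice [NeZero N] {γ : SL(2, ℤ)} (hγ : γ ∈ CongruenceSubgroup.Gamma0 N)
    (j : Fin (w + 1)) : (per γ j : CF N w →ₗ[ℂ] ℂ) ∈ periodLattice N w :=
  Submodule.subset_span ⟨γ, hγ, j, rfl⟩

/-- To prove that a `ℤ`-linear condition holds on the period lattice it suffices to check
generators. -/
theorem periodLattice_induction [NeZero N] {p : (CF N w →ₗ[ℂ] ℂ) → Prop}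
    (hgen : ∀ γ : SL(2, ℤ), γ ∈ CongruenceSubgroup.Gamma0 N → ∀ j : Fin (w + 1), p (per γ j))
    (h0 : p 0) (hadd : ∀ φ ψ, p φ → p ψ → p (φ + ψ)) (hsmul : ∀ (n : ℤ) φ, p φ → p (n • φ))
    {φ : CF N w →ₗ[ℂ] ℂ} (hφ : φ ∈ periodLattice N w) : p φ := by
  induction hφ using Submodule.span_induction with
  | mem ψ hψ =>
    obtain ⟨γ, hγ, j, rfl⟩ := hψ
    exact hgen γ hγ j
  | zero => exact h0
  | add x y _ _ hx hy => exact hadd x y hx hy
  | smul n x _ hx => exact hsmul n x hx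

end Fermat.Agent.S22
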